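import Mathlib
import Fermat.Prelude.Def_FLTPrelim_ModularRep
import Fermat.Prelude.Def_FLTPrelim_Ramification
import Fermat.Agent.S05.WModel
import Fermat.Agent.S05.Red

/-!
# MR (S40), block E (= the elliptic curve side) : shared definitions

`A` is a valuation subring of `Qb` over the odd prime `p`, `I = A.inertiaSubgroupIn ℚ`,
`HH A p = I ∩ ker χ_p` (so that `Qb ^ HH = "ℚ_p^ur(ζ_p)" =: L₁`), `FixU A p σ` says that `σ` fixes
all `p`-th roots of units of `L₁`.  `EQ W` is the generic fibre of `W`, `MW W` the `S05.Model`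
`Y² = X³ + (b₂/4) X² + (b₄/2) X + b₆/4`, `X = x`, `Y = y + (a₁ x + a₃)/2` on `E(Qb)`.
-/

set_option autoImplicit false

open WeierstrassCurve WeierstrassCurve.Affine WeierstrassCurve.Affine.Point
open Fermat.Agent.S05

namespace Fermat.Agent.MR.E

local notation "Qb" => AlgebraicClosure ℚ
local notation "GQ" => (AlgebraicClosure ℚ ≃ₐ[ℚ] AlgebraicClosure ℚ)

/-- the automorphisms fixing all `p`-th roots of unity. -/
def fixMu (p : ℕ) : Subgroup GQ where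
  carrier := {σ | ∀ ζ : Qb, ζ ^ p = 1 → σ ζ = ζ}
  mul_mem' := by
    intro σ τ hσ hτ ζ hζ
    rw [AlgEquiv.mul_apply, hτ ζ hζ, hσ ζ hζ]
  one_mem' := fun _ _ => rfl
  inv_mem' := by
    intro σ hσ ζ hζ
    show σ.symm ζ = ζ
    rw [AlgEquiv.symm_apply_eq, hσ ζ hζ]

/-- `H = I ∩ ker χ_p`. -/
noncomputable def HH (A : ValuationSubring Qb) (p : ℕ) : Subgroup GQ := A.inertiaSubgroupIn ℚ ⊓ fixMu p

theorem mem_HH {A : ValuationSubring Qb} {p : ℕ} {σ : GQ} :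
    σ ∈ HH A p ↔ σ ∈ A.inertiaSubgroupIn ℚ ∧ ∀ ζ : Qb, ζ ^ p = 1 → σ ζ = ζ := Iff.rfl

/-- `σ` fixes every `p`-th root of every unit of `L₁ = Qb ^ HH`. -/
def FixU (A : ValuationSubring Qb) (p : ℕ) (σ : GQ) : Prop :=
  ∀ y : Qb, y ∈ A → y⁻¹ ∈ A → (∀ τ ∈ HH A p, τ (y ^ p) = y ^ p) → σ y = y

/-- the generic fibre. -/
abbrev EQ (W : WeierstrassCurve ℤ) : WeierstrassCurve ℚ := W.map (Int.castRingHom ℚ)

/-- the model `Y² = X³ + (b₂/4) X² + (b₄/2) X + b₆/4` on `E(Qb)`. -/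
noncomputable def MW (W : WeierstrassCurve ℤ) :
    Model ((EQ W)⁄Qb).Point (((EQ W)⁄Qb).b₂ / 4) (((EQ W)⁄Qb).b₄ / 2) (((EQ W)⁄Qb).b₆ / 4) :=
  weierstrassModel ((EQ W)⁄Qb) two_ne_zero

end Fermat.Agent.MR.E
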