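import Fermat.Agent.S13.NP

/-!
# MR / E : Gauss lemma for the big roots of an integral polynomial with top coefficient `-p`
-/

set_option autoImplicit false

open Polynomial

namespace Fermat.Agent.MR.E

section GaussAux

variable {K : Type*} [Field K] {Γ₀ : Type*} [LinearOrderedCommGroupWithZero Γ₀]
  (v : Valuation K Γ₀)

theorem Gauss_coeff_zero (s : Multiset K) :
    v ((s.map (fun a => X - C a)).prod.coeff 0) = (s.map v).prod := by
  induction s using Multiset.induction_on with
  | empty => simp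
  | cons a s ih =>
    rw [Multiset.map_cons, Multiset.prod_cons, Multiset.map_cons, Multiset.prod_cons,
      mul_coeff_zero, map_mul, ih]
    simp

theorem Gauss_coeff_le (s : Multiset K) (hs : ∀ a ∈ s, v a ≤ 1) (j : ℕ) :
    v ((s.map (fun a => X - C a)).prod.coeff j) ≤ 1 := by
  induction s using Multiset.induction_on generalizing j with
  | empty =>
    rw [Multiset.map_zero, Multiset.prod_zero, coeff_one]
    split_ifs
    · rw [map_one]
    · rw [map_zero]; exact zero_le_one
  | cons a s ih =>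
    have ih' := ih (fun b hb => hs b (Multiset.mem_cons_of_mem hb))
    have ha : v a ≤ 1 := hs a (Multiset.mem_cons_self a s)
    rw [Multiset.map_cons, Multiset.prod_cons, sub_mul, coeff_sub, coeff_C_mul]
    have h2 : v (a * (s.map (fun a => X - C a)).prod.coeff j) ≤ 1 := by
      rw [map_mul]; exact mul_le_one' ha (ih' j)
    refine (v.map_sub _ _).trans (max_le ?_ h2)
    rcases j with _ | i
    · rw [mul_coeff_zero, coeff_X_zero, zero_mul, map_zero]; exact zero_le_one
    · rw [coeff_X_mul]; exact ih' i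

/-- coefficients of a product of integral polynomials. -/
theorem Gauss_mul_coeff_le (q g : K[X]) (hq : ∀ j, v (q.coeff j) ≤ 1) (hg : ∀ j, v (g.coeff j) ≤ 1)
    (j : ℕ) : v ((q * g).coeff j) ≤ 1 := by
  rw [coeff_mul]
  refine v.map_sum_le fun x _ => ?_
  rw [map_mul]
  exact mul_le_one' (hq _) (hg _)

/-- the coefficient of degree `deg g` of `q g`, `q = 1 + small`, `g` monic integral, is a unit. -/
theorem Gauss_mul_coeff_eq_one (q g : K[X]) (hq0 : q.coeff 0 = 1)
    (hq : ∀ j, 0 < j → v (q.coeff j) < 1) (hg : ∀ j, v (g.coeff j) ≤ 1) (hmon : g.Monic) :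
    v ((q * g).coeff g.natDegree) = 1 := by
  classical
  rw [coeff_mul]
  have hmem : ((0 : ℕ), g.natDegree) ∈ Finset.HasAntidiagonal.antidiagonal g.natDegree := by
    rw [Finset.HasAntidiagonal.mem_antidiagonal, zero_add]
  rw [← Finset.add_sum_erase _ _ hmem, hq0, one_mul, hmon.coeff_natDegree]
  apply Valuation.map_one_add_of_lt
  refine v.map_sum_lt one_ne_zero fun x hx => ?_
  rw [Finset.mem_erase, Finset.HasAntidiagonal.mem_antidiagonal] at hx
  have hx1 : 0 < x.1 := by
    rcases Nat.eq_zero_or_pos x.1 with h0 | h0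
    · exfalso
      apply hx.1
      have h2 : x.2 = g.natDegree := by have := hx.2; omega
      exact Prod.ext h0 h2
    · exact h0
  rw [map_mul]
  exact lt_of_le_of_lt (mul_le_of_le_one_right' (hg _)) (hq _ hx1)

end GaussAux

open Classical in
/-- `h ∈ ℤ[X]`, `deg h ≤ d`, coefficient `-p` in degree `d`, `h mod p ≠ 0`; then
`v(p) * ∏_{x root of h, 1 < v x} v x = 1`.

PROOF.  `hK := h.map _ = C (-p) * ∏_{x ∈ R} (X - C x)`, `R = hK.roots` (`IsAlgClosed.splits`,
`Polynomial.Splits.eq_prod_roots` / `C_leadingCoeff_mul_prod_multiset_X_sub_C`; leading coeff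
`= -p ≠ 0`, natDegree `= d`).  `R = B + S`, `B = R.filter (1 < v ·)`, `S = R.filter ¬ …`
(`Multiset.filter_add_not`).  `S13.np_prod_form B` : `∏_B (X - C x) = C c * q`, `q.coeff 0 = 1`,
`v (q.coeff j) < 1` for `j > 0`; comparing the coefficients of degree `0`: `c = ∏_B (-x)`, so
`v c = ∏_B v x`.  `g := ∏_S (X - C x)` is monic of degree `s = card S` with `v`-integral
coefficients (induction on the multiset, or `Multiset.prod_X_sub_C_coeff` + esymm).  So
`hK = C (-p c) * (q g)`, all coefficients of `q g` are integral and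
`(q g).coeff s = 1 + Σ_{i > 0} q_i g_{s-i}` is a unit.  Hence `v (p c) = v (hK.coeff s) ≤ 1`, and
for `j₀` with `p ∤ h.coeff j₀` (exists as `h mod p ≠ 0`; `S13.np_val_intCast_eq_one`)
`1 = v (hK.coeff j₀) = v (p c) * v ((q g).coeff j₀) ≤ v (p c)`.
Compare the proof of `S13.newton_polygon` (the case `S = ∅`). -/
theorem gauss_prod {K : Type*} [Field K] [IsAlgClosed K] [CharZero K] {Γ₀ : Type*}
    [LinearOrderedCommGroupWithZero Γ₀] (v : Valuation K Γ₀) (p : ℕ) (hp : p.Prime)
    (hvp : v (p : K) < 1) (h : ℤ[X]) (d : ℕ) (hdeg : h.natDegree ≤ d)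
    (hlc : h.coeff d = -(p : ℤ)) (hmod : h.map (Int.castRingHom (ZMod p)) ≠ 0) :
    v (p : K) * (((h.map (Int.castRingHom K)).roots.filter (fun x => 1 < v x)).map v).prod = 1 := by
  set H : K[X] := h.map (Int.castRingHom K) with hH
  have hcoeff : ∀ j, H.coeff j = ((h.coeff j : ℤ) : K) := fun j => by
    rw [hH, coeff_map]; rfl
  have hpK : (p : K) ≠ 0 := Nat.cast_ne_zero.2 hp.ne_zero
  have hHd : H.coeff d = -(p : K) := by
    rw [hcoeff d, hlc]; push_cast; rfl
  have hHd0 : H.coeff d ≠ 0 := by rw [hHd]; exact neg_ne_zero.2 hpK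
  have hnat : H.natDegree = d :=
    le_antisymm (natDegree_map_le.trans hdeg) (le_natDegree_of_ne_zero hHd0)
  have hlcH : H.leadingCoeff = -(p : K) := by rw [leadingCoeff, hnat, hHd]
  set B := H.roots.filter (fun x => 1 < v x) with hB
  set S := H.roots.filter (fun x => ¬ 1 < v x) with hS
  have hBS : B + S = H.roots := Multiset.filter_add_not _ _
  obtain ⟨c, q, hq, hq0, hqj⟩ := Fermat.Agent.S13.np_prod_form v B
    (fun a ha => (Multiset.mem_filter.1 ha).2)
  set g : K[X] := (S.map (fun a => X - C a)).prod with hg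
  have hgle : ∀ j, v (g.coeff j) ≤ 1 :=
    Gauss_coeff_le v S (fun a ha => not_lt.1 (Multiset.mem_filter.1 ha).2)
  have hgmon : g.Monic := monic_multiset_prod_of_monic _ _ (fun a _ => monic_X_sub_C a)
  have hqle : ∀ j, v (q.coeff j) ≤ 1 := by
    intro j
    rcases Nat.eq_zero_or_pos j with rfl | hj
    · rw [hq0, map_one]
    · exact (hqj j hj).le
  have hvc : v c = (B.map v).prod := by
    rw [← Gauss_coeff_zero v B, hq, coeff_C_mul, hq0, mul_one]
  have hsplit : H = C H.leadingCoeff * (H.roots.map (fun a => X - C a)).prod :=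
    (IsAlgClosed.splits H).eq_prod_roots
  have hform : H = C (-(p : K) * c) * (q * g) := by
    conv_lhs => rw [hsplit, ← hBS, Multiset.map_add, Multiset.prod_add, hq, hlcH]
    rw [C_mul]; ring
  have hcf : ∀ j, v (H.coeff j) = v (p : K) * v c * v ((q * g).coeff j) := by
    intro j
    conv_lhs => rw [hform, coeff_C_mul, map_mul, map_mul, Valuation.map_neg]
  have hle : v (p : K) * v c ≤ 1 := by
    have h1 := hcf g.natDegree
    rw [Gauss_mul_coeff_eq_one v q g hq0 hqj hgle hgmon, mul_one] at h1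
    rw [← h1, hcoeff]
    exact Fermat.Agent.S13.np_val_intCast_le_one v _
  obtain ⟨j₀, hj₀⟩ : ∃ j₀, ¬ (p : ℤ) ∣ h.coeff j₀ := by
    by_contra hcon
    push Not at hcon
    apply hmod
    ext j
    rw [coeff_map, coeff_zero]
    simpa using (ZMod.intCast_zmod_eq_zero_iff_dvd _ _).2 (hcon j)
  have hge : 1 ≤ v (p : K) * v c := by
    have h1 := hcf j₀
    rw [hcoeff, Fermat.Agent.S13.np_val_intCast_eq_one v p hp hvp _ hj₀] at h1
    rw [h1]
    exact mul_le_of_le_one_right' (Gauss_mul_coeff_le v q g hqle hgle j₀)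
  rw [← hvc]
  exact le_antisymm hle hge

end Fermat.Agent.MR.E
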