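import Fermat.Agent.MR.E.Defs
import Fermat.Agent.S05.KerRed

/-!
# MR / E : `z(kP) = k z(P) + higher order` in the kernel of reduction
-/

set_option autoImplicit false

open Fermat.Agent.S05

namespace Fermat.Agent.MR.E

variable {K : Type*} [Field K] {Γ₀ : Type*} [LinearOrderedCommGroupWithZero Γ₀]
  {G : Type*} [AddCommGroup G] {a₂ a₄ a₆ : K}

/-- `z(kP) ≡ k z(P)` modulo higher order, for `P` in the kernel of reduction. -/
theorem zPar_nsmul (v : Valuation K Γ₀) (M : Model G a₂ a₄ a₆) (h₂ : v a₂ ≤ 1) (h₄ : v a₄ ≤ 1)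
    (h₆ : v a₆ ≤ 1) {P : G} (hP : P ≠ 0) (hX : 1 < v (M.X P)) (k : ℕ) :
    (k • P = 0 ∨ 1 < v (M.X (k • P))) ∧ v (M.zPar (k • P) - k * M.zPar P) < v (M.zPar P) := by
  obtain ⟨ht0, ht1⟩ := M.v_zPar_lt_one v h₂ h₄ h₆ hP hX
  set t := M.zPar P with ht
  induction k with
  | zero => simp [Model.zPar_zero, ht0]
  | succ k ih =>
    obtain ⟨ih1, ih2⟩ := ih
    have hsucc : (k + 1) • P = k • P + P := succ_nsmul P k
    by_cases hQ : k • P = 0
    · -- `(k+1) • P = P`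
      have hR : (k + 1) • P = P := by rw [hsucc, hQ, zero_add]
      rw [hR]
      refine ⟨Or.inr hX, ?_⟩
      rw [hQ, Model.zPar_zero] at ih2
      have : M.zPar P - ((k + 1 : ℕ) : K) * t = 0 - k * t := by
        rw [← ht]; push_cast; ring
      rw [this]; exact ih2
    · by_cases hR : (k + 1) • P = 0
      · refine ⟨Or.inl hR, ?_⟩
        have hQP : k • P = -P := by
          rw [hsucc] at hR
          exact eq_neg_of_add_eq_zero_left hR
        rw [hQP, Model.zPar_neg, ← ht] at ih2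
        rw [hR, Model.zPar_zero]
        have : (0 : K) - ((k + 1 : ℕ) : K) * t = -t - k * t := by push_cast; ring
        rw [this]; exact ih2
      · have hXQ : 1 < v (M.X (k • P)) := ih1.resolve_left hQ
        have hsum : k • P + P + -((k + 1) • P) = 0 := by rw [hsucc]; abel
        have T := M.tri (k • P) P (-((k + 1) • P)) hQ hP (neg_ne_zero.mpr hR) hsum
        have hXR' : 1 < v (M.X (-((k + 1) • P))) := tri_E1_closed v h₂ h₄ h₆ T hXQ hX
        have hXR : 1 < v (M.X ((k + 1) • P)) := by rwa [M.X_neg] at hXR'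
        refine ⟨Or.inr hXR, ?_⟩
        have hz := tri_z_add v h₂ h₄ h₆ T hXQ hX hXR'
        rw [← M.zPar_of_ne hQ, ← M.zPar_of_ne hP, ← M.zPar_of_ne (neg_ne_zero.mpr hR),
          Model.zPar_neg, ← ht, v.map_neg] at hz
        obtain ⟨-, hzQ⟩ := M.v_zPar_lt_one v h₂ h₄ h₆ hQ hXQ
        obtain ⟨-, hzR⟩ := M.v_zPar_lt_one v h₂ h₄ h₆ hR hXR
        have hlt : v (M.zPar (k • P) + t + -M.zPar ((k + 1) • P)) < v t := by
          refine lt_of_le_of_lt hz ?_
          calc v (M.zPar (k • P)) * v t * v (M.zPar ((k + 1) • P))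
              ≤ 1 * v t * v (M.zPar ((k + 1) • P)) := by gcongr
            _ = v t * v (M.zPar ((k + 1) • P)) := by rw [one_mul]
            _ < v t * 1 := (mul_lt_mul_iff_right₀ ht0).mpr hzR
            _ = v t := mul_one _
        have : M.zPar ((k + 1) • P) - ((k + 1 : ℕ) : K) * t
            = (M.zPar (k • P) - k * t) - (M.zPar (k • P) + t + -M.zPar ((k + 1) • P)) := by
          push_cast; ring
        rw [this]
        exact v.map_sub_lt ih2 hlt

/-- if `k` is a `v`-unit, `kP ≠ 0` lies in the kernel of reduction and `v z(kP) = v z(P)`. -/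
theorem zPar_nsmul_unit (v : Valuation K Γ₀) (M : Model G a₂ a₄ a₆) (h₂ : v a₂ ≤ 1)
    (h₄ : v a₄ ≤ 1) (h₆ : v a₆ ≤ 1) {P : G} (hP : P ≠ 0) (hX : 1 < v (M.X P)) {k : ℕ}
    (hk : v (k : K) = 1) :
    k • P ≠ 0 ∧ 1 < v (M.X (k • P)) ∧ v (M.zPar (k • P)) = v (M.zPar P) := by
  obtain ⟨h1, h2⟩ := zPar_nsmul v M h₂ h₄ h₆ hP hX k
  have hkz : v ((k : K) * M.zPar P) = v (M.zPar P) := by rw [v.map_mul, hk, one_mul]
  have hval : v (M.zPar (k • P)) = v (M.zPar P) := by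
    have e : M.zPar (k • P) = (M.zPar (k • P) - k * M.zPar P) + k * M.zPar P := by ring
    rw [e, v.map_add_eq_of_lt_right (by rw [hkz]; exact h2), hkz]
  obtain ⟨ht0, -⟩ := M.v_zPar_lt_one v h₂ h₄ h₆ hP hX
  have hne : k • P ≠ 0 := by
    intro h0
    rw [h0, Model.zPar_zero, map_zero] at hval
    exact ht0.ne hval
  exact ⟨hne, h1.resolve_left hne, hval⟩

/-- `v X = (v z)⁻²` in the kernel of reduction. -/
theorem v_X_eq_zPar (v : Valuation K Γ₀) (M : Model G a₂ a₄ a₆) (h₂ : v a₂ ≤ 1)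
    (h₄ : v a₄ ≤ 1) (h₆ : v a₆ ≤ 1) {P : G} (hP : P ≠ 0) (hX : 1 < v (M.X P)) :
    v (M.X P) * v (M.zPar P) ^ 2 = 1 := by
  have he := M.eqn P hP
  set x := M.X P with hx
  set y := M.Y P with hy
  have p : 0 < v x := lt_trans zero_lt_one hX
  have hx2 : v x < v x ^ 2 := lt_sq_of_one_lt hX
  have hx3 : v x ^ 2 < v x ^ 3 := by
    calc v x ^ 2 = v x ^ 2 * 1 := (mul_one _).symm
      _ < v x ^ 2 * v x := (mul_lt_mul_iff_right₀ (pow_pos p 2)).mpr hX
      _ = v x ^ 3 := (pow_succ _ _).symm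
  have h1 : v (a₂ * x ^ 2 + a₄ * x + a₆) < v (x ^ 3) := by
    rw [v.map_pow]
    refine v.map_add_lt (v.map_add_lt ?_ ?_) ?_
    · rw [v.map_mul, v.map_pow]
      exact lt_of_le_of_lt (mul_le_of_le_one_left' h₂) hx3
    · rw [v.map_mul]
      exact lt_of_le_of_lt (mul_le_of_le_one_left' h₄) (hx2.trans hx3)
    · exact lt_of_le_of_lt h₆ (hX.trans (hx2.trans hx3))
  have h2 : v y ^ 2 = v x ^ 3 := by
    rw [← v.map_pow, he, ← v.map_pow]
    have e : x ^ 3 + a₂ * x ^ 2 + a₄ * x + a₆ = x ^ 3 + (a₂ * x ^ 2 + a₄ * x + a₆) := by ring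
    rw [e]
    exact v.map_add_eq_of_lt_left h1
  have hy0 : v y ^ 2 ≠ 0 := by rw [h2]; exact (pow_pos p 3).ne'
  rw [M.zPar_of_ne hP, ← hx, ← hy, map_div₀, div_pow, h2]
  have : v x ^ 3 ≠ 0 := (pow_pos p 3).ne'
  field_simp

end Fermat.Agent.MR.E
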