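import Fermat.Agent.MR.E.Roots
import Fermat.Agent.MR.E.Gauss
import Fermat.Agent.MR.E.ZMul
import Fermat.Agent.S13.LinAlg
import Fermat.Agent.S13.R1

/-!
# MR / E : the subgroup `C = E[p] ∩ E₁` : `C ≠ 0`; if `C ≠ E[p]` then `C = ℤ T` and
`v(z(T))^(p-1) = v(p)`.  Hypotheses: `Δ ≠ 0` and `hpoly W ((p-1)/2) mod p ≠ 0` (no good reduction).
-/

set_option autoImplicit false

open WeierstrassCurve WeierstrassCurve.Affine WeierstrassCurve.Affine.Point
open Fermat.Agent.S05 Polynomial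

namespace Fermat.Agent.MR.E

local notation "Qb" => AlgebraicClosure ℚ
local notation "GQ" => (AlgebraicClosure ℚ ≃ₐ[ℚ] AlgebraicClosure ℚ)

theorem CStruct_odd {p : ℕ} (hp : p.Prime) (hp2 : p ≠ 2) : ∃ m : ℕ, 1 ≤ m ∧ p = 2 * m + 1 ∧
    (p - 1) / 2 = m := by
  obtain ⟨m, hm⟩ := hp.odd_of_ne_two hp2
  have := hp.two_le
  exact ⟨m, by omega, hm, by omega⟩

open Classical in
theorem CStruct_gauss (W : WeierstrassCurve ℤ) {p : ℕ} (hp : p.Prime) {m : ℕ} (hm : 1 ≤ m)
    (hpm : p = 2 * m + 1)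
    (hmod : (S13.hpoly W m).map (Int.castRingHom (ZMod p)) ≠ 0)
    (A : ValuationSubring Qb) (hA : A.LiesOverPrime p) :
    A.valuation (p : Qb) *
      (((hQb W m).roots.filter (fun x => 1 < A.valuation x)).map A.valuation).prod = 1 :=
  gauss_prod A.valuation p hp (val_p_lt hA) (S13.hpoly W m) (2 * m ^ 2 + 2 * m)
    (S13.hpoly_natDegree_le W m hm) (by rw [S13.hpoly_coeff W m hm, hpm]) hmod

theorem exists_big (W : WeierstrassCurve ℤ) {p : ℕ} (hp : p.Prime) (hp2 : p ≠ 2)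
    (hΔ : (EQ W).Δ ≠ 0) (hmod : (S13.hpoly W ((p - 1) / 2)).map (Int.castRingHom (ZMod p)) ≠ 0)
    (A : ValuationSubring Qb) (hA : A.LiesOverPrime p) :
    ∃ T : ((EQ W)⁄Qb).Point, (p : ℤ) • T = 0 ∧ T ≠ 0 ∧ (MW W).X T ∉ A := by
  classical
  obtain ⟨m, hm, hpm, hm'⟩ := CStruct_odd hp hp2
  rw [hm'] at hmod
  have hg := CStruct_gauss W hp hm hpm hmod A hA
  by_cases hB : (hQb W m).roots.filter (fun x => 1 < A.valuation x) = 0
  · rw [hB, Multiset.map_zero, Multiset.prod_zero, mul_one] at hg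
    exact absurd hg (val_p_lt hA).ne
  · obtain ⟨x, hx⟩ := Multiset.exists_mem_of_ne_zero hB
    rw [Multiset.mem_filter] at hx
    obtain ⟨P, hP0, hP, hPx⟩ := exists_point_of_root W hΔ m hm x (isRoot_of_mem_roots hx.1)
    refine ⟨P, by rw [hpm]; exact hP, hP0, ?_⟩
    rw [hPx, ← A.valuation_le_one_iff, not_le]
    exact hx.2

theorem CStruct_inE1_iff (W : WeierstrassCurve ℤ) (A : ValuationSubring Qb)
    (P : ((EQ W)⁄Qb).Point) : S13.InE1 A.valuation P ↔ P = 0 ∨ (MW W).X P ∉ A := by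
  rcases P with _ | ⟨x, y, h⟩
  · exact ⟨fun _ => Or.inl rfl, fun _ => trivial⟩
  · rw [MW_X_some, ← A.valuation_le_one_iff, not_le]
    constructor
    · intro h1
      exact Or.inr h1
    · rintro (h1 | h1)
      · exact absurd h1 (Point.some_ne_zero h)
      · exact h1

/-- `C = E[p] ∩ E₁` -/
noncomputable def CStruct_C (A : ValuationSubring Qb) (W : WeierstrassCurve ℤ) (p : ℕ) :
    Submodule (ZMod p) (Submodule.torsionBy ℤ ((EQ W)⁄Qb).Point (p : ℤ)) :=
  AddSubgroup.toZModSubmodule p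
    { carrier := {x | S13.InE1 A.valuation (x : ((EQ W)⁄Qb).Point)}
      add_mem' := fun ha hb => S13.inE1_add A.valuation (integralCoeffs A W) ha hb
      zero_mem' := trivial
      neg_mem' := fun ha => S13.inE1_neg A.valuation ha }

theorem ord_struct (W : WeierstrassCurve ℤ) {p : ℕ} (hp : p.Prime) (hp2 : p ≠ 2)
    (hΔ : (EQ W).Δ ≠ 0) (A : ValuationSubring Qb)
    {P₀ : ((EQ W)⁄Qb).Point} (h1 : (p : ℤ) • P₀ = 0) (h2 : P₀ ≠ 0) (h3 : (MW W).X P₀ ∈ A)
    {T : ((EQ W)⁄Qb).Point} (hT : (p : ℤ) • T = 0) (hT0 : T ≠ 0) (hTA : (MW W).X T ∉ A)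
    (P : ((EQ W)⁄Qb).Point) (hP : (p : ℤ) • P = 0) (_hP0 : P ≠ 0) (hPA : (MW W).X P ∉ A) :
    ∃ a : ℤ, P = a • T := by
  have : Fact p.Prime := ⟨hp⟩
  have hfin := S41.G.finite_torsionBy_Qbar (EQ W) hΔ hp hp2
  have hcard := S41.G.card_torsionBy_Qbar (EQ W) hΔ hp hp2
  set C := CStruct_C A W p with hC
  have hmem : ∀ x : Submodule.torsionBy ℤ ((EQ W)⁄Qb).Point (p : ℤ),
      x ∈ C ↔ S13.InE1 A.valuation (x : ((EQ W)⁄Qb).Point) := fun _ => Iff.rfl
  let T' : Submodule.torsionBy ℤ ((EQ W)⁄Qb).Point (p : ℤ) :=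
    ⟨T, (Submodule.mem_torsionBy_iff _ _).2 hT⟩
  let P' : Submodule.torsionBy ℤ ((EQ W)⁄Qb).Point (p : ℤ) :=
    ⟨P, (Submodule.mem_torsionBy_iff _ _).2 hP⟩
  let P₀' : Submodule.torsionBy ℤ ((EQ W)⁄Qb).Point (p : ℤ) :=
    ⟨P₀, (Submodule.mem_torsionBy_iff _ _).2 h1⟩
  have hT'C : T' ∈ C := (hmem _).2 ((CStruct_inE1_iff W A T).2 (Or.inr hTA))
  have hP'C : P' ∈ C := (hmem _).2 ((CStruct_inE1_iff W A P).2 (Or.inr hPA))
  have hb : C ≠ ⊥ := by
    intro h
    rw [h, Submodule.mem_bot] at hT'C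
    exact hT0 (congrArg Subtype.val hT'C)
  have ht : C ≠ ⊤ := by
    intro h
    have : P₀' ∈ C := by rw [h]; trivial
    rcases (CStruct_inE1_iff W A P₀).1 ((hmem _).1 this) with h | h
    · exact h2 h
    · exact h h3
  obtain ⟨-, hC1⟩ := S13.finrank_of_card_le (k := ZMod p) (by rw [Nat.card_zmod, hcard]) C hb ht
  have hne : (⟨T', hT'C⟩ : C) ≠ 0 := by
    intro h
    exact hT0 (congrArg (fun z : C => ((z : Submodule.torsionBy ℤ ((EQ W)⁄Qb).Point (p : ℤ)) :
      ((EQ W)⁄Qb).Point)) h)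
  obtain ⟨c, hc⟩ := (finrank_eq_one_iff_of_nonzero' (⟨T', hT'C⟩ : C) hne).1 hC1 ⟨P', hP'C⟩
  obtain ⟨n, rfl⟩ : ∃ n : ℕ, (n : ZMod p) = c := ⟨c.val, ZMod.natCast_zmod_val c⟩
  refine ⟨n, ?_⟩
  rw [Nat.cast_smul_eq_nsmul] at hc
  have := congrArg (fun z : C => ((z : Submodule.torsionBy ℤ ((EQ W)⁄Qb).Point (p : ℤ)) :
      ((EQ W)⁄Qb).Point)) hc
  rw [natCast_zsmul]
  exact this.symm

theorem val_zPar_pow (W : WeierstrassCurve ℤ) {p : ℕ} (hp : p.Prime) (hp2 : p ≠ 2)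
    (hΔ : (EQ W).Δ ≠ 0) (hmod : (S13.hpoly W ((p - 1) / 2)).map (Int.castRingHom (ZMod p)) ≠ 0)
    (A : ValuationSubring Qb) (hA : A.LiesOverPrime p)
    {T : ((EQ W)⁄Qb).Point} (hT : (p : ℤ) • T = 0) (hT0 : T ≠ 0) (hTA : (MW W).X T ∉ A)
    (hC : ∀ P : ((EQ W)⁄Qb).Point, (p : ℤ) • P = 0 → P ≠ 0 → (MW W).X P ∉ A → ∃ a : ℤ, P = a • T) :
    A.valuation ((MW W).zPar T) ^ (p - 1) = A.valuation (p : Qb) := by
  classical
  obtain ⟨m, hm, hpm, hm'⟩ := CStruct_odd hp hp2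
  rw [hm'] at hmod
  have hg := CStruct_gauss W hp hm hpm hmod A hA
  obtain ⟨c₂, c₄, c₆⟩ := MW_coeff_val W hp hp2 A hA
  have hX : 1 < A.valuation ((MW W).X T) := by
    rw [← not_le, A.valuation_le_one_iff]; exact hTA
  have hTn : p • T = 0 := by rw [← natCast_zsmul]; exact hT
  -- multiples of `T`
  have hunit : ∀ a : ℕ, 0 < a → a < p → a • T ≠ 0 ∧ 1 < A.valuation ((MW W).X (a • T)) ∧
      A.valuation ((MW W).zPar (a • T)) = A.valuation ((MW W).zPar T) := by
    intro a ha0 hap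
    exact zPar_nsmul_unit A.valuation (MW W) c₂ c₄ c₆ hT0 hX
      (val_natCast_eq_one hp hA (fun h => absurd (Nat.le_of_dvd ha0 h) (not_le.2 hap)))
  obtain ⟨hz0, -⟩ := (MW W).v_zPar_lt_one A.valuation c₂ c₄ c₆ hT0 hX
  have hξ := v_X_eq_zPar A.valuation (MW W) c₂ c₄ c₆ hT0 hX
  have hval : ∀ a : ℕ, 0 < a → a < p →
      A.valuation ((MW W).X (a • T)) = A.valuation ((MW W).X T) := by
    intro a ha0 hap
    obtain ⟨h1, h2, h3⟩ := hunit a ha0 hap
    have h4 := v_X_eq_zPar A.valuation (MW W) c₂ c₄ c₆ h1 h2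
    rw [h3, ← hξ] at h4
    exact mul_right_cancel₀ (pow_ne_zero 2 hz0.ne') h4
  set f : ℕ → Qb := fun a => (MW W).X (a • T) with hf
  have hinj : ∀ a ∈ (Finset.Icc 1 m).val, ∀ b ∈ (Finset.Icc 1 m).val, f a = f b → a = b := by
    intro a ha b hb hab
    rw [Finset.mem_val, Finset.mem_Icc] at ha hb
    have key : ∀ a b : ℕ, 1 ≤ a → a ≤ m → 1 ≤ b → b ≤ m → f a = f b → ¬ a < b := by
      intro a b ha1 ha2 hb1 hb2 hab hlt
      rcases (MW_X_eq_iff W (hunit a (by omega) (by omega)).1 (hunit b (by omega) (by omega)).1).1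
        hab with h | h
      · apply (hunit (b - a) (by omega) (by omega)).1
        have : b • T = (b - a) • T + a • T := by rw [← add_nsmul]; congr 1; omega
        rw [← h] at this
        exact (add_eq_right.1 this.symm)
      · apply (hunit (a + b) (by omega) (by omega)).1
        rw [add_nsmul, h, neg_add_cancel]
    rcases lt_trichotomy a b with h | h | h
    · exact absurd h (key a b ha.1 ha.2 hb.1 hb.2 hab)
    · exact h
    · exact absurd h (key b a hb.1 hb.2 ha.1 ha.2 hab.symm)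
  have hBeq : (hQb W m).roots.filter (fun x => 1 < A.valuation x)
      = (Finset.Icc 1 m).val.map f := by
    refine (Multiset.Nodup.ext ((hQb_roots_nodup W hΔ m hm (hpm ▸ hp)).filter _)
      (Multiset.Nodup.map_on hinj (Finset.Icc 1 m).nodup)).2 ?_
    intro x
    rw [Multiset.mem_filter, Multiset.mem_map]
    have hne0 : hQb W m ≠ 0 := by
      intro h0
      have := hQb_roots_card W m hm
      rw [h0, roots_zero, Multiset.card_zero] at this
      nlinarith
    constructor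
    · rintro ⟨hx1, hx2⟩
      obtain ⟨P, hP0, hP, hPx⟩ := exists_point_of_root W hΔ m hm x (isRoot_of_mem_roots hx1)
      rw [← hpm] at hP
      obtain ⟨a, ha⟩ := hC P hP hP0 (by
        rw [hPx, ← A.valuation_le_one_iff, not_le]; exact hx2)
      have hpZ : (0 : ℤ) < p := by exact_mod_cast hp.pos
      set r := (a % p).toNat with hr
      have hrZ : (r : ℤ) = a % p := Int.toNat_of_nonneg (Int.emod_nonneg _ hpZ.ne')
      have hPr : P = r • T := by
        rw [← natCast_zsmul, hrZ, ha]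
        conv_lhs => rw [← Int.mul_ediv_add_emod a p]
        rw [add_zsmul, mul_comm, mul_zsmul, hT, zsmul_zero, zero_add]
      have hrp : r < p := by
        have := Int.emod_lt_of_pos a hpZ
        omega
      have hr0 : 0 < r := by
        rcases Nat.eq_zero_or_pos r with h | h
        · rw [h, zero_nsmul] at hPr
          exact absurd hPr hP0
        · exact h
      by_cases hrm : r ≤ m
      · exact ⟨r, by rw [Finset.mem_val, Finset.mem_Icc]; omega, by rw [hf]; simp only; rw [← hPr, hPx]⟩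
      · refine ⟨p - r, by rw [Finset.mem_val, Finset.mem_Icc]; omega, ?_⟩
        have : (p - r) • T = -P := by
          rw [eq_neg_iff_add_eq_zero, hPr, ← add_nsmul, Nat.sub_add_cancel hrp.le, hTn]
        rw [hf]; simp only
        rw [this, (MW W).X_neg, hPx]
    · rintro ⟨a, ha, rfl⟩
      rw [Finset.mem_val, Finset.mem_Icc] at ha
      obtain ⟨h1, h2, -⟩ := hunit a (by omega) (by omega)
      refine ⟨?_, h2⟩
      rw [mem_roots hne0, IsRoot.def, ← tors_iff_root W m hm _ h1, ← hpm, natCast_zsmul,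
        smul_comm, hTn, nsmul_zero]
  rw [hBeq, Multiset.map_map] at hg
  have hprod : ((Finset.Icc 1 m).val.map (A.valuation ∘ f)).prod
      = A.valuation ((MW W).X T) ^ m := by
    have : ∀ a ∈ Finset.Icc 1 m, (A.valuation ∘ f) a = A.valuation ((MW W).X T) := by
      intro a ha
      rw [Finset.mem_Icc] at ha
      exact hval a (by omega) (by omega)
    change ∏ a ∈ Finset.Icc 1 m, (A.valuation ∘ f) a = _
    rw [Finset.prod_congr rfl this, Finset.prod_const, Nat.card_Icc]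
    simp
  rw [hprod] at hg
  have hp1 : p - 1 = 2 * m := by omega
  calc A.valuation ((MW W).zPar T) ^ (p - 1)
      = (A.valuation (p : Qb) * A.valuation ((MW W).X T) ^ m)
          * A.valuation ((MW W).zPar T) ^ (p - 1) := by rw [hg, one_mul]
    _ = A.valuation (p : Qb)
          * (A.valuation ((MW W).X T) * A.valuation ((MW W).zPar T) ^ 2) ^ m := by
        rw [hp1, mul_pow, ← pow_mul, mul_assoc]
    _ = A.valuation (p : Qb) := by rw [hξ, one_pow, mul_one]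

end Fermat.Agent.MR.E
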