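import Mathlib
import Fermat.Prelude.Def_FLTPrelim_Ramification

/-!
# MR / E : valuations of `ζ - 1`
-/

set_option autoImplicit false

open Polynomial

namespace Fermat.Agent.MR.E

local notation "Qb" => AlgebraicClosure ℚ

private theorem Cyc_val_geom_le (A : ValuationSubring Qb) {x : Qb} (hx : A.valuation x ≤ 1)
    (n : ℕ) : A.valuation (∑ i ∈ Finset.range n, x ^ i) ≤ 1 := by
  apply Valuation.map_sum_le
  intro i _
  rw [map_pow]
  exact pow_le_one' hx i

private theorem Cyc_val_pow_sub_one_le (A : ValuationSubring Qb) {x : Qb}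
    (hx : A.valuation x ≤ 1) (n : ℕ) : A.valuation (x ^ n - 1) ≤ A.valuation (x - 1) := by
  rw [← geom_sum_mul, map_mul]
  exact mul_le_of_le_one_left' (Cyc_val_geom_le A hx n)

private theorem Cyc_val_root (A : ValuationSubring Qb) {p : ℕ} (hp : p.Prime)
    {ζ : Qb} (hζ : IsPrimitiveRoot ζ p) : A.valuation ζ = 1 := by
  have h : A.valuation ζ ^ p = 1 := by rw [← map_pow, hζ.pow_eq_one, map_one]
  exact (pow_eq_one_iff.1 h).resolve_right hp.ne_zero

private theorem Cyc_val_sub_one_le (A : ValuationSubring Qb) {p : ℕ} (hp : p.Prime)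
    {ζ μ : Qb} (hζ : IsPrimitiveRoot ζ p) (hμ : IsPrimitiveRoot μ p) :
    A.valuation (μ - 1) ≤ A.valuation (ζ - 1) := by
  have : NeZero p := ⟨hp.ne_zero⟩
  obtain ⟨i, _, rfl⟩ := hζ.eq_pow_of_pow_eq_one hμ.pow_eq_one
  exact Cyc_val_pow_sub_one_le A (Cyc_val_root A hp hζ).le i

/-- `ζ^e - 1 = (ζ - 1) * Σ_{i<e} ζ^i` and `Σ_{i<e} ζ^i - e = Σ (ζ^i - 1)` is divisible by `ζ - 1`
in `ℤ[ζ] ⊆ A`; `v (ζ - 1) < 1` because `v (ζ-1)^(p-1) = v p < 1`. -/
theorem val_zeta_sub_one_pow (A : ValuationSubring Qb) {p : ℕ} (hp : p.Prime)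
    {ζ : Qb} (hζ : IsPrimitiveRoot ζ p) :
    A.valuation (ζ - 1) ^ (p - 1) = A.valuation (p : Qb) := by
  have : Fact p.Prime := ⟨hp⟩
  have h1 : ((p : ℕ) : Qb) = ∏ μ ∈ primitiveRoots p Qb, (1 - μ) := by
    have h := eval_one_cyclotomic_prime (R := Qb) (p := p)
    rw [cyclotomic_eq_prod_X_sub_primitiveRoots hζ, eval_prod] at h
    rw [← h]
    refine Finset.prod_congr rfl fun μ _ => ?_
    simp
  rw [h1, map_prod]
  have h2 : ∀ μ ∈ primitiveRoots p Qb, A.valuation (1 - μ) = A.valuation (ζ - 1) := by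
    intro μ hμ
    have hμ' : IsPrimitiveRoot μ p := (mem_primitiveRoots hp.pos).1 hμ
    rw [Valuation.map_sub_swap]
    exact le_antisymm (Cyc_val_sub_one_le A hp hζ hμ') (Cyc_val_sub_one_le A hp hμ' hζ)
  rw [Finset.prod_congr rfl h2, Finset.prod_const, hζ.card_primitiveRoots, Nat.totient_prime hp]

theorem val_zeta_pow_sub (A : ValuationSubring Qb) {p : ℕ} (hp : p.Prime)
    (hA : A.LiesOverPrime p) {ζ : Qb} (hζ : IsPrimitiveRoot ζ p) (e : ℕ) :
    A.valuation ((ζ ^ e - 1) - e * (ζ - 1)) < A.valuation (ζ - 1) := by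
  have hlt : A.valuation (ζ - 1) < 1 := by
    have h := val_zeta_sub_one_pow A hp hζ
    have hp1 : A.valuation (p : Qb) < 1 := (ValuationSubring.mem_nonunits_iff A).mp hA
    rw [← h] at hp1
    by_contra hcon
    exact absurd hp1 (not_lt.2 (one_le_pow_of_one_le' (not_lt.1 hcon) _))
  have hne : A.valuation (ζ - 1) ≠ 0 := by
    rw [Valuation.ne_zero_iff]
    exact sub_ne_zero.2 (hζ.ne_one hp.one_lt)
  have hkey : (ζ ^ e - 1) - e * (ζ - 1) = (∑ i ∈ Finset.range e, (ζ ^ i - 1)) * (ζ - 1) := by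
    rw [Finset.sum_sub_distrib, sub_mul, geom_sum_mul]
    simp
  have hs : A.valuation (∑ i ∈ Finset.range e, (ζ ^ i - 1)) < 1 := by
    apply Valuation.map_sum_lt _ one_ne_zero
    intro i _
    exact lt_of_le_of_lt (Cyc_val_pow_sub_one_le A (Cyc_val_root A hp hζ).le i) hlt
  rw [hkey, map_mul]
  calc A.valuation (∑ i ∈ Finset.range e, (ζ ^ i - 1)) * A.valuation (ζ - 1)
      < 1 * A.valuation (ζ - 1) := by
        exact mul_lt_mul_of_pos_right hs (zero_lt_iff.2 hne)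
    _ = A.valuation (ζ - 1) := one_mul _

end Fermat.Agent.MR.E
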