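import Fermat.Agent.S05.Main

/-!
# MR / E (S44) : multiplicative reduction `Y² = X (X - δ) (X - u)`, residue characteristic arbitrary:
`σ P - P` lies in the kernel of reduction for `σ` inertial and `P` a `p`-torsion point
(`v δ = v d ^ p`, `σ d = d`).  These are the bodies of `S05.Model.fixed_of_sing`,
`S05.Model.fixed_of_nonsing`, which do not use `v p = 1`.
-/

set_option autoImplicit false

open Fermat.Agent.S05

namespace Fermat.Agent.MR.E

variable {K : Type*} [Field K] {Γ₀ : Type*} [LinearOrderedCommGroupWithZero Γ₀]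
variable {G : Type*} [AddCommGroup G]

theorem DiffE1_big {v : Valuation K Γ₀} {a₂ a₄ a₆ : K} {M : Model G a₂ a₄ a₆}
    {s : K →+* K} {S : G →+ G} (I : IsInertial v M s S) {a : K} (ha : 1 < v a) : 1 < v (s a) := by
  have ha0 : a ≠ 0 := by
    rintro rfl
    rw [map_zero] at ha
    exact absurd ha (not_lt.2 zero_le)
  have h1 : v a⁻¹ < 1 := by
    rw [map_inv₀]; exact inv_lt_one_of_one_lt₀ ha
  have h2 : v (s a⁻¹) < 1 := by
    have : s a⁻¹ = (s a⁻¹ - a⁻¹) + a⁻¹ := by ring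
    rw [this]
    exact v.map_add_lt (I.sub_lt _ h1.le) h1
  rw [map_inv₀, map_inv₀] at h2
  have hs0 : v (s a) ≠ 0 := (v.ne_zero_iff).2 ((map_ne_zero s).2 ha0)
  exact (inv_lt_one₀ (zero_lt_iff.2 hs0)).1 h2

/-- nonsingular reduction of the points with `v X = 1`. -/
theorem DiffE1_nonsing {δ u : K} (v : Valuation K Γ₀) (hδ : v δ < 1) (hv2 : v (2 : K) = 1)
    {x y : K} (e : y ^ 2 = x * (x - δ) * (x - u)) (hX : v x = 1) :
    ¬ (v y < 1 ∧ v (3 * x ^ 2 + 2 * -(δ + u) * x + δ * u) < 1) := by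
  rintro ⟨hY, hf⟩
  have h1 : v (x - δ) = 1 := by
    rw [v.map_sub_eq_of_lt_left (by rw [hX]; exact hδ), hX]
  have h3 : v (x - u) < 1 := by
    have : v (y ^ 2) < 1 := by
      rw [v.map_pow]; exact pow_lt_one₀ zero_le hY two_ne_zero
    rwa [e, v.map_mul, v.map_mul, hX, h1, one_mul, one_mul] at this
  have e' : 3 * x ^ 2 + 2 * -(δ + u) * x + δ * u
      = x * (x - δ) + (x - u) * (2 * x - δ) := by ring
  rw [e', v.map_add_eq_of_lt_left, v.map_mul, hX, h1, one_mul] at hf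
  · exact lt_irrefl _ hf
  · rw [v.map_mul, v.map_mul, hX, h1, one_mul]
    refine lt_of_le_of_lt (mul_le_of_le_one_right' ?_) h3
    refine v.map_sub_le ?_ hδ.le
    rw [v.map_mul, hv2, hX, one_mul]

variable {δ u : K}

/-- `v Y = v X` for a point with `v δ < v X < 1`. -/
theorem DiffE1_vY (v : Valuation K Γ₀) (hu : v u = 1) {x y : K}
    (e : y ^ 2 = x * (x - δ) * (x - u)) (hgen : v δ < v x) (hX : v x < 1) : v y = v x := by
  have h1 : v (x - δ) = v x := v.map_sub_eq_of_lt_left hgen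
  have h2 : v (x - u) = 1 := by
    rw [v.map_sub_eq_of_lt_right (by rw [hu]; exact hX), hu]
  have h3 : v y ^ 2 = v x ^ 2 := by
    rw [← v.map_pow, e, v.map_mul, v.map_mul, h1, h2, mul_one, sq]
  exact (pow_left_inj₀ zero_le zero_le two_ne_zero).mp h3

/-- **(i)** : `σ P - P ∈ E₁`. -/
theorem Model.diff_E1_mult (v : Valuation K Γ₀) {α d : K}
    (M : Model G (-(δ + u)) (δ * u) 0) (hu : v u = 1) (hδ0 : δ ≠ 0) (hδ : v δ < 1)
    (hv2 : v (2 : K) = 1) (hα : α ^ 2 = -u) {p : ℕ} (hp : p.Prime) (hp2 : p ≠ 2)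
    (hd : v δ = v d ^ p)
    {s : K →+* K} {S : G →+ G} (I : IsInertial v M s S) (hsd : s d = d)
    {P : G} (hP : p • P = 0) (hQ : S P - P ≠ 0) : 1 < v (M.X (S P - P)) := by
  obtain ⟨c₂, c₄, c₆⟩ := v_coeffs v hu.le hδ.le
  have hP0 : P ≠ 0 := by
    rintro rfl
    rw [map_zero, sub_zero] at hQ
    exact hQ rfl
  have e : M.Y P ^ 2 = M.X P * (M.X P - δ) * (M.X P - u) := by
    rw [M.eqn P hP0]; ring
  rcases lt_trichotomy (v (M.X P)) 1 with hX | hX | hX
  · obtain ⟨hgen, m, hm⟩ := M.val_X_of_torsion v hu hδ0 hδ hv2 hα hp hp2 hd hP hP0 hX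
    have hd0 : d ≠ 0 := by
      rintro rfl
      rw [map_zero, zero_pow hp.ne_zero] at hd
      exact hδ0 ((v.zero_iff).mp hd)
    have hc0 : d ^ m ≠ 0 := zpow_ne_zero m hd0
    have hsc : s (d ^ m) = d ^ m := by rw [map_zpow₀, hsd]
    have hXc : v (M.X P) = v (d ^ m) := by rw [map_zpow₀, hm]
    have hYX : v (M.Y P) = v (M.X P) := DiffE1_vY v hu e hgen hX
    have hsX : v (s (M.X P) - M.X P) < v (M.X P) := sub_lt_of_val_eq I.sub_lt hc0 hsc hXc
    have hsY : v (s (M.Y P) - M.Y P) < v (M.Y P) :=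
      sub_lt_of_val_eq I.sub_lt hc0 hsc (hYX.trans hXc)
    have T := M.tri (S P) (-P) (-(S P - P)) (I.ne_zero P hP0) (neg_ne_zero.mpr hP0)
      (neg_ne_zero.mpr hQ) (by abel)
    rw [M.X_neg, M.X_neg, M.Y_neg, M.Y_neg, I.X_eq P hP0, I.Y_eq P hP0] at T
    refine tri_big_slope v c₂ T (I.v_s_le_one hX.le) hX.le ?_
    have e : s (M.Y P) - -M.Y P = 2 * M.Y P + (s (M.Y P) - M.Y P) := by ring
    have h2Y : v (2 * M.Y P) = v (M.Y P) := by rw [v.map_mul, hv2, one_mul]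
    rw [e, v.map_add_eq_of_lt_left (by rw [h2Y]; exact hsY), h2Y, hYX]
    exact hsX
  · by_contra hle
    rw [not_lt] at hle
    have T := M.tri (-P) (S P) (-(S P - P)) (neg_ne_zero.mpr hP0) (I.ne_zero P hP0)
      (neg_ne_zero.mpr hQ) (by abel)
    rw [M.X_neg, M.X_neg, M.Y_neg, M.Y_neg, I.X_eq P hP0, I.Y_eq P hP0] at T
    have hY : v (M.Y P) ≤ 1 := M.v_Y_le_one v c₂ c₄ c₆ hP0 hX.le
    have := tri_same_red v c₂ hv2 T hX.le (I.v_s_le_one hX.le) hle
      (by rw [v.map_sub_swap]; exact I.sub_lt _ hX.le)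
      (by rw [neg_add_eq_sub]; exact I.sub_lt _ hY)
    rw [v.map_neg] at this
    exact DiffE1_nonsing v hδ hv2 e hX this
  · have T := M.tri (S P) (-P) (-(S P - P)) (I.ne_zero P hP0) (neg_ne_zero.mpr hP0)
      (neg_ne_zero.mpr hQ) (by abel)
    rw [M.X_neg, M.X_neg, I.X_eq P hP0] at T
    exact tri_E1_closed v c₂ c₄ c₆ T (DiffE1_big I hX) hX

end Fermat.Agent.MR.E
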