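import Fermat.Agent.MR.E.CStruct
import Fermat.Agent.S13.TorsMod
import Fermat.Agent.S13.Inertia

/-!
# MR / E : `(σ - 1) E[p] ⊆ C = E[p] ∩ E₁` for `σ` in the inertia group, Frey curve (any reduction)

Input: `S13.frey_LP` (`(σ - 1)² Q ∈ E₁`, valid for every valuation), and `dim C = 1`.
-/

set_option autoImplicit false

open WeierstrassCurve WeierstrassCurve.Affine WeierstrassCurve.Affine.Point
open Fermat.Agent.S05 Polynomial

namespace Fermat.Agent.MR.E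

local notation "Qb" => AlgebraicClosure ℚ
local notation "GQ" => (AlgebraicClosure ℚ ≃ₐ[ℚ] AlgebraicClosure ℚ)

/-- The Galois action on `E[p]` as a linear map. -/
noncomputable def DiffS13_act (W : WeierstrassCurve ℤ) (p : ℕ) [NeZero p] (σ : GQ) :
    Submodule.torsionBy ℤ ((EQ W)⁄Qb).Point (p : ℤ) →ₗ[ZMod p]
      Submodule.torsionBy ℤ ((EQ W)⁄Qb).Point (p : ℤ) where
  toFun x := σ • x
  map_add' := smul_add σ
  map_smul' c x := by
    obtain ⟨n, rfl⟩ : ∃ n : ℕ, (n : ZMod p) = c := ⟨c.val, ZMod.natCast_zmod_val c⟩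
    simp only [RingHom.id_apply, Nat.cast_smul_eq_nsmul]
    exact (DistribSMul.toAddMonoidHom
      (Submodule.torsionBy ℤ ((EQ W)⁄Qb).Point (p : ℤ)) σ).map_nsmul n x

theorem DiffS13_inE1_smul (W : WeierstrassCurve ℤ) (A : ValuationSubring Qb) {σ : GQ}
    (hσ : σ ∈ A.inertiaSubgroupIn ℚ) {Q : ((EQ W)⁄Qb).Point} (hQ : S13.InE1 A.valuation Q) :
    S13.InE1 A.valuation (σ • Q) := by
  have hin := S13.isInertial_of_mem_inertia A σ hσ
  rcases Q with _ | ⟨x, y, h⟩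
  · trivial
  · show 1 < A.valuation (σ x)
    have h2 : A.valuation (σ x) = A.valuation x := hin.map_val x
    rw [h2]; exact hQ

/-- generic version: if `(σ - 1)² Q ∈ E₁` for all `Q` and `0 ≠ C ≠ E[p]` then `(σ - 1) E[p] ⊆ C`. -/
theorem inert_sub_of_LP (W : WeierstrassCurve ℤ) {p : ℕ} (hp : p.Prime) (hp2 : p ≠ 2)
    (hΔ : (EQ W).Δ ≠ 0) (A : ValuationSubring Qb)
    {P₀ : ((EQ W)⁄Qb).Point} (h1 : (p : ℤ) • P₀ = 0) (h2 : P₀ ≠ 0) (h3 : (MW W).X P₀ ∈ A)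
    {T : ((EQ W)⁄Qb).Point} (hT : (p : ℤ) • T = 0) (hT0 : T ≠ 0) (hTA : (MW W).X T ∉ A)
    {σ : GQ} (hσ : σ ∈ A.inertiaSubgroupIn ℚ)
    (hLP : ∀ Q : ((EQ W)⁄Qb).Point, S13.InE1 A.valuation (σ • (σ • Q - Q) - (σ • Q - Q)))
    (Q : ((EQ W)⁄Qb).Point) (hQ : (p : ℤ) • Q = 0) :
    σ • Q - Q = 0 ∨ (MW W).X (σ • Q - Q) ∉ A := by
  have : Fact p.Prime := ⟨hp⟩
  have hfin := S41.G.finite_torsionBy_Qbar (EQ W) hΔ hp hp2
  have hcard := S41.G.card_torsionBy_Qbar (EQ W) hΔ hp hp2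
  set C := CStruct_C A W p with hC
  have hmem : ∀ x : Submodule.torsionBy ℤ ((EQ W)⁄Qb).Point (p : ℤ),
      x ∈ C ↔ S13.InE1 A.valuation (x : ((EQ W)⁄Qb).Point) := fun _ => Iff.rfl
  let T' : Submodule.torsionBy ℤ ((EQ W)⁄Qb).Point (p : ℤ) :=
    ⟨T, (Submodule.mem_torsionBy_iff _ _).2 hT⟩
  let Q' : Submodule.torsionBy ℤ ((EQ W)⁄Qb).Point (p : ℤ) :=
    ⟨Q, (Submodule.mem_torsionBy_iff _ _).2 hQ⟩
  let P₀' : Submodule.torsionBy ℤ ((EQ W)⁄Qb).Point (p : ℤ) :=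
    ⟨P₀, (Submodule.mem_torsionBy_iff _ _).2 h1⟩
  have hT'C : T' ∈ C := (hmem _).2 ((CStruct_inE1_iff W A T).2 (Or.inr hTA))
  have hb : C ≠ ⊥ := by
    intro h
    rw [h, Submodule.mem_bot] at hT'C
    exact hT0 (congrArg Subtype.val hT'C)
  have ht : C ≠ ⊤ := by
    intro h
    have : P₀' ∈ C := by rw [h]; trivial
    rcases (CStruct_inE1_iff W A P₀).1 ((hmem _).1 this) with h | h
    · exact h2 h
    · exact h h3
  obtain ⟨hV2, hC1⟩ :=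
    S13.finrank_of_card_le (k := ZMod p) (by rw [Nat.card_zmod, hcard]) C hb ht
  have : Module.Finite (ZMod p) (Submodule.torsionBy ℤ ((EQ W)⁄Qb).Point (p : ℤ)) :=
    Module.Finite.of_finite
  have key := S13.LA0 C ⊤ (S13.step_top_of_finrank C hV2 hC1) (DiffS13_act W p σ)
    (fun x hx => DiffS13_inE1_smul W A hσ hx) (fun _ _ => trivial)
    (fun y _ => hLP (y : ((EQ W)⁄Qb).Point)) Q' trivial
  exact (CStruct_inE1_iff W A _).1 key

/-- `S13.frey_LP` transported to `EQ P.freyCurveInt`. -/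
theorem DiffS13_frey_LP (P : FreyPackage) (A : ValuationSubring Qb) {σ : GQ}
    (hσ : σ ∈ A.inertiaSubgroupIn ℚ) (Q : ((EQ P.freyCurveInt)⁄Qb).Point) :
    S13.InE1 A.valuation (σ • (σ • Q - Q) - (σ • Q - Q)) := by
  have key : ∀ E : WeierstrassCurve ℚ, E = P.freyCurve → ∀ Q : (E⁄Qb).Point,
      S13.InE1 A.valuation (σ • (σ • Q - Q) - (σ • Q - Q)) := by
    rintro _ rfl Q
    exact S13.frey_LP A.valuation P σ (S13.isInertial_of_mem_inertia A σ hσ) Q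
  exact key _ (S13.freyCurveInt_map P) Q

theorem frey_EQ_Δ_ne_zero (P : FreyPackage) : (EQ P.freyCurveInt).Δ ≠ 0 := by
  rw [WeierstrassCurve.map_Δ]
  simpa using S13.freyCurveInt_Δ_ne_zero P

/-- **(E-i) for the Frey curve** (given a `p`-torsion point `P₀` outside `E₁` and `T ≠ 0` in `C`). -/
theorem frey_inert_sub (P : FreyPackage) (A : ValuationSubring Qb)
    {P₀ : ((EQ P.freyCurveInt)⁄Qb).Point} (h1 : (P.p : ℤ) • P₀ = 0) (h2 : P₀ ≠ 0)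
    (h3 : (MW P.freyCurveInt).X P₀ ∈ A)
    {T : ((EQ P.freyCurveInt)⁄Qb).Point} (hT : (P.p : ℤ) • T = 0) (hT0 : T ≠ 0)
    (hTA : (MW P.freyCurveInt).X T ∉ A)
    {σ : GQ} (hσ : σ ∈ A.inertiaSubgroupIn ℚ)
    (Q : ((EQ P.freyCurveInt)⁄Qb).Point) (hQ : (P.p : ℤ) • Q = 0) :
    σ • Q - Q = 0 ∨ (MW P.freyCurveInt).X (σ • Q - Q) ∉ A :=
  inert_sub_of_LP P.freyCurveInt P.pp (by have := P.hp5; omega) (frey_EQ_Δ_ne_zero P) A h1 h2 h3
    hT hT0 hTA hσ (DiffS13_frey_LP P A hσ) Q hQ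

end Fermat.Agent.MR.E
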