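import Fermat.Agent.MR.E.ESideMult
import Fermat.Agent.S05

/-!
# MR / E (S44) : the contract of the elliptic curve side for the Frey curve at `p ∣ abc`
-/

set_option autoImplicit false

open WeierstrassCurve WeierstrassCurve.Affine WeierstrassCurve.Affine.Point
open Fermat.Agent.S05 Polynomial

namespace Fermat.Agent.MR.E

local notation "Qb" => AlgebraicClosure ℚ
local notation "GQ" => (AlgebraicClosure ℚ ≃ₐ[ℚ] AlgebraicClosure ℚ)

/-- **The E-side of S44.**  `P` a Frey package, `p = P.p ∣ abc`, `A` a valuation ring of `Qb` over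
`p`: there is `T ∈ E[p]`, `T ≠ 0`, such that (i) `σ Q - Q ∈ ℤ T` for `σ` in the inertia group of `A`
and `Q ∈ E[p]`, (ii) inertia acts on `T` by the cyclotomic character, (iii) every `σ ∈ HH A p` with
`FixU A p σ` acts trivially on `E[p]`. -/
theorem eside_frey (P : FreyPackage) (A : ValuationSubring Qb) (hA : A.LiesOverPrime P.p)
    (hdvd : (P.p : ℤ) ∣ P.a * P.b * P.c) : Contract P.freyCurve A P.p := by
  have hE : EQ P.freyCurveInt = P.freyCurve := S13.freyCurveInt_map P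
  rw [← hE]
  have hp := P.pp
  have hp2 : P.p ≠ 2 := by have := P.hp5; omega
  obtain ⟨x₀, hx₀⟩ := frey_root_mod P hdvd
  have hmod := S13.hZ_mod P
  have hΔ : (EQ P.freyCurveInt).Δ ≠ 0 := by
    rw [EQ, WeierstrassCurve.map_Δ]
    simpa using S13.freyCurveInt_Δ_ne_zero P
  obtain ⟨c₂, c₄, c₆⟩ := frey_coeffs (L := Qb) P
  rw [← hE] at c₂ c₄ c₆
  have hv2 : A.valuation (2 : Qb) = 1 := val_two hp hp2 hA
  have hv4 : A.valuation (4 : Qb) = 1 := by
    have : (4 : Qb) = 2 * 2 := by norm_num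
    rw [this, map_mul, hv2, one_mul]
  have hFLT : (P.a : Qb) ^ P.p + (P.b : Qb) ^ P.p = (P.c : Qb) ^ P.p := by
    exact_mod_cast congrArg (Int.cast : ℤ → Qb) P.hFLT
  have vd4 : ∀ z : Qb, A.valuation (z / 4) = A.valuation z := by
    intro z; rw [map_div₀, hv4, div_one]
  have vn4 : ∀ z : Qb, A.valuation (-z / 4) = A.valuation z := by
    intro z; rw [vd4, Valuation.map_neg]
  have vunit : ∀ n : ℤ, ¬ (P.p : ℤ) ∣ n → A.valuation ((n : Qb) ^ P.p) = 1 := by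
    intro n hn; rw [map_pow, S05.val_intCast_eq_one A hp hA hn, one_pow]
  have vlt : ∀ n : ℤ, (P.p : ℤ) ∣ n → A.valuation ((n : Qb) ^ P.p) < 1 := by
    intro n hn; rw [map_pow]
    exact pow_lt_one₀ zero_le (val_intCast_lt_one A hA hn) P.hp0
  have hne : ∀ n : ℤ, n ≠ 0 → (n : Qb) ^ P.p ≠ 0 := fun n hn =>
    pow_ne_zero _ (Int.cast_ne_zero.mpr hn)
  have hσi : ∀ (n : ℤ) (σ : GQ), σ (n : Qb) = (n : Qb) := fun n σ => map_intCast σ n
  rcases frey_cases P hp with ⟨ha, hb, hc⟩ | ⟨ha, hb, hc⟩ | ⟨ha, hb, hc⟩ | ⟨ha, hb, hc⟩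
  · exfalso
    have hpr : Prime (P.p : ℤ) := Nat.prime_iff_prime_int.mp hp
    rcases hpr.dvd_or_dvd hdvd with h | h
    · rcases hpr.dvd_or_dvd h with h | h
      · exact ha h
      · exact hb h
    · exact hc h
  · -- `p ∣ a`
    refine eside_of_shift P.freyCurveInt hp hp2 hΔ hmod x₀ hx₀ A hA 0 ((P.a : Qb) ^ P.p / 4)
      (-(P.b : Qb) ^ P.p / 4) (P.a : Qb) (fun σ => map_zero σ) (hσi _) A.zero_mem
      (by rw [c₂]; ring) (by rw [c₂, c₄]; ring) (by rw [c₂, c₄, c₆]; ring) ?_ ?_ ?_ ?_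
    · rw [vn4]; exact vunit _ hb
    · exact div_ne_zero (hne _ P.ha0) (by norm_num)
    · rw [vd4]; exact vlt _ ha
    · rw [vd4, map_pow]
  · -- `p ∣ b`
    refine eside_of_shift P.freyCurveInt hp hp2 hΔ hmod x₀ hx₀ A hA 0 (-(P.b : Qb) ^ P.p / 4)
      ((P.a : Qb) ^ P.p / 4) (P.b : Qb) (fun σ => map_zero σ) (hσi _) A.zero_mem
      (by rw [c₂]; ring) (by rw [c₂, c₄]; ring) (by rw [c₂, c₄, c₆]; ring) ?_ ?_ ?_ ?_
    · rw [vd4]; exact vunit _ ha
    · exact div_ne_zero (neg_ne_zero.mpr (hne _ P.hb0)) (by norm_num)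
    · rw [vn4]; exact vlt _ hb
    · rw [vn4, map_pow]
  · -- `p ∣ c`
    refine eside_of_shift P.freyCurveInt hp hp2 hΔ hmod x₀ hx₀ A hA ((P.a : Qb) ^ P.p / 4)
      (-(P.c : Qb) ^ P.p / 4) (-(P.a : Qb) ^ P.p / 4) (P.c : Qb)
      (fun σ => by simp only [map_div₀, map_pow, map_intCast, map_ofNat]) (hσi _) ?_
      (by rw [c₂, ← hFLT]; ring) (by rw [c₂, c₄, ← hFLT]; ring) (by rw [c₂, c₄, c₆]; ring)
      ?_ ?_ ?_ ?_
    · rw [← A.valuation_le_one_iff, vd4]; exact (vunit _ ha).le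
    · rw [vn4]; exact vunit _ ha
    · exact div_ne_zero (neg_ne_zero.mpr (hne _ P.hc0)) (by norm_num)
    · rw [vn4]; exact vlt _ hc
    · rw [vn4, map_pow]

end Fermat.Agent.MR.E
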