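import Fermat.Agent.MR.E.Glue
import Fermat.Agent.MR.E.ZMul
import Fermat.Agent.MR.E.Cyc
import Fermat.Agent.S13.LPgen
import Fermat.Agent.S13.Inertia

/-!
# MR / E : the action of inertia: `(σ - 1) E ⊆ E₁`, and `σ = χ(σ)` on `C`
-/

set_option autoImplicit false

open WeierstrassCurve WeierstrassCurve.Affine WeierstrassCurve.Affine.Point
open Fermat.Agent.S05 Polynomial

namespace Fermat.Agent.MR.E

local notation "Qb" => AlgebraicClosure ℚ
local notation "GQ" => (AlgebraicClosure ℚ ≃ₐ[ℚ] AlgebraicClosure ℚ)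

/-- PROOF.  `S13.isInertial_of_mem_inertia`.  `P = 0`: trivial.  `P = some x y h`: `σ • P = some (σ x) (σ y) _`
definitionally.  If `x ∉ A`: `S13.inE1_add`/`inE1_neg` (both `P`, `σ • P` are in `E₁`).  If `x ∈ A`:
`S13.inE1_sub_of_same_reduction` with `goodRed_of_good`.  Finally unfold `S13.InE1` at the point
`σ • P - P` (cases). -/
theorem inert_sub (W : WeierstrassCurve ℤ) {p : ℕ} (hp : p.Prime)
    (hgood : W.IsGoodPrimeFor p) (A : ValuationSubring Qb) (hA : A.LiesOverPrime p)
    {σ : GQ} (hσ : σ ∈ A.inertiaSubgroupIn ℚ) (P : ((EQ W)⁄Qb).Point) :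
    σ • P - P = 0 ∨ (MW W).X (σ • P - P) ∉ A := by
  have hI := S13.isInertial_of_mem_inertia A σ hσ
  have hW := integralCoeffs A W
  have key : S13.InE1 A.valuation (σ • P - P) := by
    rcases P with _ | ⟨x, y, h⟩
    · have h0 : σ • (Point.zero : ((EQ W)⁄Qb).Point) - Point.zero = 0 := by
        have h1 : (Point.zero : ((EQ W)⁄Qb).Point) = 0 := rfl
        rw [h1, smul_zero_pt, sub_zero]
      rw [h0]
      trivial
    · by_cases hx : x ∈ A
      · have hx' : A.valuation x ≤ 1 := (A.valuation_le_one_iff _).2 hx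
        have hy' : A.valuation y ≤ 1 := S13.R1.val_y_le_one A.valuation hW h.1 hx'
        obtain ⟨h', hh'⟩ : ∃ h' : ((EQ W)⁄Qb).Nonsingular (σ x) (σ y),
            σ • Point.some x y h = Point.some (σ x) (σ y) h' := by
          rcases hR : σ • Point.some x y h with _ | ⟨x', y', h'⟩
          · exact absurd hR (Point.some_ne_zero _)
          · have e1 : x' = σ x := by
              have := MW_X_smul W σ (Point.some x y h)
              rw [hR] at this
              exact this
            have e2 : y' = σ y := by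
              have h2 : σ • Point.some x y h = Point.some (σ x) (σ y) _ := rfl
              rw [hR] at h2
              injection h2
            subst e1 e2
            exact ⟨h', rfl⟩
        rw [hh']
        exact S13.inE1_sub_of_same_reduction A.valuation hW h h' hx' hy' (hI.sub_lt x hx')
          (hI.sub_lt y hy') (goodRed_of_good W hp hgood A hA h.1 hx)
      · have h1 : 1 < A.valuation x := by
          rw [← not_le, A.valuation_le_one_iff]
          exact hx
        have hP : S13.InE1 A.valuation (Point.some x y h) := h1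
        have hσP : S13.InE1 A.valuation (σ • Point.some x y h) := by
          show 1 < A.valuation (σ x)
          have := hI.map_val x
          rw [show ((σ : Qb →+* Qb) x) = σ x from rfl] at this
          rw [this]
          exact h1
        rw [sub_eq_add_neg]
        exact S13.inE1_add A.valuation hW hσP (S13.inE1_neg A.valuation hP)
  rcases hR : σ • P - P with _ | ⟨x₃, y₃, h₃⟩
  · left; rfl
  · right
    rw [hR] at key
    rw [MW_X_some, ← A.valuation_le_one_iff, not_le]
    exact key

/-- PROOF.  `z := zPar T`, `π := ζ - 1`, `s := z / π`, `v s = 1`.  `σ z = zPar (σ • T) = zPar (k • T)`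
(`MW_zPar_smul`), `v (σ z - k z) < v z` (`zPar_nsmul`), `σ π = ζ^e - 1`, `v (σ π - e π) < v π`
(`val_zeta_pow_sub`), `v (σ s - s) < 1`, `v (σ π) = v π` (`S13.isInertial_of_mem_inertia`).
`σ z - e z = (σ s - s) σ π + s (σ π - e π)` has valuation `< v z`, hence `v ((k - e) z) < v z`,
`v ((k:ℤ) - e) < 1`, `p ∣ k - e` (`val_intCast_eq_one`), `k • T = e • T`. -/
theorem inert_cyclo (W : WeierstrassCurve ℤ) {p : ℕ} (hp : p.Prime) (hp2 : p ≠ 2)
    (A : ValuationSubring Qb) (hA : A.LiesOverPrime p)
    {T : ((EQ W)⁄Qb).Point} (hT : (p : ℤ) • T = 0) (hT0 : T ≠ 0) (hTA : (MW W).X T ∉ A)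
    {ζ : Qb} (hζ : IsPrimitiveRoot ζ p)
    (hz : A.valuation ((MW W).zPar T) = A.valuation (ζ - 1))
    {σ : GQ} (hσ : σ ∈ A.inertiaSubgroupIn ℚ) {k e : ℕ} (hk : σ • T = k • T) (he : σ ζ = ζ ^ e) :
    σ • T = (e : ℤ) • T := by
  have hI := S13.isInertial_of_mem_inertia A σ hσ
  obtain ⟨h₂, h₄, h₆⟩ := MW_coeff_val W hp hp2 A hA
  have hX : 1 < A.valuation ((MW W).X T) := by
    rw [← not_le, A.valuation_le_one_iff]
    exact hTA
  obtain ⟨hz0, hz1⟩ := (MW W).v_zPar_lt_one A.valuation h₂ h₄ h₆ hT0 hX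
  set z := (MW W).zPar T with hzdef
  set π := ζ - 1 with hπdef
  have hπv : 0 < A.valuation π := by rw [← hz]; exact hz0
  have hπ0 : π ≠ 0 := by
    intro h0
    rw [h0, _root_.map_zero] at hπv
    exact lt_irrefl _ hπv
  set s := z / π with hsdef
  have hs1 : A.valuation s = 1 := by
    rw [hsdef, map_div₀, hz, div_self hπv.ne']
  have hzs : z = s * π := by rw [hsdef, div_mul_cancel₀ _ hπ0]
  -- the action on `z`
  have hσz : σ z = (MW W).zPar (k • T) := by rw [hzdef, ← MW_zPar_smul, hk]
  have hk1 : A.valuation (σ z - k * z) < A.valuation z := by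
    rw [hσz]
    exact (zPar_nsmul A.valuation (MW W) h₂ h₄ h₆ hT0 hX k).2
  -- the action on `π`
  have hσπ : σ π = ζ ^ e - 1 := by rw [hπdef, map_sub, map_one, he]
  have he1 : A.valuation (σ π - e * π) < A.valuation π := by
    rw [hσπ]
    exact val_zeta_pow_sub A hp hA hζ e
  have hσs : A.valuation (σ s - s) < 1 := hI.sub_lt s hs1.le
  have hσπv : A.valuation (σ π) = A.valuation π := hI.map_val π
  have he2 : A.valuation (σ z - e * z) < A.valuation z := by
    have e0 : σ z - e * z = (σ s - s) * σ π + s * (σ π - e * π) := by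
      rw [hzs, map_mul]; ring
    rw [e0, hz]
    refine Valuation.map_add_lt _ ?_ ?_
    · rw [map_mul, hσπv]
      calc A.valuation (σ s - s) * A.valuation π < 1 * A.valuation π :=
            (mul_lt_mul_iff_left₀ hπv).mpr hσs
        _ = A.valuation π := one_mul _
    · rw [map_mul, hs1, one_mul]
      exact he1
  have hke : A.valuation ((((k : ℤ) - (e : ℤ) : ℤ) : Qb)) < 1 := by
    have e0 : ((((k : ℤ) - (e : ℤ) : ℤ) : Qb)) * z = (σ z - e * z) - (σ z - k * z) := by
      push_cast; ring
    have h1 : A.valuation (((((k : ℤ) - (e : ℤ) : ℤ) : Qb)) * z) < A.valuation z := by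
      rw [e0]
      exact Valuation.map_sub_lt _ he2 hk1
    rw [map_mul] at h1
    by_contra hcon
    rw [not_lt] at hcon
    have h2 : A.valuation z ≤ A.valuation ((((k : ℤ) - (e : ℤ) : ℤ) : Qb)) * A.valuation z :=
      le_mul_of_one_le_left' hcon
    exact absurd h1 (not_lt.mpr h2)
  have hdvd : (p : ℤ) ∣ (k : ℤ) - (e : ℤ) := by
    by_contra hcon
    rw [val_intCast_eq_one hp hA hcon] at hke
    exact lt_irrefl _ hke
  obtain ⟨c, hc⟩ := hdvd
  have h0 : ((k : ℤ) - (e : ℤ)) • T = 0 := by
    rw [hc, mul_comm, mul_zsmul, hT, zsmul_zero]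
  rw [sub_zsmul, add_neg_eq_zero] at h0
  rw [hk, ← natCast_zsmul]
  exact h0

end Fermat.Agent.MR.E
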