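import Fermat.Agent.MR.E.Gauss
import Fermat.Agent.S13.FVTop

/-!
# MR / E (S44) : the node of the reduction is a root of the division polynomial mod `p`, hence
`E[p]` is not contained in the kernel of reduction
-/

set_option autoImplicit false

open Polynomial WeierstrassCurve

namespace Fermat.Agent.MR.E

section ladder
variable {R : Type*} [CommRing R] (W : WeierstrassCurve R)

/-- At the `x`-coordinate of a singular point the ladder is `(0 : 0)` from `n = 2` on. -/
theorem ladder_eval_node (x₀ : R)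
    (hF : x₀ ^ 4 - W.b₄ * x₀ ^ 2 - 2 * W.b₆ * x₀ - W.b₈ = 0)
    (hG : 4 * x₀ ^ 3 + W.b₂ * x₀ ^ 2 + 2 * W.b₄ * x₀ + W.b₆ = 0) (n : ℕ) (hn : 2 ≤ n) :
    (S13.ladF W n).eval x₀ = 0 ∧ (S13.ladG W n).eval x₀ = 0 := by
  induction n using Nat.strong_induction_on with
  | _ n ih =>
    rcases Nat.even_or_odd' n with ⟨m, rfl | rfl⟩
    · have hm : 1 ≤ m := by omega
      rw [S13.ladF_two_mul W m hm, S13.ladG_two_mul W m hm]
      rcases Nat.lt_or_ge m 2 with h2 | h2
      · obtain rfl : m = 1 := by omega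
        rw [S13.ladF_one, S13.ladG_one]
        constructor
        · simp only [S13.dblF, eval_sub, eval_mul, eval_pow, eval_X, eval_C, eval_one, eval_ofNat]
          linear_combination hF
        · simp only [S13.dblG, eval_add, eval_mul, eval_pow, eval_X, eval_C, eval_one, eval_ofNat]
          linear_combination hG
      · obtain ⟨h3, h4⟩ := ih m (by omega) h2
        constructor
        · simp only [S13.dblF, eval_sub, eval_mul, eval_pow, eval_C, eval_ofNat, h3, h4]
          ring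
        · simp only [S13.dblG, eval_add, eval_mul, eval_pow, eval_C, eval_ofNat, h3, h4]
          ring
    · have hm : 1 ≤ m := by omega
      obtain ⟨h3, h4⟩ := ih (m + 1) (by omega) (by omega)
      rw [S13.ladF_two_mul_add_one W m hm, S13.ladG_two_mul_add_one W m hm]
      constructor
      · simp only [S13.addF, S13.addH, eval_add, eval_sub, eval_mul, eval_pow, eval_C, eval_X,
          eval_ofNat, h3, h4]
        ring
      · simp only [S13.hpoly, S13.addH, eval_sub, eval_mul, eval_pow, h3, h4]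
        ring

theorem hpoly_eval_node (x₀ : R)
    (hF : x₀ ^ 4 - W.b₄ * x₀ ^ 2 - 2 * W.b₆ * x₀ - W.b₈ = 0)
    (hG : 4 * x₀ ^ 3 + W.b₂ * x₀ ^ 2 + 2 * W.b₄ * x₀ + W.b₆ = 0) (m : ℕ) (hm : 1 ≤ m) :
    (S13.hpoly W m).eval x₀ = 0 := by
  obtain ⟨h3, h4⟩ := ladder_eval_node W x₀ hF hG (m + 1) (by omega)
  simp only [S13.hpoly, S13.addH, eval_sub, eval_mul, h3, h4]
  ring

end ladder

/-- the node of `y² + xy = x³ + a₂ x² + a₄ x`, `4 a₂ = B - 1 - A`, `16 a₄ = - A B`, when
`A B (A + B) = 0`. -/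
theorem exists_node {F : Type*} [Field F] (h2 : (2 : F) ≠ 0) (W : WeierstrassCurve F)
    (h1 : W.a₁ = 1) (h3 : W.a₃ = 0) (h6 : W.a₆ = 0) (A B : F) (ha₂ : 4 * W.a₂ = B - 1 - A)
    (ha₄ : 16 * W.a₄ = -A * B) (hAB : A * B * (A + B) = 0) :
    ∃ x₀ : F, x₀ ^ 4 - W.b₄ * x₀ ^ 2 - 2 * W.b₆ * x₀ - W.b₈ = 0 ∧
      4 * x₀ ^ 3 + W.b₂ * x₀ ^ 2 + 2 * W.b₄ * x₀ + W.b₆ = 0 := by
  have h16 : (16 : F) ≠ 0 := by
    have : (16 : F) = 2 ^ 4 := by norm_num
    rw [this]; exact pow_ne_zero 4 h2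
  have h4 : (4 : F) ≠ 0 := by
    have : (4 : F) = 2 ^ 2 := by norm_num
    rw [this]; exact pow_ne_zero 2 h2
  rcases mul_eq_zero.1 hAB with h | h
  · have ha : W.a₄ = 0 := by
      have : 16 * W.a₄ = 0 := by rw [ha₄]; linear_combination -h
      exact (mul_eq_zero.1 this).resolve_left h16
    refine ⟨0, ?_, ?_⟩
    · simp only [WeierstrassCurve.b₄, WeierstrassCurve.b₆, WeierstrassCurve.b₈, h1, h3, h6, ha]
      ring
    · simp only [WeierstrassCurve.b₂, WeierstrassCurve.b₄, WeierstrassCurve.b₆, h1, h3, h6, ha]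
      ring
  · have hB : B = -A := by linear_combination h
    subst hB
    have ha : W.a₄ = (A / 4) ^ 2 := by
      field_simp
      linear_combination ha₄
    have ha2 : W.a₂ = (-A - 1 - A) / 4 := by
      field_simp
      linear_combination ha₂
    refine ⟨A / 4, ?_, ?_⟩
    · simp only [WeierstrassCurve.b₄, WeierstrassCurve.b₆, WeierstrassCurve.b₈, h1, h3, h6, ha]
      ring
    · simp only [WeierstrassCurve.b₂, WeierstrassCurve.b₄, WeierstrassCurve.b₆, h1, h3, h6, ha, ha2]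
      field_simp
      ring

/-- a root mod `p` forces an integral root. -/
theorem exists_small_root {K : Type*} [Field K] [IsAlgClosed K] [CharZero K] {Γ₀ : Type*}
    [LinearOrderedCommGroupWithZero Γ₀] (v : Valuation K Γ₀) (p : ℕ) (hp : p.Prime)
    (hvp : v (p : K) < 1) (h : ℤ[X]) (d : ℕ) (hdeg : h.natDegree ≤ d)
    (hlc : h.coeff d = -(p : ℤ)) (hmod : h.map (Int.castRingHom (ZMod p)) ≠ 0)
    (x₀ : ℤ) (hx₀ : (p : ℤ) ∣ h.eval x₀) :
    ∃ x : K, (h.map (Int.castRingHom K)).eval x = 0 ∧ v x ≤ 1 := by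
  by_contra hcon
  push Not at hcon
  have hG := gauss_prod v p hp hvp h d hdeg hlc hmod
  set H : K[X] := h.map (Int.castRingHom K) with hH
  have hpK : (p : K) ≠ 0 := Nat.cast_ne_zero.2 hp.ne_zero
  have hHd : H.coeff d = -(p : K) := by
    rw [hH, coeff_map, hlc]; simp
  have hHd0 : H.coeff d ≠ 0 := by rw [hHd]; exact neg_ne_zero.2 hpK
  have hH0 : H ≠ 0 := fun h0 => hHd0 (by rw [h0, coeff_zero])
  have hnat : H.natDegree = d :=
    le_antisymm (natDegree_map_le.trans hdeg) (le_natDegree_of_ne_zero hHd0)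
  have hlcH : H.leadingCoeff = -(p : K) := by rw [leadingCoeff, hnat, hHd]
  have hall : ∀ a ∈ H.roots, 1 < v a := fun a ha => hcon a ((mem_roots hH0).1 ha)
  rw [Multiset.filter_eq_self.2 hall] at hG
  have hsplit : H = C H.leadingCoeff * (H.roots.map (fun a => X - C a)).prod :=
    (IsAlgClosed.splits H).eq_prod_roots
  have hev : H.eval (x₀ : K) = -(p : K) * (H.roots.map (fun a => (x₀ : K) - a)).prod := by
    conv_lhs => rw [hsplit]
    rw [eval_mul, eval_C, hlcH, eval_multiset_prod, Multiset.map_map]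
    congr 2
    apply Multiset.map_congr rfl
    intro a _
    simp
  have hx0 : v (x₀ : K) ≤ 1 := S13.np_val_intCast_le_one v x₀
  have hv : v (H.eval (x₀ : K)) = 1 := by
    rw [hev, map_mul, Valuation.map_neg, map_multiset_prod, Multiset.map_map, ← hG]
    congr 2
    apply Multiset.map_congr rfl
    intro a ha
    exact v.map_sub_eq_of_lt_right (lt_of_le_of_lt hx0 (hall a ha))
  have hev2 : H.eval (x₀ : K) = ((h.eval x₀ : ℤ) : K) := by
    rw [hH, eval_intCast_map]; rfl
  obtain ⟨c, hc⟩ := hx₀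
  rw [hev2, hc] at hv
  push_cast at hv
  rw [map_mul] at hv
  have : v (p : K) * v (c : K) < 1 :=
    lt_of_le_of_lt (mul_le_of_le_one_right' (S13.np_val_intCast_le_one v c)) hvp
  rw [hv] at this
  exact lt_irrefl _ this

/-- The division polynomial of the Frey curve has a root mod `p` if `p ∣ abc`. -/
theorem frey_root_mod (P : FreyPackage) (hdvd : (P.p : ℤ) ∣ P.a * P.b * P.c) :
    ∃ x₀ : ℤ, (P.p : ℤ) ∣ (S13.hZ P).eval x₀ := by
  have : Fact P.p.Prime := ⟨P.pp⟩
  have hp5 := P.hp5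
  set φ := Int.castRingHom (ZMod P.p) with hφ
  have h2 : (2 : ZMod P.p) ≠ 0 := by
    intro h
    have h' : ((2 : ℕ) : ZMod P.p) = 0 := by exact_mod_cast h
    rw [ZMod.natCast_eq_zero_iff] at h'
    have := Nat.le_of_dvd (by norm_num) h'
    omega
  have hABC : (φ (P.a ^ P.p)) * (φ (P.b ^ P.p)) * (φ (P.a ^ P.p) + φ (P.b ^ P.p)) = 0 := by
    rw [← map_add, P.hFLT, ← map_mul, ← map_mul, ← mul_pow, ← mul_pow, map_pow]
    have : φ (P.a * P.b * P.c) = 0 := by
      rw [hφ, eq_intCast, ZMod.intCast_zmod_eq_zero_iff_dvd]; exact hdvd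
    rw [this, zero_pow P.hp0]
  obtain ⟨x, hF, hG⟩ := exists_node h2 (P.freyCurveInt.map φ) (by simp [FreyPackage.freyCurveInt])
    (by simp [FreyPackage.freyCurveInt]) (by simp [FreyPackage.freyCurveInt])
    (φ (P.a ^ P.p)) (φ (P.b ^ P.p))
    (by
      have := congrArg φ (S13.four_mul_a₂ P)
      simpa using this)
    (by
      have := congrArg φ (S13.sixteen_mul_a₄ P)
      simpa using this) hABC
  have hroot := hpoly_eval_node (P.freyCurveInt.map φ) x hF hG (S13.mm P) (S13.one_le_mm P)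
  obtain ⟨x₀, rfl⟩ := ZMod.intCast_surjective x
  refine ⟨x₀, ?_⟩
  rw [S13.hpoly_map, eval_intCast_map] at hroot
  rw [← ZMod.intCast_zmod_eq_zero_iff_dvd]
  exact hroot

end Fermat.Agent.MR.E
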