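import Fermat.Agent.MR.E.Iso
import Fermat.Agent.MR.E.DiffE1

/-!
# MR / E (S44) : ISO-NODE.  On `Y² = X (X - δ) (X - u)` translation by a point `c` of the kernel of
reduction moves a point `P` with `v δ < v X(P) < 1` by exactly `v X(P) * v z(c)`.
-/

set_option autoImplicit false

open Fermat.Agent.S05

namespace Fermat.Agent.MR.E

variable {K : Type*} [Field K] {Γ₀ : Type*} [LinearOrderedCommGroupWithZero Γ₀]
  {G : Type*} [AddCommGroup G] {δ u : K}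

theorem tri_iso_node {x₁ y₁ x₂ y₂ x₃ y₃ : K} (v : Valuation K Γ₀) (hu : v u = 1) (hδ : v δ < 1)
    (hv2 : v (2 : K) = 1) (T : Tri (-(δ + u)) (δ * u) 0 x₁ y₁ x₂ y₂ x₃ y₃)
    (hgen : v δ < v x₁) (h1 : v x₁ < 1) (h2 : v x₂ ≤ 1) (h3 : 1 < v x₃) :
    v x₂ = v x₁ ∧ v (x₂ - x₁) = v x₁ * v (x₃ / y₃) := by
  obtain ⟨c₂, c₄, c₆⟩ := v_coeffs v hu.le hδ.le
  have hE3 := T.eqn₃
  have hE1 := T.rot.eqn₃
  obtain ⟨l, k, e1, e2, e3, s1, s2, s3⟩ := T
  have hx1 : 0 < v x₁ := lt_of_le_of_lt zero_le hgen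
  have hl2 : v l ^ 2 = v x₃ := by
    have : l ^ 2 = x₃ + (x₁ + x₂ + -(δ + u)) := by linear_combination -s1
    rw [← v.map_pow, this]
    exact v.map_add_eq_of_lt_left (lt_of_le_of_lt (v.map_add_le (v.map_add_le h1.le h2) c₂) h3)
  have hl1 : 1 < v l := by
    by_contra h
    rw [not_lt] at h
    have : v l ^ 2 ≤ 1 := pow_le_one' h 2
    rw [hl2] at this
    exact absurd h3 (not_lt.2 this)
  have hl0 : 0 < v l := lt_trans zero_lt_one hl1
  have hy3 : v y₃ = v l ^ 3 := by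
    have h : v y₃ ^ 2 = (v l ^ 3) ^ 2 := by
      rw [Iso_v_sq_eq_cube v c₂ c₄ c₆ hE3 h3, ← hl2, ← pow_mul, ← pow_mul]
    exact (pow_left_inj₀ zero_le zero_le two_ne_zero).1 h
  have hz : v (x₃ / y₃) = (v l)⁻¹ := by
    rw [map_div₀, hy3, ← hl2, pow_succ (v l) 2, div_mul_eq_div_div,
      div_self (pow_ne_zero 2 hl0.ne'), one_div]
  have hy1 : v y₁ = v x₁ := DiffE1_vY v hu (by rw [hE1]; ring) hgen h1
  have hlx : v x₁ < v l * v x₁ := by
    calc v x₁ = 1 * v x₁ := (one_mul _).symm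
      _ < v l * v x₁ := (mul_lt_mul_iff_left₀ hx1).2 hl1
  have hk : v k = v l * v x₁ := by
    have : k = y₁ - l * x₁ := by rw [e1]; ring
    rw [this, v.map_sub_eq_of_lt_right (by rw [v.map_mul, hy1]; exact hlx), v.map_mul]
  have hx2 : v x₂ = v x₁ := by
    have h : v x₁ * v x₂ * v x₃ = (v l * v x₁) ^ 2 := by
      rw [← hk, ← v.map_pow, ← v.map_mul, ← v.map_mul, s3, sub_zero]
    rw [← hl2, mul_pow] at h
    have h' : (v x₁ * v l ^ 2) * v x₂ = (v x₁ * v l ^ 2) * v x₁ := by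
      calc (v x₁ * v l ^ 2) * v x₂ = v x₁ * v x₂ * v l ^ 2 := by
            rw [mul_assoc, mul_assoc, mul_comm (v l ^ 2)]
        _ = v l ^ 2 * v x₁ ^ 2 := h
        _ = (v x₁ * v l ^ 2) * v x₁ := by
            rw [pow_two (v x₁), mul_comm (v x₁) (v l ^ 2), mul_assoc]
    exact mul_left_cancel₀ (mul_ne_zero hx1.ne' (pow_ne_zero 2 hl0.ne')) h'
  refine ⟨hx2, ?_⟩
  have hfp : (x₁ - x₂) * (x₁ - x₃) = (3 * x₁ ^ 2 + 2 * -(δ + u) * x₁ + δ * u) - 2 * l * y₁ := by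
    rw [e1]
    linear_combination s2 - 2 * x₁ * s1
  have hvfp : v (3 * x₁ ^ 2 + 2 * -(δ + u) * x₁ + δ * u) ≤ v x₁ := by
    have : 3 * x₁ ^ 2 + 2 * -(δ + u) * x₁ + δ * u = x₁ * (3 * x₁ + 2 * -(δ + u)) + δ * u := by ring
    rw [this]
    refine v.map_add_le ?_ ?_
    · rw [v.map_mul]
      refine mul_le_of_le_one_right' (v.map_add_le ?_ ?_)
      · rw [v.map_mul]; exact mul_le_one' (v_three_le v) h1.le
      · rw [v.map_mul]; exact mul_le_one' (v_two_le v) c₂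
    · rw [v.map_mul, hu, mul_one]; exact hgen.le
  have h2ly : v (2 * l * y₁) = v l * v x₁ := by
    rw [v.map_mul, v.map_mul, hv2, one_mul, hy1]
  have hprod : v (x₁ - x₂) * v l ^ 2 = v l * v x₁ := by
    have hx13 : v (x₁ - x₃) = v l ^ 2 := by
      rw [hl2]
      exact v.map_sub_eq_of_lt_right (lt_trans h1 h3)
    rw [← hx13, ← v.map_mul, hfp,
      v.map_sub_eq_of_lt_right (by rw [h2ly]; exact lt_of_le_of_lt hvfp hlx), h2ly]
  rw [hz, v.map_sub_swap]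
  have h' : v (x₁ - x₂) * v l ^ 2 = (v x₁ * (v l)⁻¹) * v l ^ 2 := by
    rw [hprod, pow_two, mul_assoc, ← mul_assoc (v l)⁻¹, inv_mul_cancel₀ hl0.ne', one_mul, mul_comm]
  exact mul_right_cancel₀ (pow_ne_zero 2 hl0.ne') h'

theorem Model.iso_node (v : Valuation K Γ₀) (M : Model G (-(δ + u)) (δ * u) 0) (hu : v u = 1)
    (hδ : v δ < 1) (hv2 : v (2 : K) = 1) {P c : G} (hP : P ≠ 0) (hgen : v δ < v (M.X P))
    (hX : v (M.X P) < 1) (hc : c ≠ 0) (hXc : 1 < v (M.X c)) :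
    P + c ≠ 0 ∧ v (M.X (P + c)) = v (M.X P) ∧
      v (M.X (P + c) - M.X P) = v (M.X P) * v (M.zPar c) := by
  obtain ⟨c₂, c₄, c₆⟩ := v_coeffs v hu.le hδ.le
  have hPc : P + c ≠ 0 := by
    intro h
    have : P = -c := eq_neg_of_add_eq_zero_left h
    rw [this, M.X_neg] at hX
    exact absurd (lt_trans hX hXc) (lt_irrefl _)
  have hXPc : v (M.X (P + c)) ≤ 1 := by
    by_contra h
    rw [not_le] at h
    have T := M.tri (P + c) (-c) (-P) hPc (neg_ne_zero.2 hc) (neg_ne_zero.2 hP) (by abel)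
    have := tri_E1_closed v c₂ c₄ c₆ T h (by rw [M.X_neg]; exact hXc)
    rw [M.X_neg] at this
    exact absurd (lt_trans hX this) (lt_irrefl _)
  have T := M.tri P (-(P + c)) c hP (neg_ne_zero.2 hPc) hc (by abel)
  rw [M.X_neg, M.Y_neg] at T
  obtain ⟨h1, h2⟩ := tri_iso_node v hu hδ hv2 T hgen hX hXPc hXc
  rw [M.zPar_of_ne hc]
  exact ⟨hPc, h1, h2⟩

end Fermat.Agent.MR.E
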