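import Fermat.Agent.MR.E.Peu
import Fermat.Agent.MR.E.IsoNode

/-!
# MR / E (S44) : peu ramifiée for the model `Y² = X (X - δ) (X - u)` (multiplicative reduction,
`v δ = v d ^ p` with `d` rational)
-/

set_option autoImplicit false

open Fermat.Agent.S05

namespace Fermat.Agent.MR.E

local notation "Qb" => AlgebraicClosure ℚ
local notation "GQ" => (AlgebraicClosure ℚ ≃ₐ[ℚ] AlgebraicClosure ℚ)

/-- The Galois-theoretic core of `peu_of_model`: it suffices to find, for each `b ≠ 0`, an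
equivariant integral function `F` on the coset `P + ℤ T` which separates `P + b T` from `P` by at
least `v (ζ - 1)`. -/
theorem peu_core {G : Type*} [AddCommGroup G] [DistribMulAction GQ G]
    (A : ValuationSubring Qb) {p : ℕ} (hp : p.Prime)
    {ζ : Qb} (hζ : IsPrimitiveRoot ζ p)
    {T : G} (hTp : p • T = 0) (hTH : ∀ τ ∈ HH A p, τ • T = T)
    {P : G} (hPH : ∀ τ ∈ HH A p, ∃ a : ℤ, τ • P - P = a • T)
    {σ : GQ} (hσ : σ ∈ HH A p) (hfix : FixU A p σ)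
    (hbig : ∀ b : ZMod p, b ≠ 0 → ∃ F : G → Qb,
      (∀ τ ∈ HH A p, ∀ c : ZMod p, F (τ • (P + c.val • T)) = τ (F (P + c.val • T))) ∧
      (∀ c : ZMod p, A.valuation (F (P + c.val • T)) ≤ 1) ∧
      A.valuation (ζ - 1) ≤ A.valuation (F (P + b.val • T) - F P)) : σ • P = P := by
  classical
  have : Fact p.Prime := ⟨hp⟩
  set v := A.valuation with hv
  let φ : ZMod p →+ G := ZMod.lift p ⟨zmultiplesHom G T, by
    change ((p : ℕ) : ℤ) • T = 0
    rw [natCast_zsmul, hTp]⟩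
  have hφint : ∀ n : ℤ, φ (n : ZMod p) = n • T := fun n => ZMod.lift_coe p _ n
  have hφval : ∀ b : ZMod p, φ b = b.val • T := by
    intro b
    have h := hφint (b.val : ℤ)
    rw [Int.cast_natCast, ZMod.natCast_zmod_val, natCast_zsmul] at h
    exact h
  have hφH : ∀ τ ∈ HH A p, ∀ b, τ • φ b = φ b := by
    intro τ hτ b
    rw [hφval, smul_comm, hTH τ hτ]
  let a : GQ → ZMod p := fun τ =>
    if h : τ ∈ HH A p then (((hPH τ h).choose : ℤ) : ZMod p) else 0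
  have hPa : ∀ τ ∈ HH A p, τ • P = P + φ (a τ) := by
    intro τ hτ
    have h1 : a τ = (((hPH τ hτ).choose : ℤ) : ZMod p) := dif_pos hτ
    rw [h1, hφint, ← (hPH τ hτ).choose_spec]
    abel
  have hQτ : ∀ τ ∈ HH A p, ∀ b, τ • (P + φ b) = P + φ (b + a τ) := by
    intro τ hτ b
    rw [smul_add, hPa τ hτ, hφH τ hτ, map_add]
    abel
  have hHζ : ∀ τ ∈ HH A p, τ ζ = ζ := fun τ hτ => (mem_HH.1 hτ).2 ζ hζ.pow_eq_one
  have hfix' : ∀ y : Qb, v y = 1 → (∀ τ ∈ HH A p, τ (y ^ p) = y ^ p) → σ y = y := by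
    intro y hy hyH
    refine hfix y ((A.valuation_le_one_iff _).1 hy.le) ((A.valuation_le_one_iff _).1 ?_) hyH
    rw [map_inv₀, ← hv, hy, inv_one]
  have ha0 : a σ = 0 := by
    by_contra hne
    obtain ⟨F, hF1, hF2, hF3⟩ := hbig (a σ) hne
    refine hne (resolvent v hζ (HH A p) hHζ (fun b => F (P + φ b))
      (fun b => by rw [hφval]; exact hF2 b) a (fun τ hτ b => ?_) hσ hfix' ?_)
    · rw [← hQτ τ hτ, hφval, hF1 τ hτ]
    · rw [_root_.map_zero, add_zero, hφval]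
      exact hF3
  rw [hPa σ hσ, ha0, _root_.map_zero, add_zero]

theorem peu_of_model_mult {G : Type*} [AddCommGroup G] [DistribMulAction GQ G] {δ u α d : Qb}
    (M : Model G (-(δ + u)) (δ * u) 0)
    (hMX : ∀ (σ : GQ) (P : G), P ≠ 0 → M.X (σ • P) = σ (M.X P))
    (hMY : ∀ (σ : GQ) (P : G), P ≠ 0 → M.Y (σ • P) = σ (M.Y P))
    (A : ValuationSubring Qb) {p : ℕ} (hp : p.Prime) (hp2 : p ≠ 2) (hA : A.LiesOverPrime p)
    (hu : A.valuation u = 1) (hδ0 : δ ≠ 0) (hδ : A.valuation δ < 1) (hα : α ^ 2 = -u)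
    (hd : A.valuation δ = A.valuation d ^ p) (hdfix : ∀ σ : GQ, σ d = d)
    {ζ : Qb} (hζ : IsPrimitiveRoot ζ p)
    {T : G} (hT0 : T ≠ 0) (hTp : p • T = 0) (hTX : M.X T ∉ A)
    (hTz : A.valuation (M.zPar T) = A.valuation (ζ - 1))
    (hTH : ∀ τ ∈ HH A p, τ • T = T)
    {P : G} (hP0 : P ≠ 0) (hPp : p • P = 0) (hPX : M.X P ∈ A)
    (hPH : ∀ τ ∈ HH A p, ∃ a : ℤ, τ • P - P = a • T)
    {σ : GQ} (hσ : σ ∈ HH A p) (hfix : FixU A p σ) : σ • P = P := by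
  have : Fact p.Prime := ⟨hp⟩
  set v := A.valuation with hv
  obtain ⟨c₂, c₄, c₆⟩ := v_coeffs v hu.le hδ.le
  have hv2 : v (2 : Qb) = 1 := by
    have h := Peu_val_natCast hp hA (k := 2) (fun hd =>
      hp2 ((Nat.prime_dvd_prime_iff_eq hp Nat.prime_two).1 hd))
    exact_mod_cast h
  have hPX' : v (M.X P) ≤ 1 := (A.valuation_le_one_iff _).2 hPX
  have hTX' : 1 < v (M.X T) := not_le.1 (mt (A.valuation_le_one_iff _).1 hTX)
  have e : M.Y P ^ 2 = M.X P * (M.X P - δ) * (M.X P - u) := by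
    rw [M.eqn P hP0]; ring
  -- the points `b • T`, `b ≠ 0`
  have hc : ∀ b : ZMod p, b ≠ 0 →
      b.val • T ≠ 0 ∧ 1 < v (M.X (b.val • T)) ∧ v (M.zPar (b.val • T)) = v (ζ - 1) := by
    intro b hb
    have hk : v ((b.val : ℕ) : Qb) = 1 := Peu_val_natCast hp hA (fun hd => by
      have h1 := Nat.eq_zero_of_dvd_of_lt hd (ZMod.val_lt b)
      exact hb ((ZMod.val_eq_zero b).1 h1))
    obtain ⟨h1, h2, h3⟩ := Peu_zPar_nsmul_unit v M c₂ c₄ c₆ hT0 hTX' hk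
    exact ⟨h1, h2, h3.trans hTz⟩
  have hzero : ∀ c : ZMod p, c = 0 → P + c.val • T = P := by
    rintro c rfl
    rw [ZMod.val_zero, zero_smul, add_zero]
  rcases hPX'.lt_or_eq with hX | hX
  · -- singular reduction
    obtain ⟨hgen, m, hm⟩ := M.val_X_of_torsion v hu hδ0 hδ hv2 hα hp hp2 hd hPp hP0 hX
    have hd0 : d ≠ 0 := by
      rintro rfl
      rw [map_zero, zero_pow hp.ne_zero] at hd
      exact hδ0 ((v.zero_iff).mp hd)
    have hc0 : d ^ m ≠ 0 := zpow_ne_zero m hd0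
    have hXc : v (M.X P) = v (d ^ m) := by rw [map_zpow₀, hm]
    have hvc0 : v (d ^ m) ≠ 0 := (v.ne_zero_iff).2 hc0
    have hQ : ∀ c : ZMod p, P + c.val • T ≠ 0 ∧ v (M.X (P + c.val • T)) = v (d ^ m) := by
      intro c
      rcases eq_or_ne c 0 with h0 | h0
      · rw [hzero c h0]; exact ⟨hP0, hXc⟩
      · obtain ⟨h1, h2, -⟩ := hc c h0
        obtain ⟨h3, h4, -⟩ := Model.iso_node v M hu hδ hv2 hP0 hgen hX h1 h2
        exact ⟨h3, h4.trans hXc⟩
    refine peu_core A hp hζ hTp hTH hPH hσ hfix (fun b hb => ⟨fun Q => M.X Q / d ^ m, ?_, ?_, ?_⟩)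
    · intro τ _ c
      simp only
      rw [hMX τ _ (hQ c).1, map_div₀, map_zpow₀, hdfix]
    · intro c
      simp only
      rw [map_div₀, ← hv, (hQ c).2, div_self hvc0]
    · obtain ⟨h1, h2, h3⟩ := hc b hb
      obtain ⟨-, -, h4⟩ := Model.iso_node v M hu hδ hv2 hP0 hgen hX h1 h2
      simp only
      rw [← sub_div, map_div₀, ← hv, h4, h3, hXc, mul_comm, mul_div_assoc, div_self hvc0, mul_one]
  · -- nonsingular reduction
    have hns := DiffE1_nonsing v hδ hv2 e hX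
    have hQ : ∀ c : ZMod p, P + c.val • T ≠ 0 ∧ v (M.X (P + c.val • T)) ≤ 1 := by
      intro c
      rcases eq_or_ne c 0 with h0 | h0
      · rw [hzero c h0]; exact ⟨hP0, hPX'⟩
      · obtain ⟨h1, h2, -⟩ := hc c h0
        obtain ⟨h3, h4, -⟩ := Model.iso v M c₂ c₄ c₆ hv2 hP0 hPX' h1 h2 hns
        exact ⟨h3, h4⟩
    refine peu_core A hp hζ hTp hTH hPH hσ hfix (fun b hb => ?_)
    obtain ⟨h1, h2, h3⟩ := hc b hb
    obtain ⟨-, -, h4⟩ := Model.iso v M c₂ c₄ c₆ hv2 hP0 hPX' h1 h2 hns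
    rw [h3] at h4
    rcases le_max_iff.1 h4 with h5 | h5
    · exact ⟨M.X, fun τ _ c => hMX τ _ (hQ c).1, fun c => (hQ c).2, h5⟩
    · exact ⟨M.Y, fun τ _ c => hMY τ _ (hQ c).1,
        fun c => M.v_Y_le_one v c₂ c₄ c₆ (hQ c).1 (hQ c).2, h5⟩

end Fermat.Agent.MR.E
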