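import Fermat.Agent.MR.E.CStruct
import Fermat.Agent.MR.E.Inert
import Fermat.Agent.MR.E.NodeRoot
import Fermat.Agent.MR.E.PeuNode
import Fermat.Agent.S05.Frey

/-!
# MR / E (S44) : the contract of the elliptic curve side at a prime `p` of multiplicative reduction
with `p ∣ v_p(Δ)`, for a curve `W / ℤ` which over `Qb` becomes `Y² = X (X - δ) (X - u)`, `v u = 1`,
`v δ = v d ^ p < 1`, `d` rational.
-/

set_option autoImplicit false

open WeierstrassCurve WeierstrassCurve.Affine WeierstrassCurve.Affine.Point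
open Fermat.Agent.S05 Polynomial

namespace Fermat.Agent.MR.E

local notation "Qb" => AlgebraicClosure ℚ
local notation "GQ" => (AlgebraicClosure ℚ ≃ₐ[ℚ] AlgebraicClosure ℚ)

/-- The contract of block E: a line `ℤ T ⊆ E[p]` such that (i) inertia acts trivially on
`E[p] / ℤ T`, (ii) inertia acts on `T` through the cyclotomic character, (iii) (peu ramifiée) every
`σ ∈ HH A p` fixing all `p`-th roots of units of `Qb ^ HH` acts trivially on `E[p]`. -/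
def Contract (E : WeierstrassCurve ℚ) (A : ValuationSubring Qb) (p : ℕ) : Prop :=
  ∃ T : (E⁄Qb).Point, (p : ℤ) • T = 0 ∧ T ≠ 0 ∧
    (∀ σ ∈ A.inertiaSubgroupIn ℚ, ∀ P : (E⁄Qb).Point, (p : ℤ) • P = 0 →
      ∃ a : ℤ, σ • P - P = a • T) ∧
    (∀ σ ∈ A.inertiaSubgroupIn ℚ, ∀ e : ℕ, (∀ ζ : Qb, ζ ^ p = 1 → σ ζ = ζ ^ e) →
      σ • T = (e : ℤ) • T) ∧
    (∀ σ ∈ HH A p, FixU A p σ → ∀ P : (E⁄Qb).Point, (p : ℤ) • P = 0 → σ • P = P)

theorem eside_of_shift (W : WeierstrassCurve ℤ) {p : ℕ} (hp : p.Prime) (hp2 : p ≠ 2)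
    (hΔ : (EQ W).Δ ≠ 0) (hmod : (S13.hpoly W ((p - 1) / 2)).map (Int.castRingHom (ZMod p)) ≠ 0)
    (x₀ : ℤ) (hx₀ : (p : ℤ) ∣ (S13.hpoly W ((p - 1) / 2)).eval x₀)
    (A : ValuationSubring Qb) (hA : A.LiesOverPrime p)
    (r δ u d : Qb) (hr : ∀ σ : GQ, σ r = r) (hdfix : ∀ σ : GQ, σ d = d) (hrA : r ∈ A)
    (h₂ : -(δ + u) = ((EQ W)⁄Qb).b₂ / 4 + 3 * r)
    (h₄ : δ * u = ((EQ W)⁄Qb).b₄ / 2 + 2 * (((EQ W)⁄Qb).b₂ / 4) * r + 3 * r ^ 2)
    (h₆ : 0 = ((EQ W)⁄Qb).b₆ / 4 + ((EQ W)⁄Qb).b₄ / 2 * r + ((EQ W)⁄Qb).b₂ / 4 * r ^ 2 + r ^ 3)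
    (hu : A.valuation u = 1) (hδ0 : δ ≠ 0) (hδ : A.valuation δ < 1)
    (hd : A.valuation δ = A.valuation d ^ p) : Contract (EQ W) A p := by
  classical
  obtain ⟨m, hm, hpm, hm'⟩ := CStruct_odd hp hp2
  obtain ⟨T, hT, hT0, hTA⟩ := exists_big W hp hp2 hΔ hmod A hA
  -- a point of `E[p]` outside the kernel of reduction
  obtain ⟨P₀, h1, h2, h3⟩ : ∃ P₀ : ((EQ W)⁄Qb).Point, (p : ℤ) • P₀ = 0 ∧ P₀ ≠ 0 ∧
      (MW W).X P₀ ∈ A := by
    rw [hm'] at hmod hx₀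
    obtain ⟨x, hx, hxv⟩ := exists_small_root A.valuation p hp (val_p_lt hA) (S13.hpoly W m)
      (2 * m ^ 2 + 2 * m) (S13.hpoly_natDegree_le W m hm)
      (by rw [S13.hpoly_coeff W m hm, hpm]) hmod x₀ hx₀
    obtain ⟨P₀, h2, h1, h3⟩ := exists_point_of_root W hΔ m hm x hx
    refine ⟨P₀, by rw [hpm]; exact h1, h2, ?_⟩
    rw [h3]
    exact (A.valuation_le_one_iff _).1 hxv
  have hC : ∀ P : ((EQ W)⁄Qb).Point, (p : ℤ) • P = 0 → P ≠ 0 → (MW W).X P ∉ A →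
      ∃ a : ℤ, P = a • T :=
    fun P hP hP0 hPA => ord_struct W hp hp2 hΔ A h1 h2 h3 hT hT0 hTA P hP hP0 hPA
  have hzp := val_zPar_pow W hp hp2 hΔ hmod A hA hT hT0 hTA hC
  have hp1 : p - 1 ≠ 0 := by have := hp.two_le; omega
  have hz : ∀ ζ : Qb, IsPrimitiveRoot ζ p →
      A.valuation ((MW W).zPar T) = A.valuation (ζ - 1) := by
    intro ζ hζ
    have h := val_zeta_sub_one_pow A hp hζ
    exact (pow_left_inj₀ zero_le zero_le hp1).1 (hzp.trans h.symm)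
  obtain ⟨ζ, hζ⟩ : ∃ ζ : Qb, IsPrimitiveRoot ζ p :=
    have : NeZero ((p : ℕ) : Qb) := ⟨Nat.cast_ne_zero.2 hp.ne_zero⟩
    HasEnoughRootsOfUnity.exists_primitiveRoot Qb p
  obtain ⟨α, hα⟩ : ∃ α : Qb, α ^ 2 = -u := IsAlgClosed.exists_pow_nat_eq (-u) (by norm_num)
  have hv2 : A.valuation (2 : Qb) = 1 := val_two hp hp2 hA
  have hrv : A.valuation r ≤ 1 := (A.valuation_le_one_iff _).2 hrA
  -- the shifted model
  let M' : Model ((EQ W)⁄Qb).Point (-(δ + u)) (δ * u) 0 := (MW W).shift r h₂ h₄ h₆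
  have hM'X : ∀ Q, M'.X Q = (MW W).X Q - r := fun _ => rfl
  have hM'Y : ∀ Q, M'.Y Q = (MW W).Y Q := fun _ => rfl
  have hmem : ∀ Q, M'.X Q ∈ A ↔ (MW W).X Q ∈ A := by
    intro Q
    rw [hM'X]
    constructor
    · intro h
      have := A.add_mem _ _ h hrA
      rwa [sub_add_cancel] at this
    · intro h
      exact A.sub_mem h hrA
  have hi : ∀ σ ∈ A.inertiaSubgroupIn ℚ, ∀ P : ((EQ W)⁄Qb).Point, (p : ℤ) • P = 0 →
      ∃ a : ℤ, σ • P - P = a • T := by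
    intro σ hσ P hP
    by_cases h0 : σ • P - P = 0
    · exact ⟨0, by rw [h0, zero_zsmul]⟩
    have I : IsInertial A.valuation M' (σ : Qb →+* Qb) (Point.map (W' := EQ W) σ.toAlgHom) :=
      (isInertial_weierstrass (EQ W) (two_ne_zero : (2 : Qb) ≠ 0) A σ hσ).shift (hr σ) h₂ h₄ h₆
    have hbig := Model.diff_E1_mult A.valuation M' hu hδ0 hδ hv2 hα hp hp2 hd I (hdfix σ)
      (P := P) (by rw [← natCast_zsmul]; exact hP) h0
    refine hC _ ?_ h0 ?_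
    · rw [zsmul_sub, ← smul_zsmul_pt, hP, smul_zero_pt, sub_zero]
    · intro hin
      have h5 := (A.valuation_le_one_iff _).2 ((hmem _).2 hin)
      exact absurd hbig (not_lt.2 h5)
  have hii : ∀ σ ∈ A.inertiaSubgroupIn ℚ, ∀ e : ℕ, (∀ ζ : Qb, ζ ^ p = 1 → σ ζ = ζ ^ e) →
      σ • T = (e : ℤ) • T := by
    intro σ hσ e he
    have hin := S13.isInertial_of_mem_inertia A σ hσ
    have hσT0 : σ • T ≠ 0 := fun h => hT0 ((smul_eq_zero_iff_pt W σ T).1 h)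
    have hσTA : (MW W).X (σ • T) ∉ A := by
      rw [MW_X_smul, ← A.valuation_le_one_iff]
      have := hin.map_val ((MW W).X T)
      rw [show A.valuation (σ ((MW W).X T)) = A.valuation ((MW W).X T) from this,
        A.valuation_le_one_iff]
      exact hTA
    obtain ⟨a, ha⟩ := hC (σ • T) (by rw [← smul_zsmul_pt, hT, smul_zero_pt]) hσT0 hσTA
    have hpZ : (0 : ℤ) < p := by exact_mod_cast hp.pos
    have hk : σ • T = (a % p).toNat • T := by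
      rw [← natCast_zsmul, Int.toNat_of_nonneg (Int.emod_nonneg _ hpZ.ne'), ha]
      conv_lhs => rw [← Int.mul_ediv_add_emod a p]
      rw [add_zsmul, mul_comm, mul_zsmul, hT, zsmul_zero, zero_add]
    exact inert_cyclo W hp hp2 A hA hT hT0 hTA hζ (hz ζ hζ) hσ hk (he ζ hζ.pow_eq_one)
  refine ⟨T, hT, hT0, hi, hii, ?_⟩
  intro σ hσ hfix P hP
  have hTH : ∀ τ ∈ HH A p, τ • T = T := by
    intro τ hτ
    have h1 := hii τ hτ.1 1 (fun ζ hζ => by rw [pow_one]; exact hτ.2 ζ hζ)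
    rw [h1]
    simp
  by_cases hP0 : P = 0
  · rw [hP0]; rfl
  by_cases hPX : (MW W).X P ∈ A
  · have hTbig : 1 < A.valuation ((MW W).X T) :=
      not_le.1 (mt (A.valuation_le_one_iff _).1 hTA)
    have hTz : A.valuation (M'.zPar T) = A.valuation (ζ - 1) := by
      rw [← hz ζ hζ, M'.zPar_of_ne hT0, (MW W).zPar_of_ne hT0, hM'X, hM'Y, map_div₀, map_div₀,
        Valuation.map_sub_eq_of_lt_left _ (lt_of_le_of_lt hrv hTbig)]
    exact peu_of_model_mult M'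
      (fun σ P _ => by rw [hM'X, hM'X, MW_X_smul, map_sub, hr])
      (fun σ P _ => by rw [hM'Y, hM'Y, MW_Y_smul]) A hp hp2 hA hu hδ0 hδ hα hd hdfix hζ hT0
      (by rw [← natCast_zsmul]; exact hT) (fun h => hTA ((hmem T).1 h)) hTz hTH hP0
      (by rw [← natCast_zsmul]; exact hP) ((hmem P).2 hPX)
      (fun τ hτ => hi τ hτ.1 P hP) hσ hfix
  · obtain ⟨a, rfl⟩ := hC P hP hP0 hPX
    rw [smul_zsmul_pt, hTH σ hσ]

end Fermat.Agent.MR.E
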