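import Fermat.Agent.MR.E.ESideFrey
import Fermat.Agent.ORD.P1.Inertia

/-!
# MR / E (S44) : consequences of the contract of block E in the form used by the chain

`exists_fixed_pt` : there are `s₀` in the inertia group with `s₀ ζ = ζ ^ 2` on `μ_p` (so `ε(s₀) ≢ 1`) and a
point `Q ∈ E[p] ∖ ℤ T` with `s₀ Q = Q`.
-/

set_option autoImplicit false

open WeierstrassCurve WeierstrassCurve.Affine WeierstrassCurve.Affine.Point

namespace Fermat.Agent.MR.E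

local notation "Qb" => AlgebraicClosure ℚ
local notation "GQ" => (AlgebraicClosure ℚ ≃ₐ[ℚ] AlgebraicClosure ℚ)

/-- `E[p]` is not contained in a cyclic group generated by a `p`-torsion point. -/
theorem exists_not_mem_line (E : WeierstrassCurve ℚ) (hΔ : E.Δ ≠ 0) {p : ℕ} (hp : p.Prime)
    (hp2 : p ≠ 2) (T : (E⁄Qb).Point) (hT : (p : ℤ) • T = 0) :
    ∃ P : (E⁄Qb).Point, (p : ℤ) • P = 0 ∧ ∀ a : ℤ, P ≠ a • T := by
  classical
  by_contra hcon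
  push Not at hcon
  have hcard := S41.G.card_torsionBy_Qbar E hΔ hp hp2
  have hfin := S41.G.finite_torsionBy_Qbar E hΔ hp hp2
  have : NeZero p := ⟨hp.ne_zero⟩
  -- a surjection `ZMod p → E[p]`
  let f : ZMod p → Submodule.torsionBy ℤ (E⁄Qb).Point p := fun b =>
    ⟨(b.val : ℤ) • T, by
      rw [Submodule.mem_torsionBy_iff, smul_comm, hT, zsmul_zero]⟩
  have hf : Function.Surjective f := by
    rintro ⟨P, hP⟩
    rw [Submodule.mem_torsionBy_iff] at hP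
    obtain ⟨a, ha⟩ := hcon P hP
    refine ⟨(a : ZMod p), Subtype.ext ?_⟩
    change (((a : ZMod p).val : ℕ) : ℤ) • T = P
    rw [ha, ZMod.val_intCast]
    conv_rhs => rw [← Int.mul_ediv_add_emod a p]
    rw [add_zsmul, mul_comm, mul_zsmul, hT, zsmul_zero, zero_add]
  have h1 := Nat.card_le_card_of_surjective f hf
  rw [hcard, Nat.card_zmod] at h1
  have h2 : p < p ^ 2 := by
    have := hp.two_le
    nlinarith
  omega

/-- The point used for (b2): a point of `E[p] ∖ ℤ T` fixed by an element `s₀` of inertia with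
`ε(s₀) = 2 ≢ 1`. -/
theorem exists_fixed_pt (E : WeierstrassCurve ℚ) (hΔ : E.Δ ≠ 0) {p : ℕ} (hp : p.Prime)
    (hp2 : p ≠ 2) (A : ValuationSubring Qb) (hA : A.LiesOverPrime p)
    {T : (E⁄Qb).Point} (hT : (p : ℤ) • T = 0)
    (hi : ∀ σ ∈ A.inertiaSubgroupIn ℚ, ∀ P : (E⁄Qb).Point, (p : ℤ) • P = 0 →
      ∃ a : ℤ, σ • P - P = a • T)
    (hii : ∀ σ ∈ A.inertiaSubgroupIn ℚ, ∀ e : ℕ, (∀ ζ : Qb, ζ ^ p = 1 → σ ζ = ζ ^ e) →
      σ • T = (e : ℤ) • T) :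
    ∃ s₀ ∈ A.inertiaSubgroupIn ℚ, (∀ ζ : Qb, ζ ^ p = 1 → s₀ ζ = ζ ^ 2) ∧
      ∃ Q : (E⁄Qb).Point, (p : ℤ) • Q = 0 ∧ (∀ a : ℤ, Q ≠ a • T) ∧ s₀ • Q = Q := by
  obtain ⟨s₀, hs₀, hs₀ζ⟩ := ORD.P1.exists_inertia_pow A hp hA 1 2 (fun h =>
    hp2 ((Nat.prime_dvd_prime_iff_eq hp Nat.prime_two).1 h))
  simp only [pow_one] at hs₀ζ
  obtain ⟨P, hP, hPT⟩ := exists_not_mem_line E hΔ hp hp2 T hT
  obtain ⟨c, hc⟩ := hi s₀ hs₀ P hP
  have hsT := hii s₀ hs₀ 2 hs₀ζ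
  refine ⟨s₀, hs₀, hs₀ζ, P - c • T, ?_, ?_, ?_⟩
  · rw [zsmul_sub, hP, smul_comm, hT, zsmul_zero, sub_zero]
  · intro a ha
    exact hPT (a + c) (by rw [add_zsmul, ← ha]; abel)
  · have h1 : s₀ • P = P + c • T := by rw [← hc]; abel
    have h2 : s₀ • (P - c • T) = s₀ • P - c • (s₀ • T) := by
      rw [smul_sub, smul_comm]
    rw [h2, h1, hsT, smul_smul]
    have : (c * ((2 : ℕ) : ℤ)) • T = c • T + c • T := by
      rw [← add_zsmul]; congr 1; push_cast; ring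
    rw [this]
    abel

end Fermat.Agent.MR.E
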