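import Fermat.Agent.MR.Contracts
import Fermat.Agent.MR.E.Use

/-!
# MR / E (S44) : the contract `MR.EStatement` of block E, in the exact shape of `MR/Contracts.lean`

`eside_frey` (points of `E(ℚ̄)` killed by `p`) transported to `Tors E p = torsionBy ℤ E(ℚ̄) p`, plus
`exists_not_mem_line`.
-/

set_option autoImplicit false

open WeierstrassCurve WeierstrassCurve.Affine WeierstrassCurve.Affine.Point

namespace Fermat.Agent.MR.E

local notation "Qb" => AlgebraicClosure ℚ
local notation "GQ" => (AlgebraicClosure ℚ ≃ₐ[ℚ] AlgebraicClosure ℚ)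

/-- from the pointwise contract to the module form. -/
theorem eSide_of_contract (E : WeierstrassCurve ℚ) (hΔ : E.Δ ≠ 0) {p : ℕ} (hp : p.Prime)
    (hp2 : p ≠ 2) (A : ValuationSubring Qb) (h : Contract E A p) : MR.ESide A p (MR.Tors E p) := by
  obtain ⟨T, hT, hT0, hi, hii, hiii⟩ := h
  obtain ⟨Q, hQ, hQT⟩ := exists_not_mem_line E hΔ hp hp2 T hT
  have hmem : ∀ {P : (E⁄Qb).Point}, (p : ℤ) • P = 0 →
      P ∈ Submodule.torsionBy ℤ (E⁄Qb).Point p := fun {P} hP => by
    rw [Submodule.mem_torsionBy_iff]; exact hP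
  have hker : ∀ P : MR.Tors E p, (p : ℤ) • (P : (E⁄Qb).Point) = 0 := fun P => by
    have := P.2
    rwa [Submodule.mem_torsionBy_iff] at this
  refine ⟨⟨⟨T, hmem hT⟩, ?_, ?_, ?_, ?_, ⟨⟨Q, hmem hQ⟩, ?_⟩⟩⟩
  · intro h0
    exact hT0 (congrArg Subtype.val h0)
  · intro σ hσ P
    obtain ⟨b, hb⟩ := hi σ hσ P (hker P)
    exact ⟨b, Subtype.ext hb⟩
  · intro σ hσ e he
    exact Subtype.ext (hii σ hσ e he)
  · intro σ hσ hf P
    exact Subtype.ext (hiii σ hσ hf P (hker P))
  · intro b hb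
    exact hQT b (congrArg Subtype.val hb)

/-- **the contract of block E.** -/
theorem eStatement : MR.EStatement := by
  intro P A hA hdvd
  have hp2 : P.p ≠ 2 := by have := P.hp5; omega
  have hΔ : P.freyCurve.Δ ≠ 0 := by
    rw [← Fermat.Agent.Lib.FreyCurveBasic.freyCurveInt_map P, WeierstrassCurve.map_Δ]
    simpa using Fermat.Agent.Lib.FreyCurveBasic.freyCurveInt_Δ_ne_zero P
  exact eSide_of_contract P.freyCurve hΔ P.pp hp2 A (eside_frey P A hA hdvd)

end Fermat.Agent.MR.E
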