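import Fermat.Agent.MR.E.Defs
import Fermat.Agent.S13.NP
import Fermat.Agent.S13.R1
import Fermat.Agent.S13.Defs2

/-!
# MR / E : the model `MW W`: Galois equivariance, integral coefficients, nonsingular reduction
-/

set_option autoImplicit false

open WeierstrassCurve WeierstrassCurve.Affine WeierstrassCurve.Affine.Point
open Fermat.Agent.S05

namespace Fermat.Agent.MR.E

local notation "Qb" => AlgebraicClosure ℚ
local notation "GQ" => (AlgebraicClosure ℚ ≃ₐ[ℚ] AlgebraicClosure ℚ)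

theorem MW_X_some (W : WeierstrassCurve ℤ) {x y : Qb} (h : ((EQ W)⁄Qb).Nonsingular x y) :
    (MW W).X (Point.some x y h) = x := rfl

theorem MW_Y_some (W : WeierstrassCurve ℤ) {x y : Qb} (h : ((EQ W)⁄Qb).Nonsingular x y) :
    (MW W).Y (Point.some x y h) = y + (((EQ W)⁄Qb).a₁ * x + ((EQ W)⁄Qb).a₃) / 2 := rfl

theorem MW_X_smul (W : WeierstrassCurve ℤ) (σ : GQ) (P : ((EQ W)⁄Qb).Point) :
    (MW W).X (σ • P) = σ ((MW W).X P) := by
  rcases P with _ | ⟨x, y, h⟩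
  · exact (map_zero σ).symm
  · rfl

theorem MW_Y_smul (W : WeierstrassCurve ℤ) (σ : GQ) (P : ((EQ W)⁄Qb).Point) :
    (MW W).Y (σ • P) = σ ((MW W).Y P) := by
  rcases P with _ | ⟨x, y, h⟩
  · exact (map_zero σ).symm
  · change σ y + (((EQ W)⁄Qb).a₁ * σ x + ((EQ W)⁄Qb).a₃) / 2
      = σ (y + (((EQ W)⁄Qb).a₁ * x + ((EQ W)⁄Qb).a₃) / 2)
    have h1 : σ (((EQ W)⁄Qb).a₁) = ((EQ W)⁄Qb).a₁ := σ.commutes _
    have h3 : σ (((EQ W)⁄Qb).a₃) = ((EQ W)⁄Qb).a₃ := σ.commutes _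
    simp only [map_add, map_div₀, map_mul, h1, h3, map_ofNat]

theorem smul_eq_zero_iff_pt (W : WeierstrassCurve ℤ) (σ : GQ) (P : ((EQ W)⁄Qb).Point) :
    σ • P = 0 ↔ P = 0 := by
  constructor
  · intro h
    rcases P with _ | ⟨x, y, h'⟩
    · rfl
    · exact absurd h (Point.some_ne_zero _)
  · rintro rfl
    rfl

theorem smul_zero_pt (W : WeierstrassCurve ℤ) (σ : GQ) : σ • (0 : ((EQ W)⁄Qb).Point) = 0 := rfl

theorem smul_zsmul_pt (W : WeierstrassCurve ℤ) (σ : GQ) (n : ℤ) (P : ((EQ W)⁄Qb).Point) :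
    σ • (n • P) = n • σ • P := (smul_comm n σ P).symm

theorem smul_nsmul_pt (W : WeierstrassCurve ℤ) (σ : GQ) (n : ℕ) (P : ((EQ W)⁄Qb).Point) :
    σ • (n • P) = n • σ • P := (smul_comm n σ P).symm

theorem MW_zPar_smul (W : WeierstrassCurve ℤ) (σ : GQ) (P : ((EQ W)⁄Qb).Point) :
    (MW W).zPar (σ • P) = σ ((MW W).zPar P) := by
  by_cases hP : P = 0
  · subst hP
    have : σ • (0 : ((EQ W)⁄Qb).Point) = 0 := rfl
    rw [this]
    simp [S05.Model.zPar_zero]
  · have hσP : σ • P ≠ 0 := fun h => hP ((smul_eq_zero_iff_pt W σ P).1 h)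
    rw [(MW W).zPar_of_ne hP, (MW W).zPar_of_ne hσP, map_div₀, MW_X_smul, MW_Y_smul]

theorem val_intCast_le (A : ValuationSubring Qb) (n : ℤ) : A.valuation (n : Qb) ≤ 1 :=
  (A.valuation_le_one_iff _).2 (intCast_mem A n)

theorem val_p_lt {A : ValuationSubring Qb} {p : ℕ} (hA : A.LiesOverPrime p) :
    A.valuation (p : Qb) < 1 := (ValuationSubring.mem_nonunits_iff A).mp hA

theorem val_intCast_eq_one {A : ValuationSubring Qb} {p : ℕ} (hp : p.Prime)
    (hA : A.LiesOverPrime p) {n : ℤ} (hn : ¬ (p : ℤ) ∣ n) : A.valuation (n : Qb) = 1 :=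
  S13.np_val_intCast_eq_one A.valuation p hp (val_p_lt hA) n hn

theorem val_natCast_eq_one {A : ValuationSubring Qb} {p : ℕ} (hp : p.Prime)
    (hA : A.LiesOverPrime p) {n : ℕ} (hn : ¬ p ∣ n) : A.valuation (n : Qb) = 1 := by
  have := val_intCast_eq_one hp hA (n := (n : ℤ)) (by exact_mod_cast hn)
  simpa using this

theorem val_two {A : ValuationSubring Qb} {p : ℕ} (hp : p.Prime) (hp2 : p ≠ 2)
    (hA : A.LiesOverPrime p) : A.valuation (2 : Qb) = 1 := by
  have := val_natCast_eq_one hp hA (n := 2)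
    (fun h => hp2 ((Nat.prime_dvd_prime_iff_eq hp Nat.prime_two).1 h))
  simpa using this

theorem integralCoeffs (A : ValuationSubring Qb) (W : WeierstrassCurve ℤ) :
    S13.IntegralCoeffs A.valuation ((EQ W)⁄Qb) := by
  refine ⟨?_, ?_, ?_, ?_, ?_⟩ <;>
  · simp only [EQ, WeierstrassCurve.baseChange, WeierstrassCurve.map_a₁,
      WeierstrassCurve.map_a₂, WeierstrassCurve.map_a₃, WeierstrassCurve.map_a₄,
      WeierstrassCurve.map_a₆, eq_intCast, map_intCast]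
    exact val_intCast_le A _

theorem MW_coeff_val (W : WeierstrassCurve ℤ) {p : ℕ} (hp : p.Prime) (hp2 : p ≠ 2)
    (A : ValuationSubring Qb) (hA : A.LiesOverPrime p) :
    A.valuation (((EQ W)⁄Qb).b₂ / 4) ≤ 1 ∧ A.valuation (((EQ W)⁄Qb).b₄ / 2) ≤ 1 ∧
      A.valuation (((EQ W)⁄Qb).b₆ / 4) ≤ 1 := by
  have h2 := val_two hp hp2 hA
  have h4 : A.valuation (4 : Qb) = 1 := by
    have : (4 : Qb) = 2 * 2 := by norm_num
    rw [this, map_mul, h2, one_mul]
  refine ⟨?_, ?_, ?_⟩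
  · rw [map_div₀, h4, div_one]
    simp only [EQ, WeierstrassCurve.baseChange, WeierstrassCurve.map_b₂, eq_intCast, map_intCast]
    exact val_intCast_le A _
  · rw [map_div₀, h2, div_one]
    simp only [EQ, WeierstrassCurve.baseChange, WeierstrassCurve.map_b₄, eq_intCast, map_intCast]
    exact val_intCast_le A _
  · rw [map_div₀, h4, div_one]
    simp only [EQ, WeierstrassCurve.baseChange, WeierstrassCurve.map_b₆, eq_intCast, map_intCast]
    exact val_intCast_le A _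

theorem MW_coeff_mem (W : WeierstrassCurve ℤ) {p : ℕ} (hp : p.Prime) (hp2 : p ≠ 2)
    (A : ValuationSubring Qb) (hA : A.LiesOverPrime p) :
    ((EQ W)⁄Qb).b₂ / 4 ∈ A ∧ ((EQ W)⁄Qb).b₄ / 2 ∈ A ∧ ((EQ W)⁄Qb).b₆ / 4 ∈ A := by
  obtain ⟨h1, h2, h3⟩ := MW_coeff_val W hp hp2 A hA
  exact ⟨(A.valuation_le_one_iff _).1 h1, (A.valuation_le_one_iff _).1 h2,
    (A.valuation_le_one_iff _).1 h3⟩

/-- good reduction: every integral point has nonsingular reduction (in the language of `S13`). -/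
theorem goodRed_of_good (W : WeierstrassCurve ℤ) {p : ℕ} (hp : p.Prime)
    (hgood : W.IsGoodPrimeFor p) (A : ValuationSubring Qb) (hA : A.LiesOverPrime p)
    {x y : Qb} (h : ((EQ W)⁄Qb).Equation x y) (hx : x ∈ A) :
    S13.GoodRed A.valuation ((EQ W)⁄Qb) x y := by
  have hy : y ∈ A := (A.valuation_le_one_iff _).1
    (S13.R1.val_y_le_one A.valuation (integralCoeffs A W) h ((A.valuation_le_one_iff _).2 hx))
  set ρ : A →+* IsLocalRing.ResidueField A := IsLocalRing.residue A with hρ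
  have hρ0 : ∀ a : A, ρ a = 0 ↔ A.valuation (a : Qb) < 1 := by
    intro a
    rw [hρ, IsLocalRing.residue_eq_zero_iff, A.valuation_lt_one_iff]
  set W' : WeierstrassCurve.Affine (IsLocalRing.ResidueField A) :=
    W.map (Int.castRingHom (IsLocalRing.ResidueField A)) with hW'
  have hΔ : W'.Δ ≠ 0 := by
    rw [hW', WeierstrassCurve.map_Δ]
    intro h0
    have h1 : ρ ((W.Δ : ℤ) : A) = 0 := by rw [map_intCast]; simpa using h0
    rw [hρ0] at h1
    have h2 := val_intCast_eq_one hp hA hgood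
    push_cast at h1
    rw [h2] at h1
    exact lt_irrefl _ h1
  set X : A := ⟨x, hx⟩
  set Y : A := ⟨y, hy⟩
  have heq : W'.Equation (ρ X) (ρ Y) := by
    rw [Affine.equation_iff] at h ⊢
    have hA' : Y ^ 2 + ((W.a₁ : ℤ) : A) * X * Y + ((W.a₃ : ℤ) : A) * Y
        = X ^ 3 + ((W.a₂ : ℤ) : A) * X ^ 2 + ((W.a₄ : ℤ) : A) * X + ((W.a₆ : ℤ) : A) := by
      apply Subtype.ext
      push_cast
      simpa [EQ, WeierstrassCurve.baseChange] using h
    have := congrArg ρ hA'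
    simpa [hW'] using this
  have hns := (W'.equation_iff_nonsingular_of_Δ_ne_zero hΔ).1 heq
  rw [Affine.nonsingular_iff] at hns
  have hunit : ∀ a : A, ρ a ≠ 0 → A.valuation (a : Qb) = 1 := by
    intro a ha
    rw [Ne, hρ0, not_lt] at ha
    exact le_antisymm (A.valuation_le_one a) ha
  rcases hns.2 with h1 | h1
  · left
    have := hunit (((W.a₁ : ℤ) : A) * Y -
        (((3 : ℤ) : A) * X ^ 2 + ((2 : ℤ) : A) * ((W.a₂ : ℤ) : A) * X + ((W.a₄ : ℤ) : A)))
      (by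
        intro h0
        apply h1
        have h0' := h0
        simp only [map_sub, map_add, map_mul, map_pow, map_intCast] at h0'
        simpa [hW', sub_eq_zero] using h0')
    have e : ((((W.a₁ : ℤ) : A) * Y -
        (((3 : ℤ) : A) * X ^ 2 + ((2 : ℤ) : A) * ((W.a₂ : ℤ) : A) * X + ((W.a₄ : ℤ) : A)) : A) : Qb)
        = (W.a₁ : Qb) * y - (3 * x ^ 2 + 2 * (W.a₂ : Qb) * x + (W.a₄ : Qb)) := by
      push_cast
      rfl
    rw [e] at this
    simpa [EQ, WeierstrassCurve.baseChange] using this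
  · right
    have := hunit (((2 : ℤ) : A) * Y + ((W.a₁ : ℤ) : A) * X + ((W.a₃ : ℤ) : A))
      (by
        intro h0
        apply h1
        have h0' := h0
        simp only [map_add, map_mul, map_intCast] at h0'
        simp only [hW', WeierstrassCurve.map_a₁, WeierstrassCurve.map_a₃, eq_intCast]
        push_cast at h0'
        linear_combination h0')
    have e : ((((2 : ℤ) : A) * Y + ((W.a₁ : ℤ) : A) * X + ((W.a₃ : ℤ) : A) : A) : Qb)
        = 2 * y + (W.a₁ : Qb) * x + (W.a₃ : Qb) := by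
      push_cast
      rfl
    rw [e] at this
    simpa [EQ, WeierstrassCurve.baseChange] using this

/-- good reduction: every integral point has nonsingular reduction. -/
theorem MW_nonsing (W : WeierstrassCurve ℤ) {p : ℕ} (hp : p.Prime) (hp2 : p ≠ 2)
    (hgood : W.IsGoodPrimeFor p) (A : ValuationSubring Qb) (hA : A.LiesOverPrime p)
    (P : ((EQ W)⁄Qb).Point) (hP : P ≠ 0) (hX : (MW W).X P ∈ A) :
    ¬ ((MW W).Y P ∈ A.nonunits ∧
      3 * (MW W).X P ^ 2 + 2 * (((EQ W)⁄Qb).b₂ / 4) * (MW W).X P + ((EQ W)⁄Qb).b₄ / 2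
        ∈ A.nonunits) := by
  rcases P with _ | ⟨x, y, h⟩
  · exact absurd rfl hP
  rw [MW_X_some] at hX ⊢
  rw [MW_Y_some]
  rintro ⟨h1, h2⟩
  rw [ValuationSubring.mem_nonunits_iff] at h1 h2
  obtain ⟨c1, -, -, -, -⟩ := integralCoeffs A W
  have hv2 := val_two hp hp2 hA
  rcases goodRed_of_good W hp hgood A hA h.1 hX with h3 | h3
  · have e : ((EQ W)⁄Qb).a₁ * y - (3 * x ^ 2 + 2 * ((EQ W)⁄Qb).a₂ * x + ((EQ W)⁄Qb).a₄)
        = ((EQ W)⁄Qb).a₁ * (y + (((EQ W)⁄Qb).a₁ * x + ((EQ W)⁄Qb).a₃) / 2)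
          - (3 * x ^ 2 + 2 * (((EQ W)⁄Qb).b₂ / 4) * x + ((EQ W)⁄Qb).b₄ / 2) := by
      simp only [WeierstrassCurve.b₂, WeierstrassCurve.b₄]
      ring
    rw [e] at h3
    have : A.valuation (((EQ W)⁄Qb).a₁ * (y + (((EQ W)⁄Qb).a₁ * x + ((EQ W)⁄Qb).a₃) / 2)
          - (3 * x ^ 2 + 2 * (((EQ W)⁄Qb).b₂ / 4) * x + ((EQ W)⁄Qb).b₄ / 2)) < 1 := by
      refine Valuation.map_sub_lt _ ?_ h2
      rw [map_mul]
      exact lt_of_le_of_lt (mul_le_of_le_one_left' c1) h1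
    rw [h3] at this
    exact lt_irrefl _ this
  · have e : 2 * y + ((EQ W)⁄Qb).a₁ * x + ((EQ W)⁄Qb).a₃
        = 2 * (y + (((EQ W)⁄Qb).a₁ * x + ((EQ W)⁄Qb).a₃) / 2) := by ring
    rw [e, map_mul, hv2, one_mul] at h3
    rw [h3] at h1
    exact lt_irrefl _ h1

end Fermat.Agent.MR.E
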