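import Fermat.Agent.S13.ModP
import Fermat.Prelude.Def_FLTPrelim_Modularity

/-!
# MR / E : the division polynomial `hpoly W m` is nonzero mod a prime of good reduction
-/

set_option autoImplicit false

open Polynomial WeierstrassCurve

namespace Fermat.Agent.MR.E

/-- PROOF.  `F := AlgebraicClosure (ZMod p)`, `φ := Int.castRingHom F`, `W' := W.map φ`,
`W'.Δ = φ W.Δ ≠ 0` (`p ∤ W.Δ`; `(ZMod.intCast_zmod_eq_zero_iff_dvd`/`CharP.intCast_eq_zero_iff F p`).
Take a root `x` of `4 X³ + b₂ X² + 2 b₄ X + b₆` (degree 3 as `4 ≠ 0` in `F`), `y := -(a₁ x + a₃)/2`.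
Then `W'.Equation x y` (`4 * (equation) = (2y + a₁x + a₃)² - (4x³ + b₂x² + 2b₄x + b₆)`), so
`W'.Nonsingular x y` (`equation_iff_nonsingular_of_Δ_ne_zero`), and `y = W'.negY x y`.
`S13.modP_hpoly_ne_zero W' h hy m hm : hpoly W' m ≠ 0`; `S13.hpoly_map W φ m`;
`φ = (algebraMap (ZMod p) F).comp (Int.castRingHom (ZMod p))` and `Polynomial.map_map`. -/
theorem hpoly_mod_ne_zero (W : WeierstrassCurve ℤ) {p : ℕ} (hp : p.Prime) (hp2 : p ≠ 2)
    (hgood : W.IsGoodPrimeFor p) (m : ℕ) (hm : 1 ≤ m) :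
    (S13.hpoly W m).map (Int.castRingHom (ZMod p)) ≠ 0 := by
  classical
  have : Fact p.Prime := ⟨hp⟩
  let F := AlgebraicClosure (ZMod p)
  have : CharP F p := charP_of_injective_algebraMap (algebraMap (ZMod p) F).injective p
  let φ : ℤ →+* F := Int.castRingHom F
  have h2F : (2 : F) ≠ 0 := by
    intro h
    have h' : ((2 : ℕ) : F) = 0 := by exact_mod_cast h
    rw [CharP.cast_eq_zero_iff F p] at h'
    exact hp2 ((Nat.prime_dvd_prime_iff_eq hp Nat.prime_two).1 h')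
  have h4F : (4 : F) ≠ 0 := by
    have : (4 : F) = 2 * 2 := by norm_num
    rw [this]; exact mul_ne_zero h2F h2F
  have hΔ : (W.map φ).Δ ≠ 0 := by
    rw [WeierstrassCurve.map_Δ]
    intro h
    apply hgood
    exact (CharP.intCast_eq_zero_iff F p _).1 h
  set W' := W.map φ with hW'
  -- a root of the 2-division polynomial
  let q : F[X] := C 4 * X ^ 3 + C W'.b₂ * X ^ 2 + C (2 * W'.b₄) * X + C W'.b₆
  have hq : q.degree = 3 := by
    exact degree_cubic h4F
  obtain ⟨x, hx⟩ := IsAlgClosed.exists_root q (by rw [hq]; norm_num)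
  have hx' : 4 * x ^ 3 + W'.b₂ * x ^ 2 + 2 * W'.b₄ * x + W'.b₆ = 0 := by
    have := hx
    simp only [q, IsRoot.def, eval_add, eval_mul, eval_C, eval_pow, eval_X] at this
    exact this
  obtain ⟨y, hy2⟩ : ∃ y : F, 2 * y = -(W'.a₁ * x + W'.a₃) :=
    ⟨-(W'.a₁ * x + W'.a₃) / 2, mul_div_cancel₀ _ h2F⟩
  have heq : W'.toAffine.Equation x y := by
    rw [WeierstrassCurve.Affine.equation_iff]
    have h4 : (4 : F) * (y ^ 2 + W'.a₁ * x * y + W'.a₃ * y
        - (x ^ 3 + W'.a₂ * x ^ 2 + W'.a₄ * x + W'.a₆)) = 0 := by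
      simp only [WeierstrassCurve.b₂, WeierstrassCurve.b₄, WeierstrassCurve.b₆] at hx'
      linear_combination (2 * y + (W'.a₁ * x + W'.a₃)) * hy2 - hx'
    have := (mul_eq_zero.1 h4).resolve_left h4F
    exact sub_eq_zero.1 this
  have hns : W'.toAffine.Nonsingular x y :=
    (WeierstrassCurve.Affine.equation_iff_nonsingular_of_Δ_ne_zero hΔ).1 heq
  have hy : y = W'.toAffine.negY x y := by
    simp only [WeierstrassCurve.Affine.negY]
    linear_combination hy2
  have hne : S13.hpoly W' m ≠ 0 := S13.modP_hpoly_ne_zero W' hns hy m hm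
  rw [hW', S13.hpoly_map] at hne
  intro h0
  apply hne
  have hφ : φ = (algebraMap (ZMod p) F).comp (Int.castRingHom (ZMod p)) :=
    RingHom.ext_int _ _
  rw [hφ, ← Polynomial.map_map, h0, Polynomial.map_zero]

end Fermat.Agent.MR.E
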