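import Mathlib
import Fermat.Agent.S05.Red

/-!
# MR / E-ISO : translation by a point `c` of the kernel of reduction moves an integral point with
nonsingular reduction by exactly `|z(c)|`
-/

set_option autoImplicit false

open Fermat.Agent.S05

namespace Fermat.Agent.MR.E

variable {K : Type*} [Field K] {Γ₀ : Type*} [LinearOrderedCommGroupWithZero Γ₀]
  {G : Type*} [AddCommGroup G] {a₂ a₄ a₆ : K}

theorem Iso_v_sq_eq_cube (v : Valuation K Γ₀) (h₂ : v a₂ ≤ 1) (h₄ : v a₄ ≤ 1) (h₆ : v a₆ ≤ 1)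
    {x y : K} (e : y ^ 2 = x ^ 3 + a₂ * x ^ 2 + a₄ * x + a₆) (hX : 1 < v x) :
    v y ^ 2 = v x ^ 3 := by
  have p : 0 < v x := lt_trans zero_lt_one hX
  have hx2 : v x < v x ^ 2 := lt_sq_of_one_lt hX
  have hx3 : v x ^ 2 < v x ^ 3 := by
    calc v x ^ 2 = v x ^ 2 * 1 := (mul_one _).symm
      _ < v x ^ 2 * v x := (mul_lt_mul_iff_right₀ (pow_pos p 2)).mpr hX
      _ = v x ^ 3 := (pow_succ (v x) 2).symm
  have e' : y ^ 2 = x ^ 3 + (a₂ * x ^ 2 + a₄ * x + a₆) := by rw [e]; ring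
  rw [← v.map_pow, e', ← v.map_pow]
  apply v.map_add_eq_of_lt_left
  rw [v.map_pow]
  refine v.map_add_lt (v.map_add_lt ?_ ?_) ?_
  · rw [v.map_mul, v.map_pow]
    exact lt_of_le_of_lt (mul_le_of_le_one_left' h₂) hx3
  · rw [v.map_mul]
    exact lt_of_le_of_lt (mul_le_of_le_one_left' h₄) (lt_trans hx2 hx3)
  · exact lt_of_le_of_lt h₆ (lt_trans hX (lt_trans hx2 hx3))

theorem Iso_v_le_one (v : Valuation K Γ₀) (h₂ : v a₂ ≤ 1) (h₄ : v a₄ ≤ 1) (h₆ : v a₆ ≤ 1)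
    {x y : K} (e : y ^ 2 = x ^ 3 + a₂ * x ^ 2 + a₄ * x + a₆) (hX : v x ≤ 1) : v y ≤ 1 := by
  apply v_le_one_of_sq
  rw [e]
  refine v.map_add_le (v.map_add_le (v.map_add_le ?_ ?_) ?_) h₆
  · rw [v.map_pow]; exact pow_le_one' hX 3
  · rw [v.map_mul, v.map_pow]; exact mul_le_one' h₂ (pow_le_one' hX 2)
  · rw [v.map_mul]; exact mul_le_one' h₄ hX

/-- `P = (x₁,y₁)` integral with nonsingular reduction, `c = (x₃,y₃)` in the kernel of reduction,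
`-(P + c) = (x₂,y₂)`: translation by `c` moves `P` by exactly `|z(c)|`. -/
theorem tri_iso {x₁ y₁ x₂ y₂ x₃ y₃ : K} (v : Valuation K Γ₀) (h₂ : v a₂ ≤ 1) (h₄ : v a₄ ≤ 1)
    (h₆ : v a₆ ≤ 1) (hv2 : v (2 : K) = 1) (T : Tri a₂ a₄ a₆ x₁ y₁ x₂ y₂ x₃ y₃)
    (h1 : v x₁ ≤ 1) (h2 : v x₂ ≤ 1) (h3 : 1 < v x₃)
    (hns : ¬ (v y₁ < 1 ∧ v (3 * x₁ ^ 2 + 2 * a₂ * x₁ + a₄) < 1)) :
    v (x₃ / y₃) ≤ max (v (x₂ - x₁)) (v (-y₂ - y₁)) := by
  have hE3 := T.eqn₃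
  have hE1 := T.rot.eqn₃
  obtain ⟨l, k, e1, e2, e3, s1, s2, s3⟩ := T
  have hl2 : v l ^ 2 = v x₃ := by
    have : l ^ 2 = x₃ + (x₁ + x₂ + a₂) := by linear_combination -s1
    rw [← v.map_pow, this]
    exact v.map_add_eq_of_lt_left (lt_of_le_of_lt (v.map_add_le (v.map_add_le h1 h2) h₂) h3)
  have hl1 : 1 < v l := by
    by_contra h
    rw [not_lt] at h
    have : v l ^ 2 ≤ 1 := pow_le_one' h 2
    rw [hl2] at this
    exact absurd h3 (not_lt.2 this)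
  have hl0 : 0 < v l := lt_trans zero_lt_one hl1
  have hy3 : v y₃ = v l ^ 3 := by
    have h : v y₃ ^ 2 = (v l ^ 3) ^ 2 := by
      rw [Iso_v_sq_eq_cube v h₂ h₄ h₆ hE3 h3, ← hl2, ← pow_mul, ← pow_mul]
    exact (pow_left_inj₀ zero_le zero_le two_ne_zero).1 h
  have hz : v (x₃ / y₃) = (v l)⁻¹ := by
    rw [map_div₀, hy3, ← hl2, pow_succ (v l) 2, div_mul_eq_div_div,
      div_self (pow_ne_zero 2 hl0.ne'), one_div]
  rw [hz]
  by_cases hd : (v l)⁻¹ ≤ v (x₂ - x₁)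
  · exact le_max_of_le_left hd
  rw [not_le, v.map_sub_swap] at hd
  apply le_max_of_le_right
  have hinv1 : (v l)⁻¹ < 1 := inv_lt_one_of_one_lt₀ hl1
  have hfp : 3 * x₁ ^ 2 + 2 * a₂ * x₁ + a₄ = (x₁ - x₂) * (x₁ - x₃) + 2 * l * y₁ := by
    rw [e1]
    linear_combination (-1) * s2 + 2 * x₁ * s1
  have hvfp : v (3 * x₁ ^ 2 + 2 * a₂ * x₁ + a₄) ≤ 1 := by
    refine v.map_add_le (v.map_add_le ?_ ?_) h₄
    · rw [v.map_mul, v.map_pow]; exact mul_le_one' (v_three_le v) (pow_le_one' h1 2)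
    · rw [v.map_mul, v.map_mul]; exact mul_le_one' (mul_le_one' (v_two_le v) h₂) h1
  have hx13 : v (x₁ - x₃) = v l ^ 2 := by
    rw [hl2]
    exact v.map_sub_eq_of_lt_right (lt_of_le_of_lt h1 h3)
  have h4 : v ((x₁ - x₂) * (x₁ - x₃)) < v l := by
    rw [v.map_mul, hx13]
    calc v (x₁ - x₂) * v l ^ 2 < (v l)⁻¹ * v l ^ 2 :=
          (mul_lt_mul_iff_left₀ (pow_pos hl0 2)).2 hd
      _ = v l := by rw [pow_two, ← mul_assoc, inv_mul_cancel₀ hl0.ne', one_mul]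
  have hy1 : v y₁ ≤ 1 := Iso_v_le_one v h₂ h₄ h₆ hE1 h1
  have hy1' : v y₁ < 1 := by
    by_contra h
    have hy : v y₁ = 1 := le_antisymm hy1 (not_lt.1 h)
    have h5 : v (2 * l * y₁) = v l := by rw [v.map_mul, v.map_mul, hv2, hy, one_mul, mul_one]
    have h6 : 2 * l * y₁ = (3 * x₁ ^ 2 + 2 * a₂ * x₁ + a₄) - (x₁ - x₂) * (x₁ - x₃) := by
      rw [hfp]; ring
    have h7 : v (2 * l * y₁) < v l := by
      rw [h6]
      exact v.map_sub_lt (lt_of_le_of_lt hvfp hl1) h4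
    rw [h5] at h7
    exact lt_irrefl _ h7
  have hfp1 : v (3 * x₁ ^ 2 + 2 * a₂ * x₁ + a₄) = 1 :=
    le_antisymm hvfp (not_lt.1 fun h => hns ⟨hy1', h⟩)
  have hid : l * (y₁ + y₂) = (3 * x₁ ^ 2 + 2 * a₂ * x₁ + a₄) - (x₁ - x₂) * (2 * x₁ + x₂ + a₂) := by
    rw [e1, e2]
    linear_combination (-(x₁ + x₂)) * s1 + s2
  have h8 : v ((x₁ - x₂) * (2 * x₁ + x₂ + a₂)) < 1 := by
    rw [v.map_mul]
    refine lt_of_le_of_lt (mul_le_of_le_one_right' ?_) (lt_trans hd hinv1)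
    refine v.map_add_le (v.map_add_le ?_ h2) h₂
    rw [v.map_mul]
    exact mul_le_one' (v_two_le v) h1
  have h9 : v (l * (y₁ + y₂)) = 1 := by
    rw [hid, ← hfp1]
    exact v.map_sub_eq_of_lt_left (by rw [hfp1]; exact h8)
  rw [v.map_mul] at h9
  have h10 : v (-y₂ - y₁) = v (y₁ + y₂) := by
    rw [← v.map_neg]
    congr 1
    ring
  rw [h10, ← eq_inv_of_mul_eq_one_right h9]

theorem Model.iso (v : Valuation K Γ₀) (M : Model G a₂ a₄ a₆) (h₂ : v a₂ ≤ 1) (h₄ : v a₄ ≤ 1)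
    (h₆ : v a₆ ≤ 1) (hv2 : v (2 : K) = 1) {P c : G} (hP : P ≠ 0) (hX : v (M.X P) ≤ 1)
    (hc : c ≠ 0) (hXc : 1 < v (M.X c))
    (hns : ¬ (v (M.Y P) < 1 ∧ v (3 * M.X P ^ 2 + 2 * a₂ * M.X P + a₄) < 1)) :
    P + c ≠ 0 ∧ v (M.X (P + c)) ≤ 1 ∧
      v (M.zPar c) ≤ max (v (M.X (P + c) - M.X P)) (v (M.Y (P + c) - M.Y P)) := by
  have hPc : P + c ≠ 0 := by
    intro h
    have : P = -c := eq_neg_of_add_eq_zero_left h
    rw [this, M.X_neg] at hX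
    exact absurd hXc (not_lt.2 hX)
  have hXPc : v (M.X (P + c)) ≤ 1 := by
    by_contra h
    rw [not_le] at h
    have T := M.tri (P + c) (-c) (-P) hPc (neg_ne_zero.2 hc) (neg_ne_zero.2 hP) (by abel)
    have := tri_E1_closed v h₂ h₄ h₆ T h (by rw [M.X_neg]; exact hXc)
    rw [M.X_neg] at this
    exact absurd this (not_lt.2 hX)
  refine ⟨hPc, hXPc, ?_⟩
  have T := M.tri P (-(P + c)) c hP (neg_ne_zero.2 hPc) hc (by abel)
  rw [M.X_neg, M.Y_neg] at T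
  have := tri_iso v h₂ h₄ h₆ hv2 T hX hXPc hXc hns
  rw [neg_neg] at this
  rw [M.zPar_of_ne hc]
  exact this

end Fermat.Agent.MR.E
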