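import Mathlib

/-!
# MR / E-RES : Lagrange resolvents

If `σ` fixes all `p`-th roots of the `H`-rational units, then `σ` cannot move an integral element
`w 0` of a "`ℤ/p`-torsor" `w : ZMod p → L` by a distance `≥ |ζ - 1|`.
-/

set_option autoImplicit false

namespace Fermat.Agent.MR.E

section aux

variable {L : Type*} [Field L] {Γ₀ : Type*} [LinearOrderedCommGroupWithZero Γ₀]

theorem Resolvent_pow_sub_one_le (v : Valuation L Γ₀) {x : L} (hx : v x ≤ 1) (m : ℕ) :
    v (x ^ m - 1) ≤ v (x - 1) := by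
  rw [← geom_sum_mul, v.map_mul]
  refine mul_le_of_le_one_left' ?_
  refine v.map_sum_le fun i _ => ?_
  rw [v.map_pow]
  exact pow_le_one' hx i

theorem Resolvent_v_eq_one_of_pow (v : Valuation L Γ₀) {x : L} {n : ℕ} (hn : n ≠ 0)
    (hx : x ^ n = 1) : v x = 1 := by
  have h : v x ^ n = 1 := by rw [← v.map_pow, hx, v.map_one]
  exact (pow_eq_one_iff_of_nonneg zero_le hn).1 h

end aux

/-- **Lagrange resolvents.** -/
theorem resolvent {K L : Type*} [Field K] [Field L] [Algebra K L] {Γ₀ : Type*}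
    [LinearOrderedCommGroupWithZero Γ₀] (v : Valuation L Γ₀) {p : ℕ} [Fact p.Prime]
    {ζ : L} (hζ : IsPrimitiveRoot ζ p) (H : Subgroup (L ≃ₐ[K] L)) (hHζ : ∀ τ ∈ H, τ ζ = ζ)
    (w : ZMod p → L) (hw : ∀ b, v (w b) ≤ 1) (a : (L ≃ₐ[K] L) → ZMod p)
    (ha : ∀ τ ∈ H, ∀ b, τ (w b) = w (b + a τ)) {σ : L ≃ₐ[K] L} (hσ : σ ∈ H)
    (hfix : ∀ y : L, v y = 1 → (∀ τ ∈ H, τ (y ^ p) = y ^ p) → σ y = y)
    (hbig : v (ζ - 1) ≤ v (w (a σ) - w 0)) : a σ = 0 := by
  classical
  have hp : p.Prime := Fact.out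
  have hpL : (p : L) ≠ 0 := (hζ.neZero' (R := L)).out
  set ψ : AddChar (ZMod p) L := AddChar.zmodChar p hζ.pow_eq_one with hψdef
  have hprim : ψ.IsPrimitive := AddChar.zmodChar_primitive_of_primitive_root p hζ
  have hψ1 : ∀ k, ψ k = 1 ↔ k = 0 := fun k => hprim.zmod_char_eq_one_iff p k
  have hψζ : ∀ k : ZMod p, ψ k = ζ ^ k.val := fun k => AddChar.zmodChar_apply _ k
  have hψp : ∀ k : ZMod p, ψ k ^ p = 1 := by
    intro k
    rw [hψζ, ← pow_mul, mul_comm, pow_mul, hζ.pow_eq_one, one_pow]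
  have hvψ : ∀ k, v (ψ k) = 1 := fun k => Resolvent_v_eq_one_of_pow v hp.ne_zero (hψp k)
  have hτψ : ∀ τ ∈ H, ∀ k, τ (ψ k) = ψ k := by
    intro τ hτ k
    rw [hψζ, map_pow, hHζ τ hτ]
  have hζ1 : ζ = ψ 1 := by
    rw [hψζ, ZMod.val_one, pow_one]
  have hvψ1 : ∀ k, k ≠ 0 → v (ψ k - 1) = v (ζ - 1) := by
    intro k hk
    apply le_antisymm
    · rw [hψζ]
      exact Resolvent_pow_sub_one_le v (by rw [hζ1, hvψ]) _
    · have h1 : ζ = ψ k ^ (k⁻¹).val := by
        rw [← AddChar.map_nsmul_eq_pow, nsmul_eq_mul, ZMod.natCast_zmod_val, inv_mul_cancel₀ hk,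
          ← hζ1]
      conv_lhs => rw [h1]
      exact Resolvent_pow_sub_one_le v (hvψ k).le _
  have hζne : v (ζ - 1) ≠ 0 := by
    rw [Valuation.ne_zero_iff, sub_ne_zero]
    exact hζ.ne_one hp.one_lt
  -- the resolvents
  set R : ZMod p → L := fun j => ∑ b, ψ (-(j * b)) * w b with hR
  have F1 : ∀ τ ∈ H, ∀ j, τ (R j) = ψ (j * a τ) * R j := by
    intro τ hτ j
    have e1 : R j = ∑ b, ψ (-(j * (b + a τ))) * w (b + a τ) :=
      (Equiv.sum_comp (Equiv.addRight (a τ)) fun b => ψ (-(j * b)) * w b).symm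
    have e0 : τ (R j) = ∑ b, ψ (-(j * b)) * w (b + a τ) := by
      simp only [hR, map_sum, map_mul]
      refine Finset.sum_congr rfl fun b _ => ?_
      rw [hτψ τ hτ, ha τ hτ]
    rw [e0, e1, Finset.mul_sum]
    refine Finset.sum_congr rfl fun b _ => ?_
    rw [← mul_assoc, ← AddChar.map_add_eq_mul]
    congr 2
    ring
  have F2 : ∀ b, (p : L) * w b = ∑ j, ψ (j * b) * R j := by
    intro b
    simp only [hR, Finset.mul_sum]
    rw [Finset.sum_comm]
    have e1 : ∀ c : ZMod p, ∑ j, ψ (j * b) * (ψ (-(j * c)) * w c)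
        = ((if b - c = 0 then Fintype.card (ZMod p) else 0 : ℕ) : L) * w c := by
      intro c
      rw [← AddChar.sum_mulShift (b - c) hprim, Finset.sum_mul]
      refine Finset.sum_congr rfl fun j _ => ?_
      rw [← mul_assoc, ← AddChar.map_add_eq_mul]
      congr 2
      ring
    simp only [e1, sub_eq_zero, ZMod.card, Nat.cast_ite, Nat.cast_zero, ite_mul, zero_mul]
    rw [Finset.sum_ite_eq]
    simp
  by_contra hne
  -- (S1)
  have S1 : ∀ (y : L) (c : ZMod p), c ≠ 0 → (∀ τ ∈ H, τ y = ψ (c * a τ) * y) → v y ≠ 1 := by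
    intro y c hc hy hv
    have hy0 : y ≠ 0 := by
      intro h
      rw [h, v.map_zero] at hv
      exact zero_ne_one hv
    have h1 : σ y = y := hfix y hv fun τ hτ => by
      rw [map_pow, hy τ hτ, mul_pow, hψp, one_mul]
    rw [hy σ hσ] at h1
    have h2 : ψ (c * a σ) = 1 := mul_right_cancel₀ hy0 (by rw [h1, one_mul])
    rcases mul_eq_zero.1 ((hψ1 _).1 h2) with h | h
    · exact hc h
    · exact hne h
  -- (S2)
  have S2 : ∀ i j, i ≠ j → R i ≠ 0 → v (R i) ≠ v (R j) := by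
    intro i j hij hi hv
    have hj : R j ≠ 0 := by
      intro h
      rw [h, v.map_zero, Valuation.zero_iff] at hv
      exact hi hv
    refine S1 (R j / R i) (j - i) (sub_ne_zero.2 (Ne.symm hij)) ?_ ?_
    · intro τ hτ
      rw [map_div₀, F1 τ hτ, F1 τ hτ, sub_mul, sub_eq_add_neg, AddChar.map_add_eq_mul,
        AddChar.map_neg_eq_inv]
      have : ψ (i * a τ) ≠ 0 := by
        intro h
        have := hvψ (i * a τ)
        rw [h, v.map_zero] at this
        exact zero_ne_one this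
      field_simp
    · rw [map_div₀, hv, div_self]
      rw [Valuation.ne_zero_iff]
      exact hj
  have S2' : ∀ j, j ≠ 0 → v (R j) ≠ v (p : L) := by
    intro j hj hv
    refine S1 (R j / p) j hj ?_ ?_
    · intro τ hτ
      rw [map_div₀, F1 τ hτ, map_natCast, mul_div_assoc]
    · rw [map_div₀, hv, div_self]
      rw [Valuation.ne_zero_iff]
      exact hpL
  -- (S3)
  have S3 : ∀ j, v (R j) ≤ v (p : L) := by
    obtain ⟨j₀, -, hj₀⟩ := Finset.exists_max_image Finset.univ (fun j => v (R j))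
      ⟨0, Finset.mem_univ _⟩
    have hmax : v (R j₀) ≤ v (p : L) := by
      by_contra hlt
      rw [not_le] at hlt
      have hj₀0 : R j₀ ≠ 0 := by
        intro h
        rw [h, v.map_zero] at hlt
        exact not_lt_zero hlt
      have hsum : ∑ j, R j = (p : L) * w 0 := by
        rw [F2 0]
        refine Finset.sum_congr rfl fun j _ => ?_
        rw [mul_zero, AddChar.map_zero_eq_one, one_mul]
      have hrest : v (∑ j ∈ Finset.univ.erase j₀, R j) < v (R j₀) := by
        refine v.map_sum_lt ((Valuation.ne_zero_iff v).2 hj₀0) fun j hj => ?_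
        exact lt_of_le_of_ne (hj₀ j (Finset.mem_univ _))
          (fun h => S2 j₀ j (Finset.ne_of_mem_erase hj).symm hj₀0 h.symm)
      have h1 : v (∑ j, R j) = v (R j₀) := by
        rw [← Finset.add_sum_erase _ _ (Finset.mem_univ j₀)]
        exact v.map_add_eq_of_lt_left hrest
      rw [hsum, v.map_mul] at h1
      have h2 : v (R j₀) ≤ v (p : L) := by
        rw [← h1]
        exact mul_le_of_le_one_right' (hw 0)
      exact absurd hlt (not_lt.2 h2)
    exact fun j => (hj₀ j (Finset.mem_univ _)).trans hmax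
  -- (S4)
  have hdiff : (p : L) * (w (a σ) - w 0) = ∑ j, (ψ (j * a σ) - 1) * R j := by
    rw [mul_sub, F2, F2, ← Finset.sum_sub_distrib]
    refine Finset.sum_congr rfl fun j _ => ?_
    rw [mul_zero, AddChar.map_zero_eq_one]
    ring
  have hlt : v ((p : L) * (w (a σ) - w 0)) < v (ζ - 1) * v (p : L) := by
    rw [hdiff]
    refine v.map_sum_lt (mul_ne_zero hζne ((Valuation.ne_zero_iff v).2 hpL)) fun j _ => ?_
    by_cases hj : j = 0
    · rw [hj, zero_mul, AddChar.map_zero_eq_one, sub_self, zero_mul, v.map_zero]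
      exact zero_lt_iff.2 (mul_ne_zero hζne ((Valuation.ne_zero_iff v).2 hpL))
    · rw [v.map_mul, hvψ1 _ (mul_ne_zero hj hne)]
      exact (mul_lt_mul_iff_right₀ (zero_lt_iff.2 hζne)).2 (lt_of_le_of_ne (S3 j) (S2' j hj))
  rw [v.map_mul, mul_comm] at hlt
  have := (mul_lt_mul_iff_left₀ (zero_lt_iff.2 ((Valuation.ne_zero_iff v).2 hpL))).1 hlt
  exact absurd hbig (not_le.2 this)

end Fermat.Agent.MR.E
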