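import Fermat.Agent.MR.E.Defs
import Fermat.Agent.MR.E.Iso
import Fermat.Agent.MR.E.Resolvent

/-!
# MR / E-PEU : peu ramifiée at the level of `S05.Model`
-/

set_option autoImplicit false

open WeierstrassCurve WeierstrassCurve.Affine WeierstrassCurve.Affine.Point
open Fermat.Agent.S05

namespace Fermat.Agent.MR.E

local notation "Qb" => AlgebraicClosure ℚ
local notation "GQ" => (AlgebraicClosure ℚ ≃ₐ[ℚ] AlgebraicClosure ℚ)

section aux
variable {K : Type*} [Field K] {Γ₀ : Type*} [LinearOrderedCommGroupWithZero Γ₀]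
  {G : Type*} [AddCommGroup G] {a₂ a₄ a₆ : K}

/-- `z(kP) ≡ k z(P)` modulo higher order, for `P` in the kernel of reduction
(the induction inside `S05.Model.no_torsion_E1`). -/
theorem Peu_zPar_nsmul (v : Valuation K Γ₀) (M : Model G a₂ a₄ a₆) (h₂ : v a₂ ≤ 1) (h₄ : v a₄ ≤ 1)
    (h₆ : v a₆ ≤ 1) {P : G} (hP0 : P ≠ 0) (hX : 1 < v (M.X P)) (k : ℕ) :
    (k • P = 0 ∨ 1 < v (M.X (k • P))) ∧ v (M.zPar (k • P) - k * M.zPar P) < v (M.zPar P) := by
  obtain ⟨ht0, ht1⟩ := M.v_zPar_lt_one v h₂ h₄ h₆ hP0 hX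
  set t := M.zPar P with ht
  induction k with
  | zero => simp [Model.zPar_zero, ht0]
  | succ k ih =>
    obtain ⟨ih1, ih2⟩ := ih
    have hsucc : (k + 1) • P = k • P + P := succ_nsmul P k
    by_cases hQ : k • P = 0
    · have hR : (k + 1) • P = P := by rw [hsucc, hQ, zero_add]
      rw [hR]
      refine ⟨Or.inr hX, ?_⟩
      rw [hQ, Model.zPar_zero] at ih2
      have : M.zPar P - ((k + 1 : ℕ) : K) * t = 0 - k * t := by
        rw [← ht]; push_cast; ring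
      rw [this]; exact ih2
    · by_cases hR : (k + 1) • P = 0
      · refine ⟨Or.inl hR, ?_⟩
        have hQP : k • P = -P := by
          rw [hsucc] at hR
          exact eq_neg_of_add_eq_zero_left hR
        rw [hQP, Model.zPar_neg, ← ht] at ih2
        rw [hR, Model.zPar_zero]
        have : (0 : K) - ((k + 1 : ℕ) : K) * t = -t - k * t := by push_cast; ring
        rw [this]; exact ih2
      · have hXQ : 1 < v (M.X (k • P)) := ih1.resolve_left hQ
        have hsum : k • P + P + -((k + 1) • P) = 0 := by rw [hsucc]; abel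
        have T := M.tri (k • P) P (-((k + 1) • P)) hQ hP0 (neg_ne_zero.mpr hR) hsum
        have hXR' : 1 < v (M.X (-((k + 1) • P))) := tri_E1_closed v h₂ h₄ h₆ T hXQ hX
        have hXR : 1 < v (M.X ((k + 1) • P)) := by rwa [M.X_neg] at hXR'
        refine ⟨Or.inr hXR, ?_⟩
        have hz := tri_z_add v h₂ h₄ h₆ T hXQ hX hXR'
        rw [← M.zPar_of_ne hQ, ← M.zPar_of_ne hP0, ← M.zPar_of_ne (neg_ne_zero.mpr hR),
          Model.zPar_neg, ← ht, v.map_neg] at hz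
        obtain ⟨-, hzQ⟩ := M.v_zPar_lt_one v h₂ h₄ h₆ hQ hXQ
        obtain ⟨-, hzR⟩ := M.v_zPar_lt_one v h₂ h₄ h₆ hR hXR
        have hlt : v (M.zPar (k • P) + t + -M.zPar ((k + 1) • P)) < v t := by
          refine lt_of_le_of_lt hz ?_
          calc v (M.zPar (k • P)) * v t * v (M.zPar ((k + 1) • P))
              ≤ 1 * v t * v (M.zPar ((k + 1) • P)) := by gcongr
            _ = v t * v (M.zPar ((k + 1) • P)) := by rw [one_mul]
            _ < v t * 1 := (mul_lt_mul_iff_right₀ ht0).mpr hzR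
            _ = v t := mul_one _
        have : M.zPar ((k + 1) • P) - ((k + 1 : ℕ) : K) * t
            = (M.zPar (k • P) - k * t) - (M.zPar (k • P) + t + -M.zPar ((k + 1) • P)) := by
          push_cast; ring
        rw [this]
        exact v.map_sub_lt ih2 hlt

/-- if `k` is a `v`-unit, `kP ≠ 0` lies in the kernel of reduction and `v z(kP) = v z(P)`. -/
theorem Peu_zPar_nsmul_unit (v : Valuation K Γ₀) (M : Model G a₂ a₄ a₆) (h₂ : v a₂ ≤ 1)
    (h₄ : v a₄ ≤ 1) (h₆ : v a₆ ≤ 1) {P : G} (hP : P ≠ 0) (hX : 1 < v (M.X P)) {k : ℕ}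
    (hk : v (k : K) = 1) :
    k • P ≠ 0 ∧ 1 < v (M.X (k • P)) ∧ v (M.zPar (k • P)) = v (M.zPar P) := by
  obtain ⟨h1, h2⟩ := Peu_zPar_nsmul v M h₂ h₄ h₆ hP hX k
  have hkz : v ((k : K) * M.zPar P) = v (M.zPar P) := by rw [map_mul, hk, one_mul]
  have hz : v (M.zPar (k • P)) = v (M.zPar P) := by
    have e : M.zPar (k • P) = (M.zPar (k • P) - k * M.zPar P) + k * M.zPar P := by ring
    rw [e, v.map_add_eq_of_lt_right (by rw [hkz]; exact h2), hkz]
  have hne : k • P ≠ 0 := by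
    intro h0
    rw [h0, Model.zPar_zero, _root_.map_zero] at hz
    exact (M.v_zPar_lt_one v h₂ h₄ h₆ hP hX).1.ne hz
  exact ⟨hne, h1.resolve_left hne, hz⟩

end aux

/-- an integer prime to the residue characteristic is a unit. -/
theorem Peu_val_natCast {A : ValuationSubring Qb} {p : ℕ} (hp : p.Prime) (hA : A.LiesOverPrime p)
    {k : ℕ} (hk : ¬ p ∣ k) : A.valuation (k : Qb) = 1 := by
  have hint : ∀ z : ℤ, A.valuation (z : Qb) ≤ 1 := fun z =>
    (A.valuation_le_one_iff _).mpr (intCast_mem A z)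
  have hle : A.valuation (k : Qb) ≤ 1 := (A.valuation_le_one_iff _).mpr (natCast_mem A k)
  refine le_antisymm hle (not_lt.1 fun hlt => ?_)
  have hco : Nat.Coprime k p := ((Nat.Prime.coprime_iff_not_dvd hp).mpr hk).symm
  have h1 : (1 : Qb) = (k : Qb) * ((Nat.gcdA k p : ℤ) : Qb) +
      (p : Qb) * ((Nat.gcdB k p : ℤ) : Qb) := by
    have h2 := Nat.gcd_eq_gcd_ab k p
    rw [hco] at h2
    exact_mod_cast h2
  have hvp : A.valuation (p : Qb) < 1 := A.mem_nonunits_iff.mp hA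
  have h3 : A.valuation ((k : Qb) * ((Nat.gcdA k p : ℤ) : Qb)) < 1 := by
    rw [map_mul]
    exact (mul_le_of_le_one_right' (hint _)).trans_lt hlt
  have h4 : A.valuation ((p : Qb) * ((Nat.gcdB k p : ℤ) : Qb)) < 1 := by
    rw [map_mul]
    exact (mul_le_of_le_one_right' (hint _)).trans_lt hvp
  have h5 := Valuation.map_add_lt _ h3 h4
  rw [← h1, map_one] at h5
  exact lt_irrefl _ h5

theorem peu_of_model {G : Type*} [AddCommGroup G] [DistribMulAction GQ G] {a₂ a₄ a₆ : Qb}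
    (M : Model G a₂ a₄ a₆)
    (hMX : ∀ (σ : GQ) (P : G), P ≠ 0 → M.X (σ • P) = σ (M.X P))
    (hMY : ∀ (σ : GQ) (P : G), P ≠ 0 → M.Y (σ • P) = σ (M.Y P))
    (A : ValuationSubring Qb) (h₂ : a₂ ∈ A) (h₄ : a₄ ∈ A) (h₆ : a₆ ∈ A)
    {p : ℕ} (hp : p.Prime) (hp2 : p ≠ 2) (hA : A.LiesOverPrime p)
    (hns : ∀ P : G, P ≠ 0 → M.X P ∈ A →
      ¬ (M.Y P ∈ A.nonunits ∧ 3 * M.X P ^ 2 + 2 * a₂ * M.X P + a₄ ∈ A.nonunits))
    {ζ : Qb} (hζ : IsPrimitiveRoot ζ p)
    {T : G} (hT0 : T ≠ 0) (hTp : p • T = 0) (hTX : M.X T ∉ A)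
    (hTz : A.valuation (M.zPar T) = A.valuation (ζ - 1))
    (hTH : ∀ τ ∈ HH A p, τ • T = T)
    {P : G} (hP0 : P ≠ 0) (hPX : M.X P ∈ A) (hPH : ∀ τ ∈ HH A p, ∃ a : ℤ, τ • P - P = a • T)
    {σ : GQ} (hσ : σ ∈ HH A p) (hfix : FixU A p σ) : σ • P = P := by
  classical
  have : Fact p.Prime := ⟨hp⟩
  set v := A.valuation with hv
  have h₂' : v a₂ ≤ 1 := (A.valuation_le_one_iff _).2 h₂
  have h₄' : v a₄ ≤ 1 := (A.valuation_le_one_iff _).2 h₄
  have h₆' : v a₆ ≤ 1 := (A.valuation_le_one_iff _).2 h₆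
  have hv2 : v (2 : Qb) = 1 := by
    have h := Peu_val_natCast hp hA (k := 2) (fun hd =>
      hp2 ((Nat.prime_dvd_prime_iff_eq hp Nat.prime_two).1 hd))
    exact_mod_cast h
  have hPX' : v (M.X P) ≤ 1 := (A.valuation_le_one_iff _).2 hPX
  have hTX' : 1 < v (M.X T) := not_le.1 (mt (A.valuation_le_one_iff _).1 hTX)
  have hns' : ¬ (v (M.Y P) < 1 ∧ v (3 * M.X P ^ 2 + 2 * a₂ * M.X P + a₄) < 1) := fun h =>
    hns P hP0 hPX ⟨A.mem_nonunits_iff.2 h.1, A.mem_nonunits_iff.2 h.2⟩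
  -- the homomorphism `b ↦ b • T`
  let φ : ZMod p →+ G := ZMod.lift p ⟨zmultiplesHom G T, by
    change ((p : ℕ) : ℤ) • T = 0
    rw [natCast_zsmul, hTp]⟩
  have hφint : ∀ n : ℤ, φ (n : ZMod p) = n • T := fun n => ZMod.lift_coe p _ n
  have hφval : ∀ b : ZMod p, φ b = b.val • T := by
    intro b
    have h := hφint (b.val : ℤ)
    rw [Int.cast_natCast, ZMod.natCast_zmod_val, natCast_zsmul] at h
    exact h
  have hφH : ∀ τ ∈ HH A p, ∀ b, τ • φ b = φ b := by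
    intro τ hτ b
    rw [hφval, smul_comm, hTH τ hτ]
  -- the cocycle
  let a : GQ → ZMod p := fun τ =>
    if h : τ ∈ HH A p then (((hPH τ h).choose : ℤ) : ZMod p) else 0
  have hPa : ∀ τ ∈ HH A p, τ • P = P + φ (a τ) := by
    intro τ hτ
    have h1 : a τ = (((hPH τ hτ).choose : ℤ) : ZMod p) := dif_pos hτ
    rw [h1, hφint, ← (hPH τ hτ).choose_spec]
    abel
  let Q : ZMod p → G := fun b => P + φ b
  have hQ0 : Q 0 = P := by
    change P + φ 0 = P
    rw [_root_.map_zero, add_zero]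
  have hQτ : ∀ τ ∈ HH A p, ∀ b, τ • Q b = Q (b + a τ) := by
    intro τ hτ b
    change τ • (P + φ b) = P + φ (b + a τ)
    rw [smul_add, hPa τ hτ, hφH τ hτ, map_add]
    abel
  -- the points `φ b`, `b ≠ 0`
  have hc : ∀ b : ZMod p, b ≠ 0 → φ b ≠ 0 ∧ 1 < v (M.X (φ b)) ∧ v (M.zPar (φ b)) = v (ζ - 1) := by
    intro b hb
    have hk : v ((b.val : ℕ) : Qb) = 1 := Peu_val_natCast hp hA (fun hd => by
      have h1 := Nat.eq_zero_of_dvd_of_lt hd (ZMod.val_lt b)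
      exact hb ((ZMod.val_eq_zero b).1 h1))
    obtain ⟨h1, h2, h3⟩ := Peu_zPar_nsmul_unit v M h₂' h₄' h₆' hT0 hTX' hk
    rw [hφval]
    exact ⟨h1, h2, h3.trans hTz⟩
  have hQ : ∀ b, Q b ≠ 0 ∧ v (M.X (Q b)) ≤ 1 := by
    intro b
    rcases eq_or_ne b 0 with rfl | hb
    · rw [hQ0]
      exact ⟨hP0, hPX'⟩
    · obtain ⟨h1, h2, -⟩ := hc b hb
      obtain ⟨h3, h4, -⟩ := Model.iso v M h₂' h₄' h₆' hv2 hP0 hPX' h1 h2 hns'
      exact ⟨h3, h4⟩
  have hHζ : ∀ τ ∈ HH A p, τ ζ = ζ := fun τ hτ => (mem_HH.1 hτ).2 ζ hζ.pow_eq_one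
  have hfix' : ∀ y : Qb, v y = 1 → (∀ τ ∈ HH A p, τ (y ^ p) = y ^ p) → σ y = y := by
    intro y hy hyH
    refine hfix y ((A.valuation_le_one_iff _).1 hy.le) ((A.valuation_le_one_iff _).1 ?_) hyH
    rw [map_inv₀, ← hv, hy, inv_one]
  have ha0 : a σ = 0 := by
    by_contra hne
    obtain ⟨h1, h2, h3⟩ := hc (a σ) hne
    obtain ⟨-, -, h4⟩ := Model.iso v M h₂' h₄' h₆' hv2 hP0 hPX' h1 h2 hns'
    rw [h3] at h4
    rcases le_max_iff.1 h4 with h5 | h5
    · refine hne (resolvent v hζ (HH A p) hHζ (fun b => M.X (Q b)) (fun b => (hQ b).2) a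
        (fun τ hτ b => ?_) hσ hfix' ?_)
      · rw [← hMX τ (Q b) (hQ b).1, hQτ τ hτ]
      · rw [hQ0]
        exact h5
    · refine hne (resolvent v hζ (HH A p) hHζ (fun b => M.Y (Q b))
        (fun b => M.v_Y_le_one v h₂' h₄' h₆' (hQ b).1 (hQ b).2) a
        (fun τ hτ b => ?_) hσ hfix' ?_)
      · rw [← hMY τ (Q b) (hQ b).1, hQτ τ hτ]
      · rw [hQ0]
        exact h5
  rw [hPa σ hσ, ha0, _root_.map_zero, add_zero]

end Fermat.Agent.MR.E
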