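import Fermat.Agent.MR.E.Glue
import Fermat.Agent.S41.G.TorsCard
import Fermat.Prelude.Def_FLTPrelim_Modularity

/-!
# MR / E : the roots of the `p`-division polynomial over `Qb` are the `x(P)`, `P ∈ E[p] ∖ 0`, simple
-/

set_option autoImplicit false

open WeierstrassCurve WeierstrassCurve.Affine WeierstrassCurve.Affine.Point
open Fermat.Agent.S05 Polynomial

namespace Fermat.Agent.MR.E

local notation "Qb" => AlgebraicClosure ℚ
local notation "GQ" => (AlgebraicClosure ℚ ≃ₐ[ℚ] AlgebraicClosure ℚ)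

/-- the `p`-division polynomial over `Qb`, `p = 2 m + 1` -/
noncomputable def hQb (W : WeierstrassCurve ℤ) (m : ℕ) : Qb[X] :=
  (S13.hpoly W m).map (Int.castRingHom Qb)

theorem EQ_Δ_ne_zero (W : WeierstrassCurve ℤ) {p : ℕ} (hgood : W.IsGoodPrimeFor p) :
    (EQ W).Δ ≠ 0 := by
  rw [EQ, WeierstrassCurve.map_Δ]
  intro h
  have h0 : W.Δ = 0 := by simpa using h
  exact hgood (h0 ▸ dvd_zero _)

/-- `hQb W m = S13.hpoly ((EQ W)⁄Qb) m` (twice `S13.hpoly_map`, `Polynomial.map_map`). -/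
theorem hQb_eq (W : WeierstrassCurve ℤ) (m : ℕ) : hQb W m = S13.hpoly ((EQ W)⁄Qb) m := by
  have h1 : S13.hpoly ((EQ W)⁄Qb) m
      = ((S13.hpoly W m).map (Int.castRingHom ℚ)).map (algebraMap ℚ Qb) := by
    rw [← S13.hpoly_map, ← S13.hpoly_map]
    rfl
  rw [h1, hQb, Polynomial.map_map]
  congr 1

/-- `S13.smul_eq_zero_iff` + `hQb_eq` + `natCast_zsmul`. -/
theorem tors_iff_root (W : WeierstrassCurve ℤ) (m : ℕ) (hm : 1 ≤ m) (P : ((EQ W)⁄Qb).Point)
    (hP : P ≠ 0) : ((2 * m + 1 : ℕ) : ℤ) • P = 0 ↔ (hQb W m).eval ((MW W).X P) = 0 := by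
  rcases P with _ | ⟨x, y, h⟩
  · exact absurd rfl hP
  rw [MW_X_some, natCast_zsmul, hQb_eq]
  exact S13.smul_eq_zero_iff ((EQ W)⁄Qb) h m hm

/-- `S41.G.torsCard_exists_point`. -/
theorem exists_point_of_root (W : WeierstrassCurve ℤ) (hΔ : (EQ W).Δ ≠ 0) (m : ℕ) (hm : 1 ≤ m)
    (x : Qb) (hx : (hQb W m).eval x = 0) :
    ∃ P : ((EQ W)⁄Qb).Point, P ≠ 0 ∧ ((2 * m + 1 : ℕ) : ℤ) • P = 0 ∧ (MW W).X P = x := by
  have hΔ' : ((EQ W)⁄Qb).Δ ≠ 0 := by
    have e : ((EQ W)⁄Qb).Δ = algebraMap ℚ Qb (EQ W).Δ := WeierstrassCurve.map_Δ _ _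
    rw [e]
    exact (_root_.map_ne_zero _).2 hΔ
  obtain ⟨y, h⟩ := S41.G.torsCard_exists_point ((EQ W)⁄Qb) hΔ' x
  refine ⟨Point.some x y h, Point.some_ne_zero h, ?_, MW_X_some W h⟩
  rw [tors_iff_root W m hm _ (Point.some_ne_zero h), MW_X_some]
  exact hx

/-- `Point.X_eq_iff`. -/
theorem MW_X_eq_iff (W : WeierstrassCurve ℤ) {P Q : ((EQ W)⁄Qb).Point} (hP : P ≠ 0) (hQ : Q ≠ 0) :
    (MW W).X P = (MW W).X Q ↔ P = Q ∨ P = -Q := by
  rcases P with _ | ⟨x, y, h⟩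
  · exact absurd rfl hP
  rcases Q with _ | ⟨x', y', h'⟩
  · exact absurd rfl hQ
  rw [MW_X_some, MW_X_some]
  exact Point.X_eq_iff

/-- `S13.hpoly_natDegree` + `IsAlgClosed.splits`, `splits_iff_card_roots`. -/
theorem hQb_roots_card (W : WeierstrassCurve ℤ) (m : ℕ) (hm : 1 ≤ m) :
    Multiset.card (hQb W m).roots = 2 * m ^ 2 + 2 * m := by
  have hd : (hQb W m).natDegree = 2 * m ^ 2 + 2 * m := by
    rw [hQb_eq]
    exact S13.hpoly_natDegree _ m hm (Nat.cast_ne_zero.2 (by omega))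
  rw [← hd]
  exact splits_iff_card_roots.1 (IsAlgClosed.splits _)

/-- PROOF.  `V₀ := {P | p • P = 0 ∧ P ≠ 0}` is finite of cardinality `p² - 1`
(`S41.G.card_torsionBy_Qbar`, `finite_torsionBy_Qbar`), `X` maps it into `roots.toFinset` with fibres
of cardinality `≤ 2` (`MW_X_eq_iff`), so (`Finset.card_le_mul_card_image`)
`p² - 1 ≤ 2 * roots.toFinset.card ≤ 2 * card roots = p² - 1`, whence
`roots.toFinset.card = card roots` (`Multiset.toFinset_card_eq_card_iff_nodup`). -/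
theorem hQb_roots_nodup (W : WeierstrassCurve ℤ) (hΔ : (EQ W).Δ ≠ 0) (m : ℕ) (hm : 1 ≤ m)
    (hp : (2 * m + 1).Prime) : (hQb W m).roots.Nodup := by
  classical
  have hp2 : 2 * m + 1 ≠ 2 := by omega
  have hfin := S41.G.finite_torsionBy_Qbar (EQ W) hΔ hp hp2
  have hcard := S41.G.card_torsionBy_Qbar (EQ W) hΔ hp hp2
  set V := Submodule.torsionBy ℤ ((EQ W)⁄Qb).Point ((2 * m + 1 : ℕ) : ℤ) with hV
  have : Fintype V := Fintype.ofFinite V
  rw [Nat.card_eq_fintype_card] at hcard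
  have hne : hQb W m ≠ 0 := by
    intro h0
    have := hQb_roots_card W m hm
    rw [h0, roots_zero, Multiset.card_zero] at this
    nlinarith
  let S : Finset V := Finset.univ.erase 0
  have hS : S.card = (2 * m + 1) ^ 2 - 1 := by
    rw [Finset.card_erase_of_mem (Finset.mem_univ _), Finset.card_univ, hcard]
  let f : V → Qb := fun P => (MW W).X (P : ((EQ W)⁄Qb).Point)
  have hne0 : ∀ a ∈ S, (a : ((EQ W)⁄Qb).Point) ≠ 0 := by
    intro a ha h0
    exact (Finset.mem_erase.1 ha).1 (Subtype.ext h0)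
  have hmaps : ∀ a ∈ S, f a ∈ (hQb W m).roots.toFinset := by
    intro a ha
    rw [Multiset.mem_toFinset, mem_roots hne, IsRoot.def]
    rw [← tors_iff_root W m hm _ (hne0 a ha)]
    exact (Submodule.mem_torsionBy_iff _ _).1 a.2
  have hfib : ∀ b ∈ (hQb W m).roots.toFinset, (S.filter (fun a => f a = b)).card ≤ 2 := by
    intro b _
    by_cases he : (S.filter (fun a => f a = b)) = ∅
    · rw [he]; simp
    · obtain ⟨a0, ha0⟩ := Finset.nonempty_iff_ne_empty.2 he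
      rw [Finset.mem_filter] at ha0
      refine le_trans (Finset.card_le_card (t := {a0, -a0}) ?_) Finset.card_le_two
      intro a ha
      rw [Finset.mem_filter] at ha
      have hX : (MW W).X (a : ((EQ W)⁄Qb).Point) = (MW W).X (a0 : ((EQ W)⁄Qb).Point) :=
        ha.2.trans ha0.2.symm
      rw [Finset.mem_insert, Finset.mem_singleton]
      rcases (MW_X_eq_iff W (hne0 a ha.1) (hne0 a0 ha0.1)).1 hX with h | h
      · exact Or.inl (Subtype.ext h)
      · exact Or.inr (Subtype.ext h)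
  have h1 := Finset.card_le_mul_card_image_of_maps_to hmaps 2 hfib
  have h2 := Multiset.toFinset_card_le (hQb W m).roots
  have h3 := hQb_roots_card W m hm
  rw [← Multiset.toFinset_card_eq_card_iff_nodup]
  rw [hS] at h1
  have h4 : (2 * m + 1) ^ 2 - 1 = 2 * (2 * m ^ 2 + 2 * m) := by
    have : (2 * m + 1) ^ 2 = 2 * (2 * m ^ 2 + 2 * m) + 1 := by ring
    omega
  omega

end Fermat.Agent.MR.E
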