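import Fermat.Agent.MR.E.Roots
import Fermat.Agent.MR.E.HMod
import Fermat.Agent.S55.P.ValueGroup

/-!
# MR / E : the supersingular case: no line of `E[p]` is stable under inertia
-/

set_option autoImplicit false

open WeierstrassCurve WeierstrassCurve.Affine WeierstrassCurve.Affine.Point
open Fermat.Agent.S05 Polynomial

namespace Fermat.Agent.MR.E

local notation "Qb" => AlgebraicClosure ℚ
local notation "GQ" => (AlgebraicClosure ℚ ≃ₐ[ℚ] AlgebraicClosure ℚ)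

theorem ss_valuation_eq_one {A : ValuationSubring Qb} {x : Qb} (hx : S55.P.IsUnitAt A x) :
    A.valuation x = 1 := by
  have h1 : A.valuation x ≤ 1 := (A.valuation_le_one_iff _).mpr hx.1
  have h2 : A.valuation x⁻¹ ≤ 1 := (A.valuation_le_one_iff _).mpr hx.2.1
  have h0 : A.valuation x ≠ 0 := (Valuation.ne_zero_iff _).mpr hx.2.2
  rw [map_inv₀, inv_le_one₀ (zero_lt_iff.mpr h0)] at h2
  exact le_antisymm h1 h2

/-- PROOF.  `p = 2m+1`, `d = 2m²+2m`.  All roots of `hQb W m` are big (`exists_point_of_root`, `hall`),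
so `S13.newton_polygon` gives `v(X P)^d * v p = 1` for all `P ∈ E[p] ∖ 0` (`tors_iff_root`).
Suppose `∀ σ ∈ I, ∃ a : ℤ, σ • T = a • T`.  `N := ∏_{a ∈ Icc 1 (p-1)} X (a • T)` (`≠ 0`).  For `σ ∈ I`,
`σ • T = a_σ • T` with `p ∤ a_σ`, `σ (X (a • T)) = X (a • σ • T) = X ((a a_σ) • T)` (`MW_X_smul`,
`smul_comm`/`map_zsmul`), and `a ↦ a a_σ mod p` permutes `Icc 1 (p-1)` (easier: index the product by
`(ZMod p)ˣ`, `a ↦ X (a.val.val • T)`, `Equiv.mulRight`, `Fintype.prod_equiv`), so `σ N = N`.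
`S55.P.exists_zpow_mul_isUnitAt` : `N * p^(-n)` is a unit at `A`, so `v N = v p ^ n`
(`S55.P.roots_valuation_eq_one`).  `v N ^ d * v p ^ (p-1) = 1`, so `v p ^ (n d + p - 1) = 1`, hence
`n d + (p - 1) = 0` (`v p < 1`, `v p ≠ 0`; `zpow_eq_one_iff…`/`S55.P.zpow_isUnitAt_iff`), i.e.
`n (m+1) · 2m = - 2m`, `n (m+1) = -1`, impossible for `m ≥ 1`. -/
theorem ss_case (W : WeierstrassCurve ℤ) {p : ℕ} (hp : p.Prime) (hp2 : p ≠ 2)
    (hgood : W.IsGoodPrimeFor p) (A : ValuationSubring Qb) (hA : A.LiesOverPrime p)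
    (hall : ∀ P : ((EQ W)⁄Qb).Point, (p : ℤ) • P = 0 → P ≠ 0 → (MW W).X P ∉ A)
    (T : ((EQ W)⁄Qb).Point) (hT : (p : ℤ) • T = 0) (hT0 : T ≠ 0) :
    ∃ σ ∈ A.inertiaSubgroupIn ℚ, ∀ a : ℤ, σ • T ≠ a • T := by
  classical
  obtain ⟨m, rfl⟩ : ∃ m, p = 2 * m + 1 := (hp.eq_two_or_odd'.resolve_left hp2)
  have hm : 1 ≤ m := by
    rcases Nat.eq_zero_or_pos m with rfl | h
    · exact absurd hp (by norm_num)
    · exact h
  have hfact : Fact (2 * m + 1).Prime := ⟨hp⟩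
  have hd : 0 < 2 * m ^ 2 + 2 * m := by positivity
  have hΔ := EQ_Δ_ne_zero W hgood
  have hvp := val_p_lt hA
  have hp0 : ((2 * m + 1 : ℕ) : Qb) ≠ 0 := Nat.cast_ne_zero.2 hp.ne_zero
  have hvp0 : A.valuation ((2 * m + 1 : ℕ) : Qb) ≠ 0 := (Valuation.ne_zero_iff _).2 hp0
  have hroots : ∀ x : Qb, ((S13.hpoly W m).map (Int.castRingHom Qb)).eval x = 0 →
      1 < A.valuation x := by
    intro x hx
    obtain ⟨P, hP0, hP, rfl⟩ := exists_point_of_root W hΔ m hm x hx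
    rw [← not_le, A.valuation_le_one_iff]
    exact hall P hP hP0
  have hNP : ∀ P : ((EQ W)⁄Qb).Point, ((2 * m + 1 : ℕ) : ℤ) • P = 0 → P ≠ 0 →
      A.valuation ((MW W).X P) ^ (2 * m ^ 2 + 2 * m) * A.valuation ((2 * m + 1 : ℕ) : Qb) = 1 :=
    fun P hP hP0 => S13.newton_polygon A.valuation (2 * m + 1) hp hvp (S13.hpoly W m) _ hd
      (S13.hpoly_natDegree_le W m hm) (S13.hpoly_coeff W m hm)
      (hpoly_mod_ne_zero W hp hp2 hgood m hm) hroots _ ((tors_iff_root W m hm P hP0).1 hP)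
  by_contra hcon
  push Not at hcon
  -- multiples of `T`
  have hmulp : ∀ k : ℤ, (((2 * m + 1 : ℕ) : ℤ) * k) • T = 0 := by
    intro k
    rw [mul_zsmul', hT, zsmul_zero]
  have hcast : ∀ a : ℤ, (((a : ZMod (2 * m + 1)).val : ℕ) : ℤ) • T = a • T := by
    intro a
    rw [ZMod.val_intCast]
    conv_rhs => rw [← Int.emod_add_mul_ediv a ((2 * m + 1 : ℕ) : ℤ), add_zsmul, hmulp, add_zero]
  have hne : ∀ k : ℤ, ¬ ((2 * m + 1 : ℕ) : ℤ) ∣ k → k • T ≠ 0 := by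
    intro k hk h0
    obtain ⟨x, y, hxy⟩ := ((Nat.prime_iff_prime_int.1 hp).coprime_iff_not_dvd).2 hk
    apply hT0
    rw [← one_zsmul T, ← hxy, add_zsmul, mul_comm x, hmulp, mul_zsmul, h0, zsmul_zero, add_zero]
  have hunit : ∀ a : (ZMod (2 * m + 1))ˣ,
      ¬ ((2 * m + 1 : ℕ) : ℤ) ∣ (((a : ZMod (2 * m + 1)).val : ℕ) : ℤ) := by
    intro a h
    rw [← ZMod.intCast_zmod_eq_zero_iff_dvd, Int.cast_natCast, ZMod.natCast_val, ZMod.cast_id] at h
    exact a.ne_zero h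
  set f : (ZMod (2 * m + 1))ˣ → Qb :=
    fun a => (MW W).X ((((a : ZMod (2 * m + 1)).val : ℕ) : ℤ) • T) with hf
  have hfv : ∀ a, A.valuation (f a) ^ (2 * m ^ 2 + 2 * m) *
      A.valuation ((2 * m + 1 : ℕ) : Qb) = 1 := by
    intro a
    refine hNP _ ?_ (hne _ (hunit a))
    rw [← mul_zsmul, hmulp]
  have hf0 : ∀ a, f a ≠ 0 := by
    intro a h0
    have h1 := hfv a
    rw [h0, _root_.map_zero, zero_pow hd.ne', zero_mul] at h1
    exact zero_ne_one h1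
  have hN0 : ∏ a, f a ≠ 0 := Finset.prod_ne_zero_iff.2 fun a _ => hf0 a
  have hfix : ∀ σ ∈ A.inertiaSubgroupIn ℚ, σ (∏ a, f a) = ∏ a, f a := by
    intro σ hσ
    obtain ⟨b, hb⟩ := hcon σ hσ
    have hb0 : (b : ZMod (2 * m + 1)) ≠ 0 := by
      intro h0
      rw [ZMod.intCast_zmod_eq_zero_iff_dvd] at h0
      obtain ⟨k, rfl⟩ := h0
      rw [hmulp] at hb
      exact hT0 ((smul_eq_zero_iff_pt W σ T).1 hb)
    rw [map_prod]
    refine Fintype.prod_equiv (Equiv.mulRight (Units.mk0 _ hb0)) _ _ fun a => ?_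
    simp only [hf, Equiv.coe_mulRight, Units.val_mul, Units.val_mk0]
    rw [← MW_X_smul, smul_zsmul_pt, hb, ← mul_zsmul]
    congr 1
    rw [← hcast ((((a : ZMod (2 * m + 1)).val : ℕ) : ℤ) * b)]
    congr 3
    rw [Int.cast_mul, Int.cast_natCast, ZMod.natCast_val, ZMod.cast_id]
  obtain ⟨n, hn⟩ := S55.P.exists_zpow_mul_isUnitAt A hp hA hN0 hfix
  have hvN : A.valuation (∏ a, f a) = A.valuation ((2 * m + 1 : ℕ) : Qb) ^ n := by
    have h1 := ss_valuation_eq_one hn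
    rw [map_mul, map_zpow₀, zpow_neg] at h1
    exact (mul_inv_eq_one₀ (zpow_ne_zero _ hvp0)).1 h1
  have hprod : A.valuation (∏ a, f a) ^ (2 * m ^ 2 + 2 * m) *
      A.valuation ((2 * m + 1 : ℕ) : Qb) ^ (2 * m) = 1 := by
    have hcard : (Finset.univ : Finset (ZMod (2 * m + 1))ˣ).card = 2 * m := by
      rw [Finset.card_univ, ZMod.card_units]
      rfl
    have hconst : A.valuation ((2 * m + 1 : ℕ) : Qb) ^ (2 * m) =
        ∏ _a : (ZMod (2 * m + 1))ˣ, A.valuation ((2 * m + 1 : ℕ) : Qb) := by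
      rw [Finset.prod_const, hcard]
    rw [map_prod, ← Finset.prod_pow, hconst, ← Finset.prod_mul_distrib]
    exact Finset.prod_eq_one fun a _ => hfv a
  have hz : A.valuation ((2 * m + 1 : ℕ) : Qb) ^
      (n * ((2 * m ^ 2 + 2 * m : ℕ) : ℤ) + ((2 * m : ℕ) : ℤ)) = 1 := by
    rw [zpow_add₀ hvp0, zpow_mul, zpow_natCast, zpow_natCast, ← hvN]
    exact hprod
  have hzero : n * ((2 * m ^ 2 + 2 * m : ℕ) : ℤ) + ((2 * m : ℕ) : ℤ) = 0 := by
    rw [← S55.P.zpow_isUnitAt_iff A hA]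
    rw [← map_zpow₀] at hz
    refine ⟨(A.valuation_le_one_iff _).1 hz.le, (A.valuation_le_one_iff _).1 ?_,
      zpow_ne_zero _ hp0⟩
    rw [map_inv₀, hz, inv_one]
  push_cast at hzero
  have hm' : (1 : ℤ) ≤ m := by exact_mod_cast hm
  have h1 : (-n) * ((m : ℤ) + 1) = 1 := by
    have h2 : (2 * (m : ℤ)) * ((-n) * ((m : ℤ) + 1)) = (2 * (m : ℤ)) * 1 := by linarith
    exact mul_left_cancel₀ (by omega) h2
  have h3 : IsUnit ((m : ℤ) + 1) := IsUnit.of_mul_eq_one_right _ h1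
  rcases Int.isUnit_iff.1 h3 with h4 | h4 <;> omega

end Fermat.Agent.MR.E
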