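import Fermat.Agent.MR.E.CStruct
import Fermat.Agent.MR.E.HMod
import Fermat.Agent.MR.E.SS
import Fermat.Agent.MR.E.Inert

/-!
# MR / E : (SS) or (ORD)(i),(ii) + the exact valuation of `z(T)`
-/

set_option autoImplicit false

open WeierstrassCurve WeierstrassCurve.Affine WeierstrassCurve.Affine.Point
open Fermat.Agent.S05 Polynomial

namespace Fermat.Agent.MR.E

local notation "Qb" => AlgebraicClosure ℚ
local notation "GQ" => (AlgebraicClosure ℚ ≃ₐ[ℚ] AlgebraicClosure ℚ)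

/-- (SS) or (ORD)(i),(ii) + the exact valuation of `z(T)`. -/
theorem ss_or_ord (W : WeierstrassCurve ℤ) {p : ℕ} (hp : p.Prime) (hp2 : p ≠ 2)
    (hgood : W.IsGoodPrimeFor p) (A : ValuationSubring Qb) (hA : A.LiesOverPrime p) :
    (∀ T : ((EQ W)⁄Qb).Point, (p : ℤ) • T = 0 → T ≠ 0 →
      ∃ σ ∈ A.inertiaSubgroupIn ℚ, ∀ a : ℤ, σ • T ≠ a • T) ∨
    (∃ T : ((EQ W)⁄Qb).Point, (p : ℤ) • T = 0 ∧ T ≠ 0 ∧ (MW W).X T ∉ A ∧
      (∀ P : ((EQ W)⁄Qb).Point, (p : ℤ) • P = 0 → P ≠ 0 → (MW W).X P ∉ A → ∃ a : ℤ, P = a • T) ∧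
      (∀ σ ∈ A.inertiaSubgroupIn ℚ, ∀ P : ((EQ W)⁄Qb).Point, (p : ℤ) • P = 0 →
        ∃ a : ℤ, σ • P - P = a • T) ∧
      (∀ σ ∈ A.inertiaSubgroupIn ℚ, ∀ e : ℕ, (∀ ζ : Qb, ζ ^ p = 1 → σ ζ = ζ ^ e) →
        σ • T = (e : ℤ) • T) ∧
      (∀ ζ : Qb, IsPrimitiveRoot ζ p → A.valuation ((MW W).zPar T) = A.valuation (ζ - 1))) := by
  by_cases hall : ∀ P : ((EQ W)⁄Qb).Point, (p : ℤ) • P = 0 → P ≠ 0 → (MW W).X P ∉ A
  · left
    exact fun T hT hT0 => ss_case W hp hp2 hgood A hA hall T hT hT0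
  right
  push Not at hall
  obtain ⟨P₀, h1, h2, h3⟩ := hall
  have hΔ := EQ_Δ_ne_zero W hgood
  have hmod := hpoly_mod_ne_zero W hp hp2 hgood ((p - 1) / 2) (by
    have := hp.two_le
    omega)
  obtain ⟨T, hT, hT0, hTA⟩ := exists_big W hp hp2 hΔ hmod A hA
  have hC : ∀ P : ((EQ W)⁄Qb).Point, (p : ℤ) • P = 0 → P ≠ 0 → (MW W).X P ∉ A →
      ∃ a : ℤ, P = a • T :=
    fun P hP hP0 hPA => ord_struct W hp hp2 hΔ A h1 h2 h3 hT hT0 hTA P hP hP0 hPA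
  have hzp := val_zPar_pow W hp hp2 hΔ hmod A hA hT hT0 hTA hC
  have hp1 : p - 1 ≠ 0 := by have := hp.two_le; omega
  have hz : ∀ ζ : Qb, IsPrimitiveRoot ζ p →
      A.valuation ((MW W).zPar T) = A.valuation (ζ - 1) := by
    intro ζ hζ
    have h := val_zeta_sub_one_pow A hp hζ
    exact (pow_left_inj₀ zero_le zero_le hp1).1 (hzp.trans h.symm)
  refine ⟨T, hT, hT0, hTA, hC, ?_, ?_, hz⟩
  · intro σ hσ P hP
    rcases inert_sub W hp hgood A hA hσ P with h | h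
    · exact ⟨0, by rw [h, zero_zsmul]⟩
    · by_cases h0 : σ • P - P = 0
      · exact ⟨0, by rw [h0, zero_zsmul]⟩
      · refine hC _ ?_ h0 h
        rw [zsmul_sub, ← smul_zsmul_pt, hP, smul_zero_pt, sub_zero]
  · intro σ hσ e he
    obtain ⟨ζ, hζ⟩ : ∃ ζ : Qb, IsPrimitiveRoot ζ p :=
      have : NeZero ((p : ℕ) : Qb) := ⟨Nat.cast_ne_zero.2 hp.ne_zero⟩
      HasEnoughRootsOfUnity.exists_primitiveRoot Qb p
    have hin := S13.isInertial_of_mem_inertia A σ hσ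
    have hσT0 : σ • T ≠ 0 := fun h => hT0 ((smul_eq_zero_iff_pt W σ T).1 h)
    have hσTA : (MW W).X (σ • T) ∉ A := by
      rw [MW_X_smul, ← A.valuation_le_one_iff]
      have := hin.map_val ((MW W).X T)
      rw [show A.valuation (σ ((MW W).X T)) = A.valuation ((MW W).X T) from this,
        A.valuation_le_one_iff]
      exact hTA
    obtain ⟨a, ha⟩ := hC (σ • T) (by rw [← smul_zsmul_pt, hT, smul_zero_pt]) hσT0 hσTA
    have hpZ : (0 : ℤ) < p := by exact_mod_cast hp.pos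
    have hk : σ • T = (a % p).toNat • T := by
      rw [← natCast_zsmul, Int.toNat_of_nonneg (Int.emod_nonneg _ hpZ.ne'), ha]
      conv_lhs => rw [← Int.mul_ediv_add_emod a p]
      rw [add_zsmul, mul_comm, mul_zsmul, hT, zsmul_zero, zero_add]
    exact inert_cyclo W hp hp2 A hA hT hT0 hTA hζ (hz ζ hζ) hσ hk (he ζ hζ.pow_eq_one)

end Fermat.Agent.MR.E
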